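import Mathlib
import Fermat.Prelude.Def_GaloisRep_Adic

/-!
# S53 / M2 : Schur's lemma

* `schur_residual_end` : an endomorphism of an absolutely irreducible residual representation
  commuting with the Galois action is a scalar.
* `schur_local` : over an arbitrary commutative local ring `A`, a `2 × 2` matrix commuting with a
  family of matrices whose reductions have only scalar centraliser is itself scalar.
-/

set_option autoImplicit false

open scoped TensorProduct

namespace Fermat.Agent.S53

open IsLocalRing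

/-- A `2 × 2` matrix is scalar (as an explicit entry-wise condition). -/
def IsScalarMat {R : Type*} [Zero R] (X : Matrix (Fin 2) (Fin 2) R) : Prop :=
  X 0 1 = 0 ∧ X 1 0 = 0 ∧ X 0 0 = X 1 1

theorem IsScalarMat.eq_smul_one {R : Type*} [CommRing R] {X : Matrix (Fin 2) (Fin 2) R}
    (h : IsScalarMat X) : X = X 0 0 • (1 : Matrix (Fin 2) (Fin 2) R) := by
  obtain ⟨h01, h10, h00⟩ := h
  ext i j
  fin_cases i <;> fin_cases j <;> simp [h01, h10, ← h00]

theorem isScalarMat_smul_one {R : Type*} [CommRing R] (a : R) :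
    IsScalarMat (a • (1 : Matrix (Fin 2) (Fin 2) R)) := by
  refine ⟨?_, ?_, ?_⟩ <;> simp

theorem isScalarMat_iff_exists {R : Type*} [CommRing R] {X : Matrix (Fin 2) (Fin 2) R} :
    IsScalarMat X ↔ ∃ a : R, X = a • (1 : Matrix (Fin 2) (Fin 2) R) :=
  ⟨fun h => ⟨_, h.eq_smul_one⟩, fun ⟨a, ha⟩ => ha ▸ isScalarMat_smul_one a⟩

/-- Entry-wise form of the commutation relation `r * X = X * r` for `2 × 2` matrices,
in terms of the "off-scalar part" `(X 0 0 - X 1 1, X 0 1, X 1 0)`. -/
theorem commute_iff_entries {R : Type*} [CommRing R] (r X : Matrix (Fin 2) (Fin 2) R) :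
    r * X = X * r ↔
      (r 0 1 * X 1 0 = r 1 0 * X 0 1 ∧
        (r 0 0 - r 1 1) * X 0 1 = r 0 1 * (X 0 0 - X 1 1) ∧
        r 1 0 * (X 0 0 - X 1 1) = (r 0 0 - r 1 1) * X 1 0) := by
  constructor
  · intro h
    have h00 := congrFun (congrFun h 0) 0
    have h01 := congrFun (congrFun h 0) 1
    have h10 := congrFun (congrFun h 1) 0
    simp only [Matrix.mul_apply, Fin.sum_univ_two] at h00 h01 h10
    refine ⟨?_, ?_, ?_⟩
    · linear_combination h00
    · linear_combination h01
    · linear_combination h10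
  · rintro ⟨h1, h2, h3⟩
    ext i j
    fin_cases i <;> fin_cases j <;>
      simp only [Matrix.mul_apply, Fin.sum_univ_two, Fin.zero_eta, Fin.mk_one, Fin.isValue]
    · linear_combination h1
    · linear_combination h2
    · linear_combination h3
    · linear_combination -h1


section Local

variable {A : Type*} [CommRing A] [IsLocalRing A]

/-- Key step: every `A`-linear functional `J → A/m` kills the "off-scalar part" of a matrix
commuting with a family with scalar residual centraliser. -/
private theorem schur_functional {ι : Type*} (r : ι → Matrix (Fin 2) (Fin 2) A)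
    (hres : ∀ Y : Matrix (Fin 2) (Fin 2) (ResidueField A),
      (∀ g, (r g).map (residue A) * Y = Y * (r g).map (residue A)) → IsScalarMat Y)
    (J : Ideal A) (y00 y01 y10 : J)
    (hy : ∀ g, (r g 0 1 * (y10 : A) = r g 1 0 * (y01 : A) ∧
        (r g 0 0 - r g 1 1) * (y01 : A) = r g 0 1 * (y00 : A) ∧
        r g 1 0 * (y00 : A) = (r g 0 0 - r g 1 1) * (y10 : A)))
    (ψ : J →ₗ[A] ResidueField A) : ψ y00 = 0 ∧ ψ y01 = 0 ∧ ψ y10 = 0 := by
  have hψ : ∀ (a : A) (y : J), ψ (a • y) = residue A a * ψ y := by
    intro a y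
    rw [map_smul]
    rfl
  have key := hres !![ψ y00, ψ y01; ψ y10, 0] (fun g => by
    rw [commute_iff_entries]
    obtain ⟨h1, h2, h3⟩ := hy g
    have e1 : (r g 0 1) • y10 = (r g 1 0) • y01 := Subtype.ext (by simpa using h1)
    have e2 : (r g 0 0 - r g 1 1) • y01 = (r g 0 1) • y00 := Subtype.ext (by simpa using h2)
    have e3 : (r g 1 0) • y00 = (r g 0 0 - r g 1 1) • y10 := Subtype.ext (by simpa using h3)
    have f1 := congrArg ψ e1
    have f2 := congrArg ψ e2
    have f3 := congrArg ψ e3
    rw [hψ, hψ] at f1 f2 f3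
    simp only [Matrix.map_apply, Matrix.of_apply, Matrix.cons_val', Matrix.cons_val_zero,
      Matrix.cons_val_one, Matrix.cons_val_fin_one, sub_zero, map_sub] at f1 f2 f3 ⊢
    exact ⟨f1, f2, f3⟩)
  obtain ⟨k01, k10, k00⟩ := key
  simp only [Matrix.of_apply, Matrix.cons_val', Matrix.cons_val_zero,
      Matrix.cons_val_one, Matrix.cons_val_fin_one] at k01 k10 k00
  exact ⟨k00, k01, k10⟩


/-- **Schur's lemma over a local ring.** If the only matrices over the residue field commuting
with all the reductions `r g mod m` are scalar, then the only matrices over `A` commuting with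
all the `r g` are scalar. No finiteness hypothesis on `A` is needed. -/
theorem schur_local {ι : Type*} (r : ι → Matrix (Fin 2) (Fin 2) A)
    (hres : ∀ Y : Matrix (Fin 2) (Fin 2) (ResidueField A),
      (∀ g, (r g).map (residue A) * Y = Y * (r g).map (residue A)) → IsScalarMat Y)
    (X : Matrix (Fin 2) (Fin 2) A) (hX : ∀ g, r g * X = X * r g) : IsScalarMat X := by
  classical
  set J : Ideal A := Ideal.span {X 0 0 - X 1 1, X 0 1, X 1 0} with hJ
  have m00 : X 0 0 - X 1 1 ∈ J := Ideal.subset_span (by simp)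
  have m01 : X 0 1 ∈ J := Ideal.subset_span (by simp)
  have m10 : X 1 0 ∈ J := Ideal.subset_span (by simp)
  have hy : ∀ g, (r g 0 1 * X 1 0 = r g 1 0 * X 0 1 ∧
        (r g 0 0 - r g 1 1) * X 0 1 = r g 0 1 * (X 0 0 - X 1 1) ∧
        r g 1 0 * (X 0 0 - X 1 1) = (r g 0 0 - r g 1 1) * X 1 0) :=
    fun g => (commute_iff_entries (r g) X).mp (hX g)
  -- every generator lies in `m • J`
  have hgen : ∀ y : J, (∀ ψ : J →ₗ[A] ResidueField A, ψ y = 0) →
      (y : A) ∈ maximalIdeal A • J := by
    intro y hyψ
    let _ : Field (A ⧸ maximalIdeal A) := Ideal.Quotient.field _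
    have h0 : Submodule.mkQ (maximalIdeal A • (⊤ : Submodule A J)) y = 0 := by
      refine (Module.forall_dual_apply_eq_zero_iff (A ⧸ maximalIdeal A) _).mp fun φ => ?_
      exact hyψ ((φ.restrictScalars A).comp (Submodule.mkQ _))
    have h1 : y ∈ maximalIdeal A • (⊤ : Submodule A J) := by
      simpa using h0
    have h2 : (y : A) ∈ Submodule.map J.subtype (maximalIdeal A • (⊤ : Submodule A J)) :=
      ⟨y, h1, rfl⟩
    rwa [Submodule.map_smul'', Submodule.map_top, Submodule.range_subtype] at h2
  have hfun := fun ψ => schur_functional r hres J ⟨_, m00⟩ ⟨_, m01⟩ ⟨_, m10⟩ hy ψ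
  have hle : J ≤ maximalIdeal A • J := by
    rw [hJ, Ideal.span_le]
    intro x hx
    simp only [Set.mem_insert_iff, Set.mem_singleton_iff] at hx
    rcases hx with rfl | rfl | rfl
    · exact hgen ⟨_, m00⟩ fun ψ => (hfun ψ).1
    · exact hgen ⟨_, m01⟩ fun ψ => (hfun ψ).2.1
    · exact hgen ⟨_, m10⟩ fun ψ => (hfun ψ).2.2
  have hfg : (J : Submodule A A).FG := by
    rw [hJ]
    exact ⟨{X 0 0 - X 1 1, X 0 1, X 1 0}, by simp [Ideal.span]⟩
  have hbot : J = ⊥ :=
    Submodule.eq_bot_of_le_smul_of_le_jacobson_bot (maximalIdeal A) J hfg hle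
      (by rw [IsLocalRing.jacobson_eq_maximalIdeal ⊥ bot_ne_top])
  rw [hbot] at m00 m01 m10
  exact ⟨by simpa using m01, by simpa using m10, sub_eq_zero.mp (by simpa using m00)⟩

end Local


section Residual

variable {k : Type} [Field k]

/-- **Schur's lemma for an absolutely irreducible residual representation**: an endomorphism
commuting with the Galois action is a scalar. -/
theorem schur_residual_end (ρ : ResidualGaloisRep k) (h : ρ.IsAbsolutelyIrreducible)
    (X : Module.End k ρ.V) (hX : ∀ σ, X ∘ₗ ρ.ρ σ = ρ.ρ σ ∘ₗ X) :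
    ∃ c : k, X = c • (1 : Module.End k ρ.V) := by
  classical
  set K := AlgebraicClosure k with hK
  set X' : Module.End K (K ⊗[k] ρ.V) := X.baseChange K with hX'
  have hfr : Module.finrank K (K ⊗[k] ρ.V) = 2 := by
    rw [Module.finrank_baseChange, ρ.finrank_eq]
  have : Module.Finite K (K ⊗[k] ρ.V) := Module.finite_of_finrank_eq_succ hfr
  have : Nontrivial (K ⊗[k] ρ.V) := Module.nontrivial_of_finrank_eq_succ hfr
  obtain ⟨lam, hlam⟩ := Module.End.exists_eigenvalue X'
  -- the eigenspace is Galois stable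
  have hstab : ∀ σ : AlgebraicClosure ℚ ≃ₐ[ℚ] AlgebraicClosure ℚ,
      ∀ x ∈ Module.End.eigenspace X' lam,
        (ρ.baseChange K).ρ σ x ∈ Module.End.eigenspace X' lam := by
    intro σ x hx
    rw [Module.End.mem_eigenspace_iff] at hx ⊢
    have hcomm : X' ∘ₗ (ρ.ρ σ).baseChange K = (ρ.ρ σ).baseChange K ∘ₗ X' := by
      rw [hX', ← LinearMap.baseChange_comp, ← LinearMap.baseChange_comp, hX σ]
    have := LinearMap.congr_fun hcomm x
    simp only [LinearMap.comp_apply] at this
    show X' ((ρ.ρ σ).baseChange K x) = lam • (ρ.ρ σ).baseChange K x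
    rw [this, hx, map_smul]
  have htop : Module.End.eigenspace X' lam = ⊤ :=
    (h _ hstab).resolve_left hlam
  have hall : ∀ x, X' x = lam • x := fun x =>
    Module.End.mem_eigenspace_iff.mp (htop ▸ Submodule.mem_top)
  -- descend to `k` using a basis
  let b : Module.Basis (Fin 2) k ρ.V := Module.finBasisOfFinrankEq k ρ.V ρ.finrank_eq
  set M := LinearMap.toMatrix b b X with hM
  have hMK : M.map (algebraMap k K) = lam • (1 : Matrix (Fin 2) (Fin 2) K) := by
    have h1 : LinearMap.toMatrix (Algebra.TensorProduct.basis K b) (Algebra.TensorProduct.basis K b) X' =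
        M.map (algebraMap k K) := by
      rw [hX', hM, LinearMap.toMatrix_baseChange]
    rw [← h1]
    have h2 : X' = lam • (1 : Module.End K (K ⊗[k] ρ.V)) := LinearMap.ext fun x => by
      rw [hall x]; rfl
    rw [h2, map_smul, LinearMap.toMatrix_one]
  have hinj := (algebraMap k K).injective
  have e01 : M 0 1 = 0 := hinj (by
    have := congrFun (congrFun hMK 0) 1
    simpa using this)
  have e10 : M 1 0 = 0 := hinj (by
    have := congrFun (congrFun hMK 1) 0
    simpa using this)
  have e00 : M 0 0 = M 1 1 := hinj (by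
    have h0 := congrFun (congrFun hMK 0) 0
    have h1 := congrFun (congrFun hMK 1) 1
    simp at h0 h1
    rw [h0, h1])
  refine ⟨M 0 0, ?_⟩
  apply (LinearMap.toMatrix b b).injective
  rw [map_smul, LinearMap.toMatrix_one, ← hM]
  exact IsScalarMat.eq_smul_one ⟨e01, e10, e00⟩

end Residual

end Fermat.Agent.S53
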