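import Fermat.Agent.S53.MatRep
import Fermat.Agent.S53.SchurAux

/-!
# S53 / M2 — Schur's lemma for lifts of an absolutely irreducible residual representation
-/

set_option autoImplicit false

noncomputable section

namespace Fermat.Agent.S53

open IsLocalRing

/-- Schur over the residue field: a matrix commuting with `ρbar` is scalar. -/
lemma schur_residual {k : Type} [Field k] (ρbar : ResidualGaloisRep k)
    (habs : ρbar.IsAbsolutelyIrreducible) (X : M2 k)
    (hX : ∀ g, X * rhobarM ρbar g = rhobarM ρbar g * X) :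
    ∃ a : k, X = Matrix.scalar (Fin 2) a := by
  classical
  set b := rhobarBasis ρbar with hb
  obtain ⟨c, hc⟩ := schur_residual_end ρbar habs (Matrix.toLin b b X) (fun σ => by
    apply (LinearMap.toMatrix b b).injective
    rw [LinearMap.toMatrix_comp b b b, LinearMap.toMatrix_comp b b b, LinearMap.toMatrix_toLin]
    exact hX σ)
  refine ⟨c, ?_⟩
  have h := congrArg (LinearMap.toMatrix b b) hc
  rw [LinearMap.toMatrix_toLin, map_smul, LinearMap.toMatrix_one] at h
  rw [h, Matrix.smul_one_eq_diagonal, Matrix.scalar_apply]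

variable {𝒪 : Type} [CommRing 𝒪] [IsLocalRing 𝒪]
  (ρbar : ResidualGaloisRep (ResidueField 𝒪))

/-- Schur over an arbitrary local `𝒪`-algebra with residue field `k`: a matrix commuting with an
exact lift is scalar.  (No Artinian/noetherian/completeness hypothesis is needed.) -/
lemma schur_exact (habs : ρbar.IsAbsolutelyIrreducible)
    {A : Type} [CommRing A] [IsLocalRing A] [Algebra 𝒪 A]
    [IsLocalHom (algebraMap 𝒪 A)]
    (hsurj : Function.Surjective (residue A ∘ algebraMap 𝒪 A))
    (r : GQ →* M2 A) (hex : IsExact ρbar r) (X : M2 A)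
    (hX : ∀ g, X * r g = r g * X) :
    ∃ a : A, X = Matrix.scalar (Fin 2) a := by
  classical
  set ι : ResidueField 𝒪 →+* ResidueField A := ResidueField.map (algebraMap 𝒪 A) with hι
  have hιinj : Function.Injective ι := ι.injective
  have hιsurj : Function.Surjective ι := by
    intro y
    obtain ⟨x, hx⟩ := hsurj y
    exact ⟨residue 𝒪 x, by rw [hι, ResidueField.map_residue]; exact hx⟩
  have hred : ∀ g, (r g).map (residue A) = (rhobarM ρbar g).map ι := by
    intro g
    have := congrArg (fun f : GQ →* M2 (ResidueField A) => f g) hex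
    simpa only [mapRep_apply'] using this
  have key : IsScalarMat X := by
    refine schur_local (fun g => r g) ?_ X (fun g => (hX g).symm)
    intro Y hY
    -- pull `Y` back along the isomorphism `ι`
    obtain ⟨Y₀, rfl⟩ : ∃ Y₀ : M2 (ResidueField 𝒪), Y₀.map ι = Y := by
      choose f hf using hιsurj
      exact ⟨Y.map f, by ext i j; simp [hf]⟩
    have hY₀ : ∀ g, Y₀ * rhobarM ρbar g = rhobarM ρbar g * Y₀ := by
      intro g
      have h1 := hY g
      rw [hred g, ← Matrix.map_mul, ← Matrix.map_mul] at h1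
      exact (Matrix.map_injective hιinj h1).symm
    obtain ⟨a, ha⟩ := schur_residual ρbar habs Y₀ hY₀
    subst ha
    refine ⟨?_, ?_, ?_⟩ <;> simp
  exact ⟨X 0 0, by
    rw [key.eq_smul_one, Matrix.smul_one_eq_diagonal, Matrix.scalar_apply]
    simp⟩

/-- Schur over an Artinian local ring: a matrix commuting with an exact lift is scalar. -/
lemma schur_artinian (habs : ρbar.IsAbsolutelyIrreducible)
    {A : Type} [CommRing A] [IsLocalRing A] [IsArtinianRing A] [Algebra 𝒪 A]
    [IsLocalHom (algebraMap 𝒪 A)]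
    (hsurj : Function.Surjective (residue A ∘ algebraMap 𝒪 A))
    (r : GQ →* M2 A) (hex : IsExact ρbar r) (X : M2 A)
    (hX : ∀ g, X * r g = r g * X) :
    ∃ a : A, X = Matrix.scalar (Fin 2) a :=
  schur_exact ρbar habs hsurj r hex X hX


/-- Unit version of Schur: an invertible matrix commuting with an exact lift is a scalar unit. -/
lemma schur_exact_unit (habs : ρbar.IsAbsolutelyIrreducible)
    {A : Type} [CommRing A] [IsLocalRing A] [Algebra 𝒪 A]
    [IsLocalHom (algebraMap 𝒪 A)]
    (hsurj : Function.Surjective (residue A ∘ algebraMap 𝒪 A))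
    (r : GQ →* M2 A) (hex : IsExact ρbar r) (γ : (M2 A)ˣ)
    (hγ : ∀ g, (γ : M2 A) * r g = r g * (γ : M2 A)) :
    ∃ a : Aˣ, (γ : M2 A) = Matrix.scalar (Fin 2) (a : A) := by
  obtain ⟨a, ha⟩ := schur_exact ρbar habs hsurj r hex (γ : M2 A) hγ
  obtain ⟨b, hb⟩ := schur_exact ρbar habs hsurj r hex ((γ⁻¹ : (M2 A)ˣ) : M2 A) (fun g => by
    have h := hγ g
    calc ((γ⁻¹ : (M2 A)ˣ) : M2 A) * r g
        = ((γ⁻¹ : (M2 A)ˣ) : M2 A) * (r g * (γ : M2 A)) * ((γ⁻¹ : (M2 A)ˣ) : M2 A) := by
          rw [mul_assoc, mul_assoc, Units.mul_inv, mul_one]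
      _ = ((γ⁻¹ : (M2 A)ˣ) : M2 A) * ((γ : M2 A) * r g) * ((γ⁻¹ : (M2 A)ˣ) : M2 A) := by rw [h]
      _ = r g * ((γ⁻¹ : (M2 A)ˣ) : M2 A) := by
          rw [← mul_assoc, Units.inv_mul, one_mul])
  have hab : a * b = 1 := by
    have h1 : (γ : M2 A) * ((γ⁻¹ : (M2 A)ˣ) : M2 A) = 1 := Units.mul_inv γ
    rw [ha, hb, ← map_mul] at h1
    have h2 := congrFun (congrFun h1 0) 0
    simpa using h2
  exact ⟨⟨a, b, hab, by rw [mul_comm]; exact hab⟩, ha⟩

/-- If `γ` intertwines two exact lifts `r`, `r'` of `ρbar`, then `γ` is a scalar unit times an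
invertible matrix congruent to `1` modulo the maximal ideal (which still intertwines). -/
lemma conj_exact_eq_scalar_mul (habs : ρbar.IsAbsolutelyIrreducible)
    {A : Type} [CommRing A] [IsLocalRing A] [Algebra 𝒪 A]
    [IsLocalHom (algebraMap 𝒪 A)]
    (hsurj : Function.Surjective (residue A ∘ algebraMap 𝒪 A))
    (r r' : GQ →* M2 A) (hex : IsExact ρbar r) (hex' : IsExact ρbar r')
    (γ : (M2 A)ˣ) (hγ : ∀ g, (γ : M2 A) * r g = r' g * (γ : M2 A)) :
    ∃ (a : Aˣ) (γ₁ : (M2 A)ˣ), (γ : M2 A) = (a : A) • (γ₁ : M2 A) ∧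
      (∀ i j, ((γ₁ : M2 A) - 1) i j ∈ maximalIdeal A) ∧
      ∀ g, (γ₁ : M2 A) * r g = r' g * (γ₁ : M2 A) := by
  classical
  -- reduce modulo the maximal ideal
  set res : M2 A →+* M2 (ResidueField A) := (residue A).mapMatrix with hres
  have hrr' : ∀ g, res (r g) = res (r' g) := by
    intro g
    have h1 := congrArg (fun f : GQ →* M2 (ResidueField A) => f g) hex
    have h2 := congrArg (fun f : GQ →* M2 (ResidueField A) => f g) hex'
    simp only [mapRep_apply'] at h1 h2
    show (r g).map (residue A) = (r' g).map (residue A)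
    rw [h1, h2]
  -- `res γ` commutes with the residual representation, hence is scalar
  set ι : ResidueField 𝒪 →+* ResidueField A := ResidueField.map (algebraMap 𝒪 A) with hι
  have hιsurj : Function.Surjective ι := by
    intro y
    obtain ⟨x, hx⟩ := hsurj y
    exact ⟨residue 𝒪 x, by rw [hι, ResidueField.map_residue]; exact hx⟩
  have hred : ∀ g, res (r g) = (rhobarM ρbar g).map ι := by
    intro g
    have := congrArg (fun f : GQ →* M2 (ResidueField A) => f g) hex
    simp only [mapRep_apply'] at this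
    exact this
  have hcomm : ∀ g, res (γ : M2 A) * res (r g) = res (r g) * res (γ : M2 A) := by
    intro g
    rw [← map_mul, hγ g, map_mul, hrr' g]
  obtain ⟨Y₀, hY₀⟩ : ∃ Y₀ : M2 (ResidueField 𝒪), Y₀.map ι = res (γ : M2 A) := by
    choose f hf using hιsurj
    exact ⟨(res (γ : M2 A)).map f, by ext i j; simp [hf]⟩
  have hY₀c : ∀ g, Y₀ * rhobarM ρbar g = rhobarM ρbar g * Y₀ := by
    intro g
    have h1 := hcomm g
    rw [hred g, ← hY₀, ← Matrix.map_mul, ← Matrix.map_mul] at h1
    exact Matrix.map_injective ι.injective h1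
  obtain ⟨c₀, hc₀⟩ := schur_residual ρbar habs Y₀ hY₀c
  obtain ⟨a, ha⟩ := residue_surjective (ι c₀)
  have hresγ : res (γ : M2 A) = Matrix.scalar (Fin 2) (residue A a) := by
    rw [← hY₀, hc₀, ha]
    ext i j
    by_cases hij : i = j <;> simp [Matrix.scalar_apply, hij]
  -- `a` is a unit
  have hγunit : IsUnit (res (γ : M2 A)) := (γ.isUnit).map res
  have haunit : IsUnit a := by
    have h1 : IsUnit (residue A a) := by
      rw [hresγ] at hγunit
      have hdet := (Matrix.isUnit_iff_isUnit_det _).mp hγunit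
      rw [Matrix.scalar_apply, Matrix.det_diagonal] at hdet
      simp only [Finset.prod_const, Finset.card_univ, Fintype.card_fin] at hdet
      exact isUnit_of_mul_isUnit_left (by rwa [pow_two] at hdet)
    exact isUnit_of_map_unit (residue A) a h1
  obtain ⟨u, rfl⟩ := haunit
  -- define γ₁ = u⁻¹ • γ
  have hu1 : ((u⁻¹ : Aˣ) : A) • (γ : M2 A) * ((u : A) • ((γ⁻¹ : (M2 A)ˣ) : M2 A)) = 1 := by
    rw [Matrix.smul_mul, Matrix.mul_smul, smul_smul, Units.mul_inv, Units.inv_mul, one_smul]
  have hu2 : ((u : A) • ((γ⁻¹ : (M2 A)ˣ) : M2 A)) * (((u⁻¹ : Aˣ) : A) • (γ : M2 A)) = 1 := by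
    rw [Matrix.smul_mul, Matrix.mul_smul, smul_smul, Units.inv_mul, Units.mul_inv, one_smul]
  refine ⟨u, ⟨((u⁻¹ : Aˣ) : A) • (γ : M2 A), (u : A) • ((γ⁻¹ : (M2 A)ˣ) : M2 A), hu1, hu2⟩,
    ?_, ?_, ?_⟩
  · show (γ : M2 A) = (u : A) • (((u⁻¹ : Aˣ) : A) • (γ : M2 A))
    rw [smul_smul, Units.mul_inv, one_smul]
  · intro i j
    show ((((u⁻¹ : Aˣ) : A) • (γ : M2 A)) - 1) i j ∈ maximalIdeal A
    rw [← residue_eq_zero_iff]
    have h1 : residue A ((γ : M2 A) i j) = (Matrix.scalar (Fin 2) (residue A (u : A))) i j := by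
      rw [← hresγ]; rfl
    simp only [Matrix.sub_apply, Matrix.smul_apply, smul_eq_mul, map_sub, map_mul, h1]
    by_cases hij : i = j
    · subst hij
      simp only [Matrix.scalar_apply, Matrix.diagonal_apply_eq, Matrix.one_apply_eq, map_one]
      rw [← map_mul, Units.inv_mul, map_one, sub_self]
    · simp [Matrix.scalar_apply, hij]
  · intro g
    show (((u⁻¹ : Aˣ) : A) • (γ : M2 A)) * r g = r' g * (((u⁻¹ : Aˣ) : A) • (γ : M2 A))
    rw [Matrix.smul_mul, Matrix.mul_smul, hγ g]

end Fermat.Agent.S53
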