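import Fermat.Agent.S53.RingsSpec
import Fermat.Agent.S53.Schur

/-!
# S53 / Core K4 — auxiliary API for `Univ.lean`

* `resk` : the canonical `𝒪`-algebra hom `B → k` for a local `𝒪`-algebra with residue field `k`;
* `tau`  : for a socle element `t` of a test algebra `A`, the additive map `k → A`,
  `residue o ↦ algebraMap o * t`;
* matrix versions, exactness in terms of `resk`.
-/

set_option autoImplicit false
set_option linter.unusedSectionVars false

noncomputable section

namespace Fermat.Agent.S53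

open IsLocalRing GaloisRep TrivSqZeroExt

variable {𝒪 : Type} [CommRing 𝒪] [IsDomain 𝒪] [IsDiscreteValuationRing 𝒪]
  [IsAdicComplete (maximalIdeal 𝒪) 𝒪] [Finite (ResidueField 𝒪)]

/-! ### `resk` -/
section resk

variable {B : Type} [CommRing B] [IsLocalRing B] [Algebra 𝒪 B] [IsLocalHom (algebraMap 𝒪 B)]

/-- the isomorphism of residue fields `k ≃ k_B`. -/
def reskEquiv (hB : Function.Surjective (residue B ∘ algebraMap 𝒪 B)) :
    ResidueField 𝒪 ≃+* ResidueField B :=
  RingEquiv.ofBijective (ResidueField.map (algebraMap 𝒪 B))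
    ⟨(ResidueField.map (algebraMap 𝒪 B)).injective, fun y => by
      obtain ⟨x, hx⟩ := hB y
      exact ⟨residue 𝒪 x, by rw [ResidueField.map_residue]; exact hx⟩⟩

lemma reskEquiv_apply (hB : Function.Surjective (residue B ∘ algebraMap 𝒪 B))
    (c : ResidueField 𝒪) : reskEquiv hB c = ResidueField.map (algebraMap 𝒪 B) c := rfl

/-- the canonical `𝒪`-algebra hom `B → k`. -/
def resk (hB : Function.Surjective (residue B ∘ algebraMap 𝒪 B)) : B →ₐ[𝒪] ResidueField 𝒪 where
  toRingHom := (reskEquiv hB).symm.toRingHom.comp (residue B)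
  commutes' := by
    intro o
    show (reskEquiv hB).symm (residue B (algebraMap 𝒪 B o)) = residue 𝒪 o
    rw [RingEquiv.symm_apply_eq, reskEquiv_apply, ResidueField.map_residue]

lemma resk_apply (hB : Function.Surjective (residue B ∘ algebraMap 𝒪 B)) (b : B) :
    resk hB b = (reskEquiv hB).symm (residue B b) := rfl

lemma map_resk (hB : Function.Surjective (residue B ∘ algebraMap 𝒪 B)) (b : B) :
    ResidueField.map (algebraMap 𝒪 B) (resk hB b) = residue B b := by
  rw [resk_apply, ← reskEquiv_apply hB, RingEquiv.apply_symm_apply]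

lemma resk_algebraMap (hB : Function.Surjective (residue B ∘ algebraMap 𝒪 B)) (o : 𝒪) :
    resk hB (algebraMap 𝒪 B o) = residue 𝒪 o := (resk hB).commutes o

lemma resk_eq_zero_iff (hB : Function.Surjective (residue B ∘ algebraMap 𝒪 B)) (b : B) :
    resk hB b = 0 ↔ b ∈ maximalIdeal B := by
  rw [resk_apply, map_eq_zero_iff _ (reskEquiv hB).symm.injective, residue_eq_zero_iff]

lemma resk_eq_residue_iff (hB : Function.Surjective (residue B ∘ algebraMap 𝒪 B)) (b : B)
    (o : 𝒪) : resk hB b = residue 𝒪 o ↔ b - algebraMap 𝒪 B o ∈ maximalIdeal B := by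
  rw [← resk_eq_zero_iff hB, map_sub, resk_algebraMap, sub_eq_zero]

lemma exists_resk_eq (hB : Function.Surjective (residue B ∘ algebraMap 𝒪 B)) (b : B) :
    ∃ o : 𝒪, resk hB b = residue 𝒪 o ∧ b - algebraMap 𝒪 B o ∈ maximalIdeal B := by
  obtain ⟨o, ho⟩ := residue_surjective (resk hB b)
  exact ⟨o, ho.symm, (resk_eq_residue_iff hB b o).mp ho.symm⟩

/-- every `𝒪`-algebra hom `B → k` is `resk`. -/
lemma algHom_eq_resk (hB : Function.Surjective (residue B ∘ algebraMap 𝒪 B))
    (φ : B →ₐ[𝒪] ResidueField 𝒪) (b : B) : φ b = resk hB b := by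
  have hloc : IsLocalHom (φ : B →+* ResidueField 𝒪) :=
    test_isLocalHom (test_residueField (𝒪 := 𝒪)).isLocalHom
      (test_residueField (𝒪 := 𝒪)).residue_surjective φ
  obtain ⟨o, ho, hm⟩ := exists_resk_eq hB b
  have h1 : φ (b - algebraMap 𝒪 B o) = 0 := by
    by_contra hne
    have hu : IsUnit (φ (b - algebraMap 𝒪 B o)) := isUnit_iff_ne_zero.mpr hne
    exact (mem_maximalIdeal _).mp hm (hloc.map_nonunit _ hu)
  rw [map_sub, AlgHom.commutes, sub_eq_zero] at h1
  rw [h1, ho]
  rfl

variable {B' : Type} [CommRing B'] [IsLocalRing B'] [Algebra 𝒪 B']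
  [IsLocalHom (algebraMap 𝒪 B')]

/-- `resk` is compatible with `𝒪`-algebra homs. -/
lemma resk_algHom (hB : Function.Surjective (residue B ∘ algebraMap 𝒪 B))
    (hB' : Function.Surjective (residue B' ∘ algebraMap 𝒪 B')) (φ : B →ₐ[𝒪] B') (b : B) :
    resk hB' (φ b) = resk hB b :=
  algHom_eq_resk hB ((resk hB').comp φ) b

variable (ρbar : ResidualGaloisRep (ResidueField 𝒪))

/-- exactness in terms of `resk`. -/
lemma isExact_iff_resk (hB : Function.Surjective (residue B ∘ algebraMap 𝒪 B))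
    (r : GQ →* M2 B) :
    IsExact ρbar r ↔ ∀ g i j, resk hB (r g i j) = rhobarM ρbar g i j := by
  unfold IsExact
  constructor
  · intro h g i j
    have h1 := congrFun (congrFun (congrArg (fun f : GQ →* M2 (ResidueField B) => f g) h) i) j
    simp only [mapRep_apply] at h1
    rw [resk_apply, RingEquiv.symm_apply_eq, reskEquiv_apply]
    exact h1
  · intro h
    refine MonoidHom.ext fun g => Matrix.ext fun i j => ?_
    simp only [mapRep_apply]
    rw [← h g i j, map_resk]

lemma IsExact.resk {ρbar : ResidualGaloisRep (ResidueField 𝒪)}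
    (hB : Function.Surjective (residue B ∘ algebraMap 𝒪 B))
    {r : GQ →* M2 B} (h : IsExact ρbar r) (g : GQ) (i j : Fin 2) :
    Fermat.Agent.S53.resk hB (r g i j) = rhobarM ρbar g i j :=
  (isExact_iff_resk ρbar hB r).mp h g i j

/-- exactness is preserved and reflected by push-forward. -/
lemma isExact_mapRep_iff (hB : Function.Surjective (residue B ∘ algebraMap 𝒪 B))
    (hB' : Function.Surjective (residue B' ∘ algebraMap 𝒪 B')) (φ : B →ₐ[𝒪] B')
    (r : GQ →* M2 B) :
    IsExact ρbar (mapRep (φ : B →+* B') r) ↔ IsExact ρbar r := by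
  rw [isExact_iff_resk ρbar hB', isExact_iff_resk ρbar hB]
  simp only [mapRep_apply, RingHom.coe_coe, resk_algHom hB hB' φ]

end resk

/-! ### `tau` -/
section tau

variable {A : Type} [CommRing A] [IsLocalRing A] [Algebra 𝒪 A]

variable (𝒪) in
/-- `τ : k → A`, `residue o ↦ algebraMap o * t` (for a socle element `t`). -/
def tau (t : A) (c : ResidueField 𝒪) : A :=
  algebraMap 𝒪 A (Function.surjInv (residue_surjective (R := 𝒪)) c) * t

variable (hA : IsArtinianTestAlgebra 𝒪 A) (t : A) (ht0 : t ≠ 0)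
  (htm : t ∈ maximalIdeal A) (hsoc : ∀ x ∈ maximalIdeal A, x * t = 0)

include hA hsoc in
lemma tau_residue (o : 𝒪) : tau 𝒪 t (residue 𝒪 o) = algebraMap 𝒪 A o * t := by
  unfold tau
  set o' := Function.surjInv (residue_surjective (R := 𝒪)) (residue 𝒪 o) with ho'
  have h1 : residue 𝒪 o' = residue 𝒪 o := Function.surjInv_eq _ _
  have h2 : o' - o ∈ maximalIdeal 𝒪 := by
    rw [← residue_eq_zero_iff, map_sub, h1, sub_self]
  have h3 : algebraMap 𝒪 A (o' - o) ∈ maximalIdeal A :=
    (algebraMap_mem_maximalIdeal_iff hA _).mpr h2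
  have h4 := hsoc _ h3
  rw [map_sub, sub_mul, sub_eq_zero] at h4
  exact h4

include hA hsoc in
lemma tau_zero : tau 𝒪 t (0 : ResidueField 𝒪) = 0 := by
  have := tau_residue hA t hsoc 0
  rw [map_zero, map_zero, zero_mul] at this
  exact this

include hA hsoc in
lemma tau_add (c c' : ResidueField 𝒪) : tau 𝒪 t (c + c') = tau 𝒪 t c + tau 𝒪 t c' := by
  obtain ⟨o, rfl⟩ := residue_surjective c
  obtain ⟨o', rfl⟩ := residue_surjective c'
  rw [← map_add, tau_residue hA t hsoc, tau_residue hA t hsoc, tau_residue hA t hsoc, map_add,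
    add_mul]

include hA hsoc in
lemma tau_neg (c : ResidueField 𝒪) : tau 𝒪 t (-c) = -tau 𝒪 t c := by
  obtain ⟨o, rfl⟩ := residue_surjective c
  rw [← map_neg, tau_residue hA t hsoc, tau_residue hA t hsoc, map_neg, neg_mul]

include hA hsoc in
lemma tau_sub (c c' : ResidueField 𝒪) : tau 𝒪 t (c - c') = tau 𝒪 t c - tau 𝒪 t c' := by
  rw [sub_eq_add_neg, tau_add hA t hsoc, tau_neg hA t hsoc, sub_eq_add_neg]

include hA hsoc in
lemma tau_sum {ι : Type} (s : Finset ι) (f : ι → ResidueField 𝒪) :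
    tau 𝒪 t (∑ i ∈ s, f i) = ∑ i ∈ s, tau 𝒪 t (f i) := by
  classical
  induction s using Finset.induction_on with
  | empty => simp [tau_zero hA t hsoc]
  | insert a s ha ih => rw [Finset.sum_insert ha, Finset.sum_insert ha, tau_add hA t hsoc, ih]

include hA ht0 hsoc in
lemma tau_eq_zero_iff (c : ResidueField 𝒪) : tau 𝒪 t c = 0 ↔ c = 0 := by
  obtain ⟨o, rfl⟩ := residue_surjective c
  rw [tau_residue hA t hsoc, algebraMap_mul_socle_eq_zero_iff hA t ht0 hsoc, residue_eq_zero_iff]

include hA ht0 hsoc in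
lemma tau_injective : Function.Injective (tau 𝒪 t) := by
  intro c c' h
  have h1 : tau 𝒪 t (c - c') = 0 := by rw [tau_sub hA t hsoc, h, sub_self]
  exact sub_eq_zero.mp ((tau_eq_zero_iff hA t ht0 hsoc _).mp h1)

include hA htm hsoc in
lemma tau_mem_maximalIdeal (c : ResidueField 𝒪) : tau 𝒪 t c ∈ maximalIdeal A := by
  obtain ⟨o, rfl⟩ := residue_surjective c
  rw [tau_residue hA t hsoc]
  exact Ideal.mul_mem_left _ _ htm

include hA hsoc in
lemma tau_mem_span (c : ResidueField 𝒪) : tau 𝒪 t c ∈ Ideal.span {t} := by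
  obtain ⟨o, rfl⟩ := residue_surjective c
  rw [tau_residue hA t hsoc]
  exact Ideal.mul_mem_left _ _ (Ideal.mem_span_singleton_self t)

include hA hsoc in
lemma exists_tau_of_mem_span {x : A} (hx : x ∈ Ideal.span {t}) :
    ∃ c : ResidueField 𝒪, x = tau 𝒪 t c := by
  obtain ⟨a, rfl⟩ := Ideal.mem_span_singleton'.mp hx
  obtain ⟨o, ho⟩ := test_exists_add hA a
  refine ⟨residue 𝒪 o, ?_⟩
  rw [tau_residue hA t hsoc]
  have := hsoc _ ho
  linear_combination this

include hA htm hsoc in
lemma tau_mul_tau (c c' : ResidueField 𝒪) : tau 𝒪 t c * tau 𝒪 t c' = 0 := by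
  obtain ⟨o, rfl⟩ := residue_surjective c
  obtain ⟨o', rfl⟩ := residue_surjective c'
  rw [tau_residue hA t hsoc, tau_residue hA t hsoc]
  have := hsoc t htm
  linear_combination (algebraMap 𝒪 A o * algebraMap 𝒪 A o') * this

include hA htm hsoc in
lemma mem_maximalIdeal_mul_tau {m : A} (hm : m ∈ maximalIdeal A) (c : ResidueField 𝒪) :
    m * tau 𝒪 t c = 0 := by
  obtain ⟨o, rfl⟩ := residue_surjective c
  rw [tau_residue hA t hsoc]
  have := hsoc m hm
  linear_combination (algebraMap 𝒪 A o) * this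

variable [IsLocalHom (algebraMap 𝒪 A)]

include hA hsoc in
lemma mul_tau (a : A) (c : ResidueField 𝒪) :
    a * tau 𝒪 t c = tau 𝒪 t (resk hA.residue_surjective a * c) := by
  obtain ⟨oa, hoa, hma⟩ := exists_resk_eq hA.residue_surjective a
  obtain ⟨oc, rfl⟩ := residue_surjective c
  rw [hoa, ← map_mul, tau_residue hA t hsoc, tau_residue hA t hsoc, map_mul]
  have := hsoc _ hma
  linear_combination (algebraMap 𝒪 A oc) * this

/-- `τ` applied entrywise to a matrix. -/
def tauM (X : M2 (ResidueField 𝒪)) : M2 A := Matrix.of fun i j => tau 𝒪 t (X i j)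

@[simp] lemma tauM_apply (X : M2 (ResidueField 𝒪)) (i j : Fin 2) :
    tauM t X i j = tau 𝒪 t (X i j) := rfl

/-- `resk` applied entrywise to a matrix. -/
def reskM (M : M2 A) : M2 (ResidueField 𝒪) :=
  Matrix.of fun i j => resk hA.residue_surjective (M i j)

@[simp] lemma reskM_apply (M : M2 A) (i j : Fin 2) :
    reskM hA M i j = resk hA.residue_surjective (M i j) := rfl

include hA hsoc in
lemma tauM_add (X Y : M2 (ResidueField 𝒪)) : tauM t (X + Y) = tauM t X + tauM t Y := by
  ext i j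
  simp [tau_add hA t hsoc]

include hA hsoc in
lemma tauM_sub (X Y : M2 (ResidueField 𝒪)) : tauM t (X - Y) = tauM t X - tauM t Y := by
  ext i j
  simp [tau_sub hA t hsoc]

include hA hsoc in
lemma tauM_neg (X : M2 (ResidueField 𝒪)) : tauM t (-X) = -tauM t X := by
  ext i j
  simp [tau_neg hA t hsoc]

include hA hsoc in
lemma mul_tauM (M : M2 A) (X : M2 (ResidueField 𝒪)) :
    M * tauM t X = tauM t (reskM hA M * X) := by
  ext i j
  simp only [Matrix.mul_apply, tauM_apply, reskM_apply, tau_sum hA t hsoc, mul_tau hA t hsoc]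

include hA hsoc in
lemma tauM_mul (X : M2 (ResidueField 𝒪)) (M : M2 A) :
    tauM t X * M = tauM t (X * reskM hA M) := by
  ext i j
  simp only [Matrix.mul_apply, tauM_apply, reskM_apply, tau_sum hA t hsoc]
  refine Finset.sum_congr rfl fun l _ => ?_
  rw [mul_comm, mul_tau hA t hsoc, mul_comm]

include hA htm hsoc in
lemma tauM_mul_tauM (X Y : M2 (ResidueField 𝒪)) : tauM t X * tauM t Y = 0 := by
  ext i j
  simp only [Matrix.mul_apply, tauM_apply, tau_mul_tau hA t htm hsoc, Finset.sum_const_zero,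
    Matrix.zero_apply]

include hA htm hsoc in
lemma one_add_tauM_mul (X : M2 (ResidueField 𝒪)) :
    (1 + tauM t X) * (1 - tauM t X) = 1 := by
  have h1 : (1 + tauM t X) * (1 - tauM t X) = 1 - tauM t X * tauM t X := by noncomm_ring
  rw [h1, tauM_mul_tauM hA t htm hsoc, sub_zero]

include hA htm hsoc in
lemma one_sub_tauM_mul (X : M2 (ResidueField 𝒪)) :
    (1 - tauM t X) * (1 + tauM t X) = 1 := by
  have h1 : (1 - tauM t X) * (1 + tauM t X) = 1 - tauM t X * tauM t X := by noncomm_ring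
  rw [h1, tauM_mul_tauM hA t htm hsoc, sub_zero]

/-- the unit `1 + τ X` of `M2 A`. -/
def oneAddTau (X : M2 (ResidueField 𝒪)) : (M2 A)ˣ :=
  ⟨1 + tauM t X, 1 - tauM t X, one_add_tauM_mul hA t htm hsoc X,
    one_sub_tauM_mul hA t htm hsoc X⟩

@[simp] lemma oneAddTau_val (X : M2 (ResidueField 𝒪)) :
    ((oneAddTau hA t htm hsoc X : (M2 A)ˣ) : M2 A) = 1 + tauM t X := rfl

@[simp] lemma oneAddTau_inv (X : M2 (ResidueField 𝒪)) :
    (((oneAddTau hA t htm hsoc X)⁻¹ : (M2 A)ˣ) : M2 A) = 1 - tauM t X := rfl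

include hA htm hsoc in
/-- conjugating a matrix `M` by `1 + τ X` adds `τ (X M̄ - M̄ X)`. -/
lemma oneAddTau_conj (X : M2 (ResidueField 𝒪)) (M : M2 A) :
    (1 + tauM t X) * M * (1 - tauM t X) = M + tauM t (X * reskM hA M - reskM hA M * X) := by
  have h1 : tauM t X * M * tauM t X = 0 := by
    rw [tauM_mul hA t hsoc, tauM_mul_tauM hA t htm hsoc]
  have h2 : (1 + tauM t X) * M * (1 - tauM t X) =
      M + (tauM t X * M - M * tauM t X) - tauM t X * M * tauM t X := by noncomm_ring
  rw [h2, h1, sub_zero, tauM_sub hA t hsoc, ← tauM_mul hA t hsoc, ← mul_tauM hA t hsoc]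

end tau

end Fermat.Agent.S53
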