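import Fermat.Agent.S53.Tangent3
import Fermat.Agent.S53.UnivAux

/-!
# S53 / Core K4 — lemmas for `Univ.lean`: conjugation, unit lifting, `θ` in terms of `resk`, `τ`
-/

set_option autoImplicit false
set_option linter.unusedSectionVars false

noncomputable section

namespace Fermat.Agent.S53

open IsLocalRing GaloisRep TrivSqZeroExt

variable {𝒪 : Type} [CommRing 𝒪] [IsDomain 𝒪] [IsDiscreteValuationRing 𝒪]
  [IsAdicComplete (maximalIdeal 𝒪) 𝒪] [Finite (ResidueField 𝒪)]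

/-! ### conjugation -/
section Conj

variable {A B : Type} [CommRing A] [CommRing B]

lemma univ_conj_refl (r : GQ →* M2 A) : Conj r r :=
  ⟨1, fun g => by simp⟩

lemma univ_conj_symm {r r' : GQ →* M2 A} (h : Conj r r') : Conj r' r := by
  obtain ⟨γ, hγ⟩ := h
  refine ⟨γ⁻¹, fun g => ?_⟩
  rw [hγ g, inv_inv]
  calc r g = ((γ⁻¹ : (M2 A)ˣ) : M2 A) * (γ : M2 A) * r g *
        (((γ⁻¹ : (M2 A)ˣ) : M2 A) * (γ : M2 A)) := by
        rw [Units.inv_mul, one_mul, mul_one]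
    _ = _ := by noncomm_ring

lemma univ_conj_trans {r r' r'' : GQ →* M2 A} (h : Conj r r') (h' : Conj r' r'') :
    Conj r r'' := by
  obtain ⟨γ, hγ⟩ := h
  obtain ⟨γ', hγ'⟩ := h'
  refine ⟨γ' * γ, fun g => ?_⟩
  rw [hγ' g, hγ g, mul_inv_rev, Units.val_mul, Units.val_mul]
  noncomm_ring

lemma univ_conj_map (φ : A →+* B) {r r' : GQ →* M2 A} (h : Conj r r') :
    Conj (mapRep φ r) (mapRep φ r') := by
  obtain ⟨γ, hγ⟩ := h
  refine ⟨Units.map (RingHom.mapMatrix φ : M2 A →+* M2 B).toMonoidHom γ, fun g => ?_⟩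
  have h1 : mapRep φ r' g = (RingHom.mapMatrix φ : M2 A →+* M2 B) (r' g) := rfl
  have h2 : mapRep φ r g = (RingHom.mapMatrix φ : M2 A →+* M2 B) (r g) := rfl
  rw [h1, h2, hγ g, map_mul, map_mul]
  rfl

/-- the conjugate of a representation by a unit. -/
def univConjRep (γ : (M2 A)ˣ) (r : GQ →* M2 A) : GQ →* M2 A where
  toFun g := (γ : M2 A) * r g * ((γ⁻¹ : (M2 A)ˣ) : M2 A)
  map_one' := by rw [map_one, mul_one, Units.mul_inv]
  map_mul' g h := by
    rw [map_mul]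
    calc (γ : M2 A) * (r g * r h) * ((γ⁻¹ : (M2 A)ˣ) : M2 A)
        = (γ : M2 A) * r g * (((γ⁻¹ : (M2 A)ˣ) : M2 A) * (γ : M2 A)) * r h *
            ((γ⁻¹ : (M2 A)ˣ) : M2 A) := by
          rw [Units.inv_mul, mul_one]; noncomm_ring
      _ = _ := by noncomm_ring

@[simp] lemma univConjRep_apply (γ : (M2 A)ˣ) (r : GQ →* M2 A) (g : GQ) :
    univConjRep γ r g = (γ : M2 A) * r g * ((γ⁻¹ : (M2 A)ˣ) : M2 A) := rfl

lemma conj_univConjRep (γ : (M2 A)ˣ) (r : GQ →* M2 A) : Conj r (univConjRep γ r) :=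
  ⟨γ, fun _ => rfl⟩

lemma mapRep_comp_algHom {𝒪' : Type} [CommRing 𝒪'] {R A' B' : Type} [CommRing R]
    [CommRing A'] [CommRing B'] [Algebra 𝒪' R] [Algebra 𝒪' A'] [Algebra 𝒪' B']
    (φ : R →ₐ[𝒪'] A') (ψ : A' →ₐ[𝒪'] B') (r : GQ →* M2 R) :
    mapRep ((ψ.comp φ : R →ₐ[𝒪'] B') : R →+* B') r =
      mapRep (ψ : A' →+* B') (mapRep (φ : R →+* A') r) := rfl

end Conj

/-! ### lifting units along surjective local homs -/
section UnitLift

variable {A B : Type} [CommRing A] [CommRing B]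

lemma exists_unit_lift (π : A →+* B) (hsurj : Function.Surjective π) (hloc : IsLocalHom π)
    (γ₀ : (M2 B)ˣ) :
    ∃ γ : (M2 A)ˣ, (γ : M2 A).map π = (γ₀ : M2 B) ∧
      ((γ⁻¹ : (M2 A)ˣ) : M2 A).map π = ((γ₀⁻¹ : (M2 B)ˣ) : M2 B) := by
  classical
  choose f hf using hsurj
  set M : M2 A := Matrix.of fun i j => f ((γ₀ : M2 B) i j) with hM
  have hMmap : M.map π = (γ₀ : M2 B) := by
    ext i j
    simp [hM, hf]
  have hdet : IsUnit M.det := by
    apply hloc.map_nonunit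
    have h1 : π M.det = ((γ₀ : M2 B)).det := by
      rw [RingHom.map_det, ← hMmap]
      rfl
    rw [h1]
    exact (Matrix.isUnit_iff_isUnit_det _).mp γ₀.isUnit
  have hMu : IsUnit M := (Matrix.isUnit_iff_isUnit_det _).mpr hdet
  obtain ⟨γ, hγ⟩ := hMu
  refine ⟨γ, by rw [hγ]; exact hMmap, ?_⟩
  have h2 : (Units.map (RingHom.mapMatrix π : M2 A →+* M2 B).toMonoidHom γ) = γ₀ := by
    apply Units.ext
    show (RingHom.mapMatrix π : M2 A →+* M2 B) (γ : M2 A) = (γ₀ : M2 B)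
    rw [hγ]
    exact hMmap
  rw [← h2]
  rfl

end UnitLift

end Fermat.Agent.S53
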