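import Fermat.Agent.S53.Tangent3
import Fermat.Agent.S53.UnivLemmas

/-!
# S53 / Core K4 — universality on Artinian test algebras from the "hull" properties

`(R, r)` is a local `𝒪`-algebra with an exact lift `r` of `ρM := rhobarM ρbar` such that
* `hD`  : every push-forward of `r` to a test algebra is a `𝒟`-lift;
* `hT1` : every tangent vector `b` is, up to a coboundary, induced by some `ψ : R → k[ε]`;
* `hT2` : a `ψ : R → k[ε]` inducing a coboundary is trivial;
* `hL`  : homs `u : R → A ⧸ (t)` (`t` a socle element of the test algebra `A`) such that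
          `u_* r` lifts to a `𝒟`-lift over `A` lift to homs `R → A`.
Then `(R, r)` is universal on test algebras.

PROOF (induction on `Nat.card A`, which is finite by `test_finite`).
Notation: `t` socle element of `A` (`test_exists_socle`), `A₀ := A ⧸ span {t}`,
`τ : k → A`, `τ (residue o) = algebraMap o * t` (`tau`, in `UnivAux.lean`).
* base case `maximalIdeal A = ⊥`: `A = k`, both sides are forced.
* existence: by induction get `u : R → A₀` and `γ₀` with `u_* r = γ₀ (rA mod t) γ₀⁻¹`; lift `γ₀`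
  to a unit `γ` of `M2 A`, put `r' := γ rA γ⁻¹`; `hL` gives `w : R → A` lifting `u`.
  `w_* r` and `r'` agree mod `t`: the pair `(w_* r, r')` is a `𝒟`-lift over `pairAlg t`
  (`IsDLift.glue_exists`), push it forward along `θ` (`exists_theta`) to get a tangent vector
  `b` with `r' - w_* r = τ b`.  `hT1` gives `ψ, X`; `u' := w + τ ∘ snd ∘ ψ` is an `𝒪`-algebra hom
  with `u'_* r = w_* r + τ (b - cob X) = (1 - τ X) r' (1 + τ X)`.
* uniqueness: by induction `φ ≡ φ' mod t`; `ψ := θ ∘ (φ, φ')`; `φ'_* r = γ (φ_* r) γ⁻¹` where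
  `γ mod t` commutes with the exact lift `(φ mod t)_* r`, hence is scalar (`schur_exact_unit`),
  so `γ = a + τ Z` and `ψ_* r = ρM + ε cob Y`; `hT2` gives `snd ∘ ψ = 0`, i.e. `φ = φ'`.
-/

set_option autoImplicit false
set_option linter.unusedSectionVars false

noncomputable section

namespace Fermat.Agent.S53

open IsLocalRing GaloisRep TrivSqZeroExt

variable {𝒪 : Type} [CommRing 𝒪] [IsDomain 𝒪] [IsDiscreteValuationRing 𝒪]
  [IsAdicComplete (maximalIdeal 𝒪) 𝒪] [Finite (ResidueField 𝒪)]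
  {ρbar : ResidualGaloisRep (ResidueField 𝒪)}
  {𝒟 : ∀ ⦃A : Type⦄ [CommRing A] [IsLocalRing A] [Algebra 𝒪 A], GaloisRepAdic A → Prop}

/-- the hypotheses of `universal_on_test_of_hull`, bundled. -/
structure UnivHull (ρbar : ResidualGaloisRep (ResidueField 𝒪))
    (𝒟 : ∀ ⦃A : Type⦄ [CommRing A] [IsLocalRing A] [Algebra 𝒪 A], GaloisRepAdic A → Prop)
    {R : Type} [CommRing R] [IsLocalRing R] [Algebra 𝒪 R] [IsLocalHom (algebraMap 𝒪 R)]
    (r : GQ →* M2 R) : Prop where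
  hR : Function.Surjective (residue R ∘ algebraMap 𝒪 R)
  hex : IsExact ρbar r
  hD : ∀ (A : Type) [CommRing A] [IsLocalRing A] [Algebra 𝒪 A],
      IsArtinianTestAlgebra 𝒪 A → ∀ u : R →ₐ[𝒪] A, IsDLift 𝒟 (mapRep (u : R →+* A) r)
  hT1 : ∀ b, IsTan ρbar 𝒟 b →
      ∃ (ψ : R →ₐ[𝒪] DualNumber (ResidueField 𝒪)) (X : M2 (ResidueField 𝒪)),
        ∀ g, mapRep (ψ : R →+* DualNumber (ResidueField 𝒪)) r g =
          tanFun ρbar (b - cob ρbar X) g
  hT2 : ∀ (ψ : R →ₐ[𝒪] DualNumber (ResidueField 𝒪)) (Y : M2 (ResidueField 𝒪)),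
      (∀ g, mapRep (ψ : R →+* DualNumber (ResidueField 𝒪)) r g = tanFun ρbar (cob ρbar Y) g) →
        ∀ x, (ψ x).snd = 0
  hL : ∀ (A : Type) [CommRing A] [IsLocalRing A] [Algebra 𝒪 A],
      IsArtinianTestAlgebra 𝒪 A → ∀ (t : A), t ≠ 0 → t ∈ maximalIdeal A →
      (∀ x ∈ maximalIdeal A, x * t = 0) → ∀ (r' : GQ →* M2 A), IsDLift 𝒟 r' →
      ∀ u : R →ₐ[𝒪] A ⧸ Ideal.span {t},
        mapRep (u : R →+* A ⧸ Ideal.span {t}) r =
          mapRep (Ideal.Quotient.mk (Ideal.span {t})) r' →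
        ∃ w : R →ₐ[𝒪] A, (Ideal.Quotient.mkₐ 𝒪 (Ideal.span {t})).comp w = u

section Base

variable {R : Type} [CommRing R] [IsLocalRing R] [Algebra 𝒪 R] [IsLocalHom (algebraMap 𝒪 R)]
  {r : GQ →* M2 R}
  {A : Type} [CommRing A] [IsLocalRing A] [Algebra 𝒪 A] [IsLocalHom (algebraMap 𝒪 A)]

/-- if `𝔪_A = 0` then `resk : A → k` is bijective. -/
lemma resk_bijective_of_eq_bot (hA : IsArtinianTestAlgebra 𝒪 A) (hm : maximalIdeal A = ⊥) :
    Function.Bijective (resk hA.residue_surjective) := by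
  constructor
  · rw [injective_iff_map_eq_zero]
    intro a ha
    rw [resk_eq_zero_iff, hm, Ideal.mem_bot] at ha
    exact ha
  · intro c
    obtain ⟨o, rfl⟩ := residue_surjective c
    exact ⟨algebraMap 𝒪 A o, resk_algebraMap _ o⟩

/-- base case, uniqueness: `𝒪`-algebra homs into a test algebra with `𝔪_A = 0` are unique. -/
lemma univ_base_unique (hR : Function.Surjective (residue R ∘ algebraMap 𝒪 R))
    (hA : IsArtinianTestAlgebra 𝒪 A) (hm : maximalIdeal A = ⊥) (φ φ' : R →ₐ[𝒪] A) :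
    φ = φ' := by
  ext x
  apply (resk_bijective_of_eq_bot hA hm).1
  rw [resk_algHom hR hA.residue_surjective φ, resk_algHom hR hA.residue_surjective φ']

/-- base case, existence. -/
lemma univ_base_exists (hR : Function.Surjective (residue R ∘ algebraMap 𝒪 R))
    (hex : IsExact ρbar r)
    (hA : IsArtinianTestAlgebra 𝒪 A) (hm : maximalIdeal A = ⊥)
    (rA : GQ →* M2 A) (hexA : IsExact ρbar rA) :
    ∃ φ : R →ₐ[𝒪] A, Conj rA (mapRep (φ : R →+* A) r) := by
  let e : A ≃ₐ[𝒪] ResidueField 𝒪 :=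
    AlgEquiv.ofBijective (resk hA.residue_surjective) (resk_bijective_of_eq_bot hA hm)
  refine ⟨(e.symm : ResidueField 𝒪 →ₐ[𝒪] A).comp (resk hR), ?_⟩
  have h1 : mapRep (((e.symm : ResidueField 𝒪 →ₐ[𝒪] A).comp (resk hR) : R →ₐ[𝒪] A) : R →+* A) r
      = rA := by
    refine MonoidHom.ext fun g => Matrix.ext fun i j => ?_
    rw [mapRep_apply]
    show e.symm (resk hR (r g i j)) = rA g i j
    rw [hex.resk hR, AlgEquiv.symm_apply_eq]
    exact (hexA.resk hA.residue_surjective g i j).symm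
  rw [h1]
  exact univ_conj_refl rA

end Base

section Step

variable {R : Type} [CommRing R] [IsLocalRing R] [Algebra 𝒪 R] [IsLocalHom (algebraMap 𝒪 R)]
  {r : GQ →* M2 R}
  {A : Type} [CommRing A] [IsLocalRing A] [Algebra 𝒪 A] [IsLocalHom (algebraMap 𝒪 A)]

/-- `θ` in terms of `resk` and `τ`. -/
lemma theta_eq (hA : IsArtinianTestAlgebra 𝒪 A) (t : A)
    (hsoc : ∀ x ∈ maximalIdeal A, x * t = 0)
    (θ : pairAlg 𝒪 t →ₐ[𝒪] DualNumber (ResidueField 𝒪))
    (hθ : ∀ (p : pairAlg 𝒪 t) (o₁ o₂ : 𝒪), (p : A × A).1 - algebraMap 𝒪 A o₁ ∈ maximalIdeal A →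
        (p : A × A).2 - (p : A × A).1 = algebraMap 𝒪 A o₂ * t →
        θ p = TrivSqZeroExt.inl (residue 𝒪 o₁) + TrivSqZeroExt.inr (residue 𝒪 o₂))
    (p : pairAlg 𝒪 t) (c : ResidueField 𝒪) (hc : (p : A × A).2 - (p : A × A).1 = tau 𝒪 t c) :
    θ p = inl (resk hA.residue_surjective (p : A × A).1) + inr c := by
  obtain ⟨o₁, ho₁, hm₁⟩ := exists_resk_eq hA.residue_surjective (p : A × A).1
  obtain ⟨o₂, rfl⟩ := residue_surjective c
  rw [ho₁]
  exact hθ p o₁ o₂ hm₁ (by rw [hc, tau_residue hA t hsoc])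

lemma smul_tauM (hA : IsArtinianTestAlgebra 𝒪 A) (t : A)
    (hsoc : ∀ x ∈ maximalIdeal A, x * t = 0) (a : A) (W : M2 (ResidueField 𝒪)) :
    a • tauM t W = tauM t (resk hA.residue_surjective a • W) := by
  ext i j
  simp only [Matrix.smul_apply, tauM_apply, smul_eq_mul, mul_tau hA t hsoc]

lemma tauM_injective (hA : IsArtinianTestAlgebra 𝒪 A) (t : A) (ht0 : t ≠ 0)
    (hsoc : ∀ x ∈ maximalIdeal A, x * t = 0) {W W' : M2 (ResidueField 𝒪)}
    (h : tauM t W = tauM t W') : W = W' := by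
  ext i j
  have := congrFun (congrFun h i) j
  simp only [tauM_apply] at this
  exact tau_injective hA t ht0 hsoc this

/-- uniqueness step. -/
lemma univ_unique_step (habs : ρbar.IsAbsolutelyIrreducible) (H : UnivHull ρbar 𝒟 r)
    (hA : IsArtinianTestAlgebra 𝒪 A) (t : A) (ht0 : t ≠ 0) (htm : t ∈ maximalIdeal A)
    (hsoc : ∀ x ∈ maximalIdeal A, x * t = 0)
    (φ φ' : R →ₐ[𝒪] A)
    (hmod : (Ideal.Quotient.mkₐ 𝒪 (Ideal.span {t})).comp φ =
      (Ideal.Quotient.mkₐ 𝒪 (Ideal.span {t})).comp φ')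
    (hc : Conj (mapRep (φ : R →+* A) r) (mapRep (φ' : R →+* A) r)) : φ = φ' := by
  classical
  have hne : Ideal.span {t} ≠ ⊤ := span_singleton_ne_top_of_mem_maximalIdeal htm
  have := quot_isLocalRing (Ideal.span {t}) hne
  have hA₀ : IsArtinianTestAlgebra 𝒪 (A ⧸ Ideal.span {t}) := test_quotient hA _ hne
  have : IsLocalHom (algebraMap 𝒪 (A ⧸ Ideal.span {t})) := hA₀.isLocalHom
  set π : A →ₐ[𝒪] A ⧸ Ideal.span {t} := Ideal.Quotient.mkₐ 𝒪 (Ideal.span {t}) with hπ
  have hπloc : IsLocalHom (π : A →+* A ⧸ Ideal.span {t}) := test_isLocalHom' hA₀ π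
  have hkA := hA.residue_surjective
  -- `φ ≡ φ'` modulo `t`
  have hdiff : ∀ x, φ' x - φ x ∈ Ideal.span {t} := by
    intro x
    have h1 := DFunLike.congr_fun hmod x
    simp only [AlgHom.comp_apply, hπ, Ideal.Quotient.mkₐ_eq_mk] at h1
    rw [← Ideal.Quotient.eq_zero_iff_mem, map_sub, h1, sub_self]
  -- the conjugating matrix
  obtain ⟨δ, hδ⟩ := hc
  have hδ' : ∀ g, (δ : M2 A) * mapRep (φ : R →+* A) r g =
      mapRep (φ' : R →+* A) r g * (δ : M2 A) := by
    intro g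
    rw [hδ g, mul_assoc, mul_assoc, Units.inv_mul, mul_one]
  -- reduce modulo `t` and apply Schur
  obtain ⟨u, hu⟩ : ∃ u : R →ₐ[𝒪] A ⧸ Ideal.span {t}, u = π.comp φ := ⟨_, rfl⟩
  have hexu : IsExact ρbar (mapRep (u : R →+* A ⧸ Ideal.span {t}) r) :=
    (isExact_mapRep_iff ρbar H.hR hA₀.residue_surjective u r).mpr H.hex
  set δ₀ : (M2 (A ⧸ Ideal.span {t}))ˣ :=
    Units.map (RingHom.mapMatrix (π : A →+* A ⧸ Ideal.span {t})).toMonoidHom δ with hδ₀
  have hδ₀val : (δ₀ : M2 (A ⧸ Ideal.span {t})) =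
      (δ : M2 A).map (π : A →+* A ⧸ Ideal.span {t}) := rfl
  have hcomm : ∀ g, (δ₀ : M2 (A ⧸ Ideal.span {t})) *
      mapRep (u : R →+* A ⧸ Ideal.span {t}) r g =
      mapRep (u : R →+* A ⧸ Ideal.span {t}) r g * (δ₀ : M2 (A ⧸ Ideal.span {t})) := by
    intro g
    have h1 := congrArg (fun M : M2 A => M.map (π : A →+* A ⧸ Ideal.span {t})) (hδ' g)
    simp only [Matrix.map_mul] at h1
    have h2 : (mapRep (φ : R →+* A) r g).map (π : A →+* A ⧸ Ideal.span {t}) =
        mapRep (u : R →+* A ⧸ Ideal.span {t}) r g := by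
      rw [hu]; rfl
    have h3 : (mapRep (φ' : R →+* A) r g).map (π : A →+* A ⧸ Ideal.span {t}) =
        mapRep (u : R →+* A ⧸ Ideal.span {t}) r g := by
      rw [hu, hmod]; rfl
    rw [h2, h3] at h1
    rw [hδ₀val]
    exact h1
  obtain ⟨a₀, ha₀⟩ := schur_exact_unit ρbar habs hA₀.residue_surjective
    (mapRep (u : R →+* A ⧸ Ideal.span {t}) r) hexu δ₀ hcomm
  obtain ⟨a, ha⟩ := Ideal.Quotient.mk_surjective (a₀ : A ⧸ Ideal.span {t})
  have hau : IsUnit a := by
    apply hπloc.map_nonunit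
    show IsUnit (Ideal.Quotient.mk (Ideal.span {t}) a)
    rw [ha]
    exact a₀.isUnit
  have hak : resk hkA a ≠ 0 := by
    intro h
    rw [resk_eq_zero_iff] at h
    exact (mem_maximalIdeal _).mp h hau
  -- `δ = a + τ Z`
  have hZex : ∀ i j, ∃ c : ResidueField 𝒪,
      (δ : M2 A) i j - (a • (1 : M2 A)) i j = tau 𝒪 t c := by
    intro i j
    apply exists_tau_of_mem_span hA t hsoc
    rw [← Ideal.Quotient.eq_zero_iff_mem, map_sub, sub_eq_zero]
    have h1 : Ideal.Quotient.mk (Ideal.span {t}) ((δ : M2 A) i j) =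
        (δ₀ : M2 (A ⧸ Ideal.span {t})) i j := rfl
    rw [h1, ha₀]
    by_cases hij : i = j
    · subst hij
      simp [Matrix.scalar_apply, ha]
    · simp [Matrix.scalar_apply, hij]
  choose Z hZ using hZex
  have hδZ : (δ : M2 A) = a • (1 : M2 A) + tauM t (Matrix.of Z) := by
    ext i j
    have := hZ i j
    simp only [Matrix.add_apply, tauM_apply, Matrix.of_apply]
    rw [← this]
    ring
  -- `φ'_* r = φ_* r + τ B`
  have hBex : ∀ g i j, ∃ c : ResidueField 𝒪,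
      φ' (r g i j) - φ (r g i j) = tau 𝒪 t c :=
    fun g i j => exists_tau_of_mem_span hA t hsoc (hdiff _)
  choose B hB using hBex
  have hMM' : ∀ g, mapRep (φ' : R →+* A) r g =
      mapRep (φ : R →+* A) r g + tauM t (Matrix.of (B g)) := by
    intro g
    ext i j
    simp only [Matrix.add_apply, tauM_apply, Matrix.of_apply, mapRep_apply]
    have := hB g i j
    show φ' (r g i j) = φ (r g i j) + _
    rw [← this]
    ring
  have hexφ : IsExact ρbar (mapRep (φ : R →+* A) r) :=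
    (isExact_mapRep_iff ρbar H.hR hkA φ r).mpr H.hex
  have hredφ : ∀ g, reskM hA (mapRep (φ : R →+* A) r g) = rhobarM ρbar g := by
    intro g
    ext i j
    rw [reskM_apply]
    exact hexφ.resk hkA g i j
  -- the key identity `ā • B g = Z ρM - ρM Z`
  have hkey : ∀ g, resk hkA a • Matrix.of (B g) =
      Matrix.of Z * rhobarM ρbar g - rhobarM ρbar g * Matrix.of Z := by
    intro g
    apply tauM_injective hA t ht0 hsoc
    have h1 := hδ' g
    rw [hMM' g, hδZ] at h1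
    set M := mapRep (φ : R →+* A) r g with hM
    have h2 : (a • (1 : M2 A) + tauM t (Matrix.of Z)) * M =
        a • M + tauM t (Matrix.of Z * rhobarM ρbar g) := by
      rw [add_mul, Matrix.smul_mul, one_mul, tauM_mul hA t hsoc, hredφ]
    have h3 : (M + tauM t (Matrix.of (B g))) * (a • (1 : M2 A) + tauM t (Matrix.of Z)) =
        a • M + tauM t (rhobarM ρbar g * Matrix.of Z) +
          tauM t (resk hkA a • Matrix.of (B g)) := by
      rw [add_mul, mul_add, mul_add, Matrix.mul_smul, mul_one, Matrix.mul_smul, mul_one,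
        mul_tauM hA t hsoc, hredφ, tauM_mul_tauM hA t htm hsoc, add_zero,
        smul_tauM hA t hsoc]
    rw [h2, h3] at h1
    rw [tauM_sub hA t hsoc]
    have h4 : tauM t (Matrix.of Z * rhobarM ρbar g) =
        tauM t (rhobarM ρbar g * Matrix.of Z) + tauM t (resk hkA a • Matrix.of (B g)) := by
      have := h1
      rw [add_assoc] at this
      exact add_left_cancel this
    rw [h4]
    abel
  set Y : M2 (ResidueField 𝒪) := (resk hkA a)⁻¹ • Matrix.of Z with hY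
  have hBY : ∀ g, Matrix.of (B g) = cob ρbar Y g := by
    intro g
    rw [cob_apply, hY, Matrix.smul_mul, Matrix.mul_smul, ← smul_sub, ← hkey g, smul_smul,
      inv_mul_cancel₀ hak, one_smul]
  -- the map `ψ = θ ∘ (φ, φ')`
  obtain ⟨θ, hθ⟩ := exists_theta hA t ht0 htm hsoc
  set Φ : R →ₐ[𝒪] pairAlg 𝒪 t :=
    AlgHom.codRestrict (φ.prod φ') (pairAlg 𝒪 t) (fun x => hdiff x) with hΦ
  have hΦ1 : ∀ x, ((Φ x : pairAlg 𝒪 t) : A × A).1 = φ x := fun x => rfl
  have hΦ2 : ∀ x, ((Φ x : pairAlg 𝒪 t) : A × A).2 = φ' x := fun x => rfl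
  set ψ : R →ₐ[𝒪] DualNumber (ResidueField 𝒪) := θ.comp Φ with hψ
  have hψr : ∀ g, mapRep (ψ : R →+* DualNumber (ResidueField 𝒪)) r g =
      tanFun ρbar (cob ρbar Y) g := by
    intro g
    refine Matrix.ext fun i j => ?_
    have h1 : mapRep (ψ : R →+* DualNumber (ResidueField 𝒪)) r g i j = θ (Φ (r g i j)) := rfl
    rw [h1, theta_eq hA t hsoc θ hθ (Φ (r g i j)) (B g i j)
      (by rw [hΦ1, hΦ2]; exact hB g i j), hΦ1, resk_algHom H.hR hkA φ, H.hex.resk H.hR]
    have h2 : B g i j = cob ρbar Y g i j := by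
      rw [← hBY g]; rfl
    rw [h2]
    simp [tanFun]
  have hsnd := H.hT2 ψ Y hψr
  ext x
  obtain ⟨c, hc⟩ := exists_tau_of_mem_span hA t hsoc (hdiff x)
  have h1 := theta_eq hA t hsoc θ hθ (Φ x) c (by rw [hΦ1, hΦ2]; exact hc)
  have h2 : (ψ x).snd = c := by
    show (θ (Φ x)).snd = c
    rw [h1]
    simp
  rw [hsnd x] at h2
  rw [← h2, tau_zero hA t hsoc, sub_eq_zero] at hc
  exact hc.symm

end Step

section ExistsStep

variable {R : Type} [CommRing R] [IsLocalRing R] [Algebra 𝒪 R] [IsLocalHom (algebraMap 𝒪 R)]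
  {r : GQ →* M2 R}
  {A : Type} [CommRing A] [IsLocalRing A] [Algebra 𝒪 A] [IsLocalHom (algebraMap 𝒪 A)]

/-- the corrected lift `u' = w + τ ∘ snd ∘ ψ`. -/
def univCorrect (hR : Function.Surjective (residue R ∘ algebraMap 𝒪 R))
    (hA : IsArtinianTestAlgebra 𝒪 A) (t : A) (htm : t ∈ maximalIdeal A)
    (hsoc : ∀ x ∈ maximalIdeal A, x * t = 0)
    (w : R →ₐ[𝒪] A) (ψ : R →ₐ[𝒪] DualNumber (ResidueField 𝒪)) : R →ₐ[𝒪] A where
  toFun x := w x + tau 𝒪 t (ψ x).snd
  map_one' := by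
    rw [map_one, map_one, TrivSqZeroExt.snd_one, tau_zero hA t hsoc, add_zero]
  map_mul' x y := by
    have hfx : (ψ x).fst = resk hA.residue_surjective (w x) := by
      rw [resk_algHom hR hA.residue_surjective w]
      exact algHom_eq_resk hR ((TrivSqZeroExt.fstHom 𝒪 (ResidueField 𝒪) (ResidueField 𝒪)).comp ψ) x
    have hfy : (ψ y).fst = resk hA.residue_surjective (w y) := by
      rw [resk_algHom hR hA.residue_surjective w]
      exact algHom_eq_resk hR ((TrivSqZeroExt.fstHom 𝒪 (ResidueField 𝒪) (ResidueField 𝒪)).comp ψ) y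
    have h1 : (ψ (x * y)).snd = (ψ x).fst * (ψ y).snd + (ψ y).fst * (ψ x).snd := by
      rw [map_mul, TrivSqZeroExt.snd_mul]
      simp [mul_comm]
    rw [h1, tau_add hA t hsoc, hfx, hfy, ← mul_tau hA t hsoc, ← mul_tau hA t hsoc, map_mul]
    have h2 := tau_mul_tau hA t htm hsoc (ψ x).snd (ψ y).snd
    linear_combination -h2
  map_zero' := by
    rw [map_zero, map_zero, TrivSqZeroExt.snd_zero, tau_zero hA t hsoc, add_zero]
  map_add' x y := by
    rw [map_add, map_add, TrivSqZeroExt.snd_add, tau_add hA t hsoc]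
    ring
  commutes' o := by
    have h1 : (ψ (algebraMap 𝒪 R o)).snd = 0 := by
      rw [AlgHom.commutes]
      rfl
    show w (algebraMap 𝒪 R o) + tau 𝒪 t (ψ (algebraMap 𝒪 R o)).snd = algebraMap 𝒪 A o
    rw [h1, tau_zero hA t hsoc, add_zero, AlgHom.commutes]

lemma univCorrect_apply (hR : Function.Surjective (residue R ∘ algebraMap 𝒪 R))
    (hA : IsArtinianTestAlgebra 𝒪 A) (t : A) (htm : t ∈ maximalIdeal A)
    (hsoc : ∀ x ∈ maximalIdeal A, x * t = 0)
    (w : R →ₐ[𝒪] A) (ψ : R →ₐ[𝒪] DualNumber (ResidueField 𝒪)) (x : R) :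
    univCorrect hR hA t htm hsoc w ψ x = w x + tau 𝒪 t (ψ x).snd := rfl

/-- existence step. -/
lemma univ_exists_step (h𝒟 : IsDeformationCondition 𝒪 𝒟) (H : UnivHull ρbar 𝒟 r)
    (hA : IsArtinianTestAlgebra 𝒪 A) (t : A) (ht0 : t ≠ 0) (htm : t ∈ maximalIdeal A)
    (hsoc : ∀ x ∈ maximalIdeal A, x * t = 0)
    (rA : GQ →* M2 A) (hDA : IsDLift 𝒟 rA)
    (u : R →ₐ[𝒪] A ⧸ Ideal.span {t})
    (hu : Conj (mapRep (Ideal.Quotient.mk (Ideal.span {t})) rA)
      (mapRep (u : R →+* A ⧸ Ideal.span {t}) r)) :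
    ∃ φ : R →ₐ[𝒪] A, Conj rA (mapRep (φ : R →+* A) r) := by
  classical
  have hne : Ideal.span {t} ≠ ⊤ := span_singleton_ne_top_of_mem_maximalIdeal htm
  have := quot_isLocalRing (Ideal.span {t}) hne
  have hA₀ : IsArtinianTestAlgebra 𝒪 (A ⧸ Ideal.span {t}) := test_quotient hA _ hne
  have : IsLocalHom (algebraMap 𝒪 (A ⧸ Ideal.span {t})) := hA₀.isLocalHom
  set π : A →ₐ[𝒪] A ⧸ Ideal.span {t} := Ideal.Quotient.mkₐ 𝒪 (Ideal.span {t}) with hπ
  have hπloc : IsLocalHom (π : A →+* A ⧸ Ideal.span {t}) := test_isLocalHom' hA₀ π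
  have hπmk : (π : A →+* A ⧸ Ideal.span {t}) = Ideal.Quotient.mk (Ideal.span {t}) := rfl
  have hkA := hA.residue_surjective
  -- lift the conjugating matrix
  obtain ⟨γ₀, hγ₀⟩ := hu
  obtain ⟨γ, hγ1, hγ2⟩ := exists_unit_lift (Ideal.Quotient.mk (Ideal.span {t}))
    Ideal.Quotient.mk_surjective (hπmk ▸ hπloc) γ₀
  obtain ⟨r', hr'⟩ : ∃ r' : GQ →* M2 A, r' = univConjRep γ rA := ⟨_, rfl⟩
  have hr'g : ∀ g, r' g = (γ : M2 A) * rA g * ((γ⁻¹ : (M2 A)ˣ) : M2 A) := by
    intro g; rw [hr']; rfl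
  have hDr' : IsDLift 𝒟 r' := by
    rw [hr']
    exact hDA.conj h𝒟 hA (conj_univConjRep γ rA)
  have hr'u : mapRep (u : R →+* A ⧸ Ideal.span {t}) r =
      mapRep (Ideal.Quotient.mk (Ideal.span {t})) r' := by
    refine MonoidHom.ext fun g => ?_
    rw [hγ₀ g]
    have h1 : mapRep (Ideal.Quotient.mk (Ideal.span {t})) r' g =
        (r' g).map (Ideal.Quotient.mk (Ideal.span {t})) := rfl
    have h2 : mapRep (Ideal.Quotient.mk (Ideal.span {t})) rA g =
        (rA g).map (Ideal.Quotient.mk (Ideal.span {t})) := rfl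
    rw [h1, h2, hr'g, Matrix.map_mul, Matrix.map_mul, hγ1, hγ2]
  -- lift `u` to `w`
  obtain ⟨w, hw⟩ := H.hL A hA t ht0 htm hsoc r' hDr' u hr'u
  have hDw : IsDLift 𝒟 (mapRep (w : R →+* A) r) := H.hD A hA w
  have hexw : IsExact ρbar (mapRep (w : R →+* A) r) :=
    (isExact_mapRep_iff ρbar H.hR hkA w r).mpr H.hex
  have hexu : IsExact ρbar (mapRep (u : R →+* A ⧸ Ideal.span {t}) r) :=
    (isExact_mapRep_iff ρbar H.hR hA₀.residue_surjective u r).mpr H.hex
  have hexr' : IsExact ρbar r' := by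
    rw [hr'u] at hexu
    exact (isExact_mapRep_iff ρbar hkA hA₀.residue_surjective π r').mp hexu
  have hredr' : ∀ g, reskM hA (r' g) = rhobarM ρbar g := by
    intro g
    ext i j
    rw [reskM_apply]
    exact hexr'.resk hkA g i j
  -- glue `w_* r` and `r'` over `pairAlg t`
  have := pairAlg_isLocalRing (𝒪 := 𝒪) t htm
  have hP : IsArtinianTestAlgebra 𝒪 (pairAlg 𝒪 t) := pairAlg_isTest hA t htm
  have hcomm : π.comp (pairFst 𝒪 t) = π.comp (pairSnd 𝒪 t) := by
    refine AlgHom.ext fun p => ?_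
    show Ideal.Quotient.mk (Ideal.span {t}) (p : A × A).1 =
      Ideal.Quotient.mk (Ideal.span {t}) (p : A × A).2
    rw [eq_comm, Ideal.Quotient.eq]
    exact p.2
  have hinj : Function.Injective
      (fun x : pairAlg 𝒪 t => (pairFst 𝒪 t x, pairSnd 𝒪 t x)) := by
    intro x y hxy
    simp only [pairFst_apply, pairSnd_apply, Prod.mk.injEq] at hxy
    exact Subtype.ext (Prod.ext hxy.1 hxy.2)
  have hsurj : ∀ a b : A, π a = π b →
      ∃ x : pairAlg 𝒪 t, pairFst 𝒪 t x = a ∧ pairSnd 𝒪 t x = b := by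
    intro a b hab
    refine ⟨⟨(a, b), ?_⟩, rfl, rfl⟩
    rw [mem_pairAlg]
    have h1 : Ideal.Quotient.mk (Ideal.span {t}) b = Ideal.Quotient.mk (Ideal.span {t}) a :=
      hab.symm
    exact Ideal.Quotient.eq.mp h1
  have hAB : mapRep (π : A →+* A ⧸ Ideal.span {t}) (mapRep (w : R →+* A) r) =
      mapRep (π : A →+* A ⧸ Ideal.span {t}) r' := by
    rw [hπmk, ← hr'u, ← hw]
    rfl
  obtain ⟨s, hDs, hs1, hs2⟩ := IsDLift.glue_exists h𝒟 hA hA hA₀ hP π π (pairFst 𝒪 t)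
    (pairSnd 𝒪 t) hcomm hinj hsurj hDw hDr' hAB
  have hs1' : ∀ g i j, ((s g i j : pairAlg 𝒪 t) : A × A).1 = w (r g i j) := by
    intro g i j
    have := congrFun (congrFun (congrArg (fun f : GQ →* M2 A => f g) hs1) i) j
    exact this
  have hs2' : ∀ g i j, ((s g i j : pairAlg 𝒪 t) : A × A).2 = r' g i j := by
    intro g i j
    have := congrFun (congrFun (congrArg (fun f : GQ →* M2 A => f g) hs2) i) j
    exact this
  -- push forward along `θ`
  obtain ⟨θ, hθ⟩ := exists_theta hA t ht0 htm hsoc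
  obtain ⟨b, hb⟩ : ∃ b : GQ → M2 (ResidueField 𝒪),
      ∀ g i j, b g i j = (θ (s g i j)).snd := ⟨fun g => Matrix.of fun i j => (θ (s g i j)).snd,
    fun g i j => rfl⟩
  have hθs : ∀ g i j, θ (s g i j) = inl (rhobarM ρbar g i j) + inr (b g i j) ∧
      r' g i j - w (r g i j) = tau 𝒪 t (b g i j) := by
    intro g i j
    obtain ⟨c, hc⟩ := exists_tau_of_mem_span hA t hsoc (s g i j).2
    have h1 := theta_eq hA t hsoc θ hθ (s g i j) c hc
    have h2 : b g i j = c := by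
      rw [hb, h1]
      simp
    rw [hs1', resk_algHom H.hR hkA w, H.hex.resk H.hR] at h1
    rw [hs2', hs1'] at hc
    rw [h2]
    exact ⟨h1, hc⟩
  have hTan : IsTan ρbar 𝒟 b := by
    refine ⟨mapRep (θ : pairAlg 𝒪 t →+* DualNumber (ResidueField 𝒪)) s, fun g => ?_,
      hDs.map h𝒟 hP dual_isTest θ⟩
    refine Matrix.ext fun i j => ?_
    have h1 : mapRep (θ : pairAlg 𝒪 t →+* DualNumber (ResidueField 𝒪)) s g i j =
        θ (s g i j) := rfl
    rw [h1, (hθs g i j).1]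
    simp [tanFun]
  -- correct `w` by a tangent vector
  obtain ⟨ψ, X, hψ⟩ := H.hT1 b hTan
  have hψsnd : ∀ g i j, (ψ (r g i j)).snd = b g i j - cob ρbar X g i j := by
    intro g i j
    have h1 := congrFun (congrFun (hψ g) i) j
    have h2 : mapRep (ψ : R →+* DualNumber (ResidueField 𝒪)) r g i j = ψ (r g i j) := rfl
    rw [h2] at h1
    rw [h1]
    simp [tanFun]
  refine ⟨univCorrect H.hR hA t htm hsoc w ψ, ?_⟩
  set δ : (M2 A)ˣ := oneAddTau hA t htm hsoc (-X) with hδ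
  refine ⟨δ * γ, fun g => ?_⟩
  have h1 : mapRep ((univCorrect H.hR hA t htm hsoc w ψ : R →ₐ[𝒪] A) : R →+* A) r g =
      r' g - tauM t (cob ρbar X g) := by
    refine Matrix.ext fun i j => ?_
    have h2 : mapRep ((univCorrect H.hR hA t htm hsoc w ψ : R →ₐ[𝒪] A) : R →+* A) r g i j =
        w (r g i j) + tau 𝒪 t (ψ (r g i j)).snd := rfl
    rw [h2, hψsnd, tau_sub hA t hsoc, ← (hθs g i j).2]
    simp only [Matrix.sub_apply, tauM_apply]
    ring
  have h3 : (δ : M2 A) * r' g * ((δ⁻¹ : (M2 A)ˣ) : M2 A) = r' g - tauM t (cob ρbar X g) := by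
    rw [hδ, oneAddTau_val, oneAddTau_inv, oneAddTau_conj hA t htm hsoc, hredr' g, cob_apply]
    have h4 : -X * rhobarM ρbar g - rhobarM ρbar g * -X =
        -(X * rhobarM ρbar g - rhobarM ρbar g * X) := by noncomm_ring
    rw [h4, tauM_neg hA t hsoc]
    abel
  rw [h1, ← h3, hr'g, mul_inv_rev, Units.val_mul, Units.val_mul]
  noncomm_ring

end ExistsStep

section Induction

variable {R : Type} [CommRing R] [IsLocalRing R] [Algebra 𝒪 R] [IsLocalHom (algebraMap 𝒪 R)]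
  {r : GQ →* M2 R}

/-- uniqueness, by induction on the cardinality of the test algebra. -/
theorem univ_unique (habs : ρbar.IsAbsolutelyIrreducible) (H : UnivHull ρbar 𝒟 r) :
    ∀ (n : ℕ) (A : Type) [CommRing A] [IsLocalRing A] [Algebra 𝒪 A]
      [IsLocalHom (algebraMap 𝒪 A)], IsArtinianTestAlgebra 𝒪 A → Nat.card A = n →
      ∀ φ φ' : R →ₐ[𝒪] A, Conj (mapRep (φ : R →+* A) r) (mapRep (φ' : R →+* A) r) →
        φ = φ' := by
  intro n
  induction n using Nat.strong_induction_on with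
  | _ n ih =>
    intro A _ _ _ _ hA hcard φ φ' hc
    by_cases hm : maximalIdeal A = ⊥
    · exact univ_base_unique H.hR hA hm φ φ'
    · obtain ⟨t, ht0, htm, hsoc⟩ := test_exists_socle hA hm
      have hne : Ideal.span {t} ≠ ⊤ := span_singleton_ne_top_of_mem_maximalIdeal htm
      have hne0 : Ideal.span {t} ≠ ⊥ := by
        intro h
        apply ht0
        have : t ∈ Ideal.span {t} := Ideal.mem_span_singleton_self t
        rwa [h, Ideal.mem_bot] at this
      have := quot_isLocalRing (Ideal.span {t}) hne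
      have hA₀ : IsArtinianTestAlgebra 𝒪 (A ⧸ Ideal.span {t}) := test_quotient hA _ hne
      have : IsLocalHom (algebraMap 𝒪 (A ⧸ Ideal.span {t})) := hA₀.isLocalHom
      have hlt : Nat.card (A ⧸ Ideal.span {t}) < n := by
        rw [← hcard]
        exact test_card_quotient_lt hA _ hne0
      apply univ_unique_step habs H hA t ht0 htm hsoc φ φ' _ hc
      apply ih _ hlt (A ⧸ Ideal.span {t}) hA₀ rfl
      exact univ_conj_map
        ((Ideal.Quotient.mkₐ 𝒪 (Ideal.span {t}) : A →ₐ[𝒪] A ⧸ Ideal.span {t}) :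
          A →+* A ⧸ Ideal.span {t}) hc

/-- existence, by induction on the cardinality of the test algebra. -/
theorem univ_exists (h𝒟 : IsDeformationCondition 𝒪 𝒟) (H : UnivHull ρbar 𝒟 r) :
    ∀ (n : ℕ) (A : Type) [CommRing A] [IsLocalRing A] [Algebra 𝒪 A]
      [IsLocalHom (algebraMap 𝒪 A)], IsArtinianTestAlgebra 𝒪 A → Nat.card A = n →
      ∀ rA : GQ →* M2 A, IsDLift 𝒟 rA → IsExact ρbar rA →
        ∃ φ : R →ₐ[𝒪] A, Conj rA (mapRep (φ : R →+* A) r) := by
  intro n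
  induction n using Nat.strong_induction_on with
  | _ n ih =>
    intro A _ _ _ _ hA hcard rA hDA hexA
    by_cases hm : maximalIdeal A = ⊥
    · exact univ_base_exists H.hR H.hex hA hm rA hexA
    · obtain ⟨t, ht0, htm, hsoc⟩ := test_exists_socle hA hm
      have hne : Ideal.span {t} ≠ ⊤ := span_singleton_ne_top_of_mem_maximalIdeal htm
      have hne0 : Ideal.span {t} ≠ ⊥ := by
        intro h
        apply ht0
        have : t ∈ Ideal.span {t} := Ideal.mem_span_singleton_self t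
        rwa [h, Ideal.mem_bot] at this
      have := quot_isLocalRing (Ideal.span {t}) hne
      have hA₀ : IsArtinianTestAlgebra 𝒪 (A ⧸ Ideal.span {t}) := test_quotient hA _ hne
      have : IsLocalHom (algebraMap 𝒪 (A ⧸ Ideal.span {t})) := hA₀.isLocalHom
      have hlt : Nat.card (A ⧸ Ideal.span {t}) < n := by
        rw [← hcard]
        exact test_card_quotient_lt hA _ hne0
      have hD₀ : IsDLift 𝒟 (mapRep (Ideal.Quotient.mk (Ideal.span {t})) rA) :=
        hDA.map h𝒟 hA hA₀ (Ideal.Quotient.mkₐ 𝒪 (Ideal.span {t}))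
      have hex₀ : IsExact ρbar (mapRep (Ideal.Quotient.mk (Ideal.span {t})) rA) :=
        (isExact_mapRep_iff ρbar hA.residue_surjective hA₀.residue_surjective
          (Ideal.Quotient.mkₐ 𝒪 (Ideal.span {t})) rA).mpr hexA
      obtain ⟨u, hu⟩ := ih _ hlt (A ⧸ Ideal.span {t}) hA₀ rfl _ hD₀ hex₀
      exact univ_exists_step h𝒟 H hA t ht0 htm hsoc rA hDA u hu

end Induction

theorem universal_on_test_of_hull
    (habs : ρbar.IsAbsolutelyIrreducible) (h𝒟 : IsDeformationCondition 𝒪 𝒟)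
    {R : Type} [CommRing R] [IsLocalRing R] [Algebra 𝒪 R] [IsLocalHom (algebraMap 𝒪 R)]
    (hR : Function.Surjective (residue R ∘ algebraMap 𝒪 R))
    (r : GQ →* M2 R) (hex : IsExact ρbar r)
    (hD : ∀ (A : Type) [CommRing A] [IsLocalRing A] [Algebra 𝒪 A],
      IsArtinianTestAlgebra 𝒪 A → ∀ u : R →ₐ[𝒪] A, IsDLift 𝒟 (mapRep (u : R →+* A) r))
    (hT1 : ∀ b, IsTan ρbar 𝒟 b →
      ∃ (ψ : R →ₐ[𝒪] DualNumber (ResidueField 𝒪)) (X : M2 (ResidueField 𝒪)),
        ∀ g, mapRep (ψ : R →+* DualNumber (ResidueField 𝒪)) r g =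
          tanFun ρbar (b - cob ρbar X) g)
    (hT2 : ∀ (ψ : R →ₐ[𝒪] DualNumber (ResidueField 𝒪)) (Y : M2 (ResidueField 𝒪)),
      (∀ g, mapRep (ψ : R →+* DualNumber (ResidueField 𝒪)) r g = tanFun ρbar (cob ρbar Y) g) →
        ∀ x, (ψ x).snd = 0)
    (hL : ∀ (A : Type) [CommRing A] [IsLocalRing A] [Algebra 𝒪 A],
      IsArtinianTestAlgebra 𝒪 A → ∀ (t : A), t ≠ 0 → t ∈ maximalIdeal A →
      (∀ x ∈ maximalIdeal A, x * t = 0) → ∀ (r' : GQ →* M2 A), IsDLift 𝒟 r' →
      ∀ u : R →ₐ[𝒪] A ⧸ Ideal.span {t},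
        mapRep (u : R →+* A ⧸ Ideal.span {t}) r =
          mapRep (Ideal.Quotient.mk (Ideal.span {t})) r' →
        ∃ w : R →ₐ[𝒪] A, (Ideal.Quotient.mkₐ 𝒪 (Ideal.span {t})).comp w = u) :
    ∀ (A : Type) [CommRing A] [IsLocalRing A] [Algebra 𝒪 A]
      [IsLocalHom (algebraMap 𝒪 A)], IsArtinianTestAlgebra 𝒪 A →
      ∀ (rA : GQ →* M2 A) (hrA : MatCont rA), IsExact ρbar rA → 𝒟 (matRep rA hrA) →
        ∃! φ : R →ₐ[𝒪] A, Conj rA (mapRep (φ : R →+* A) r) := by
  intro A _ _ _ _ hA rA hrA hexA hDA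
  have H : UnivHull ρbar 𝒟 r := ⟨hR, hex, hD, hT1, hT2, hL⟩
  obtain ⟨φ, hφ⟩ := univ_exists h𝒟 H (Nat.card A) A hA rfl rA ⟨hrA, hDA⟩ hexA
  refine ⟨φ, hφ, fun φ' hφ' => ?_⟩
  exact (univ_unique habs H (Nat.card A) A hA rfl φ φ'
    (univ_conj_trans (univ_conj_symm hφ) hφ')).symm

end Fermat.Agent.S53
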