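import Fermat.Agent.S53.Tower
import Fermat.Agent.S53.Univ

/-!
# S53 / M3–M5 — Schlessinger construction and universality on Artinian test algebras
OWNER: helper1
-/

set_option autoImplicit false
set_option linter.unusedSectionVars false

noncomputable section

namespace Fermat.Agent.S53

open IsLocalRing GaloisRep

variable {𝒪 : Type} [CommRing 𝒪] [IsDomain 𝒪] [IsDiscreteValuationRing 𝒪]
  [IsAdicComplete (maximalIdeal 𝒪) 𝒪] [Finite (ResidueField 𝒪)]
  {ρbar : ResidualGaloisRep (ResidueField 𝒪)}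
  {𝒟 : ∀ ⦃A : Type⦄ [CommRing A] [IsLocalRing A] [Algebra 𝒪 A], GaloisRepAdic A → Prop}

/-- lifting `𝒪`-algebra homs out of the power series ring along a surjection of test
algebras. -/
lemma ps_exists_lift_quot {A : Type} [CommRing A] [IsLocalRing A] [Algebra 𝒪 A]
    (hA : IsArtinianTestAlgebra 𝒪 A) (I : Ideal A) (hI : I ≠ ⊤) {d : ℕ}
    (v : PS 𝒪 d →ₐ[𝒪] A ⧸ I) :
    ∃ w : PS 𝒪 d →ₐ[𝒪] A, ∀ x, Ideal.Quotient.mk I (w x) = v x := by
  haveI := quot_isLocalRing I hI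
  have hA0 : IsArtinianTestAlgebra 𝒪 (A ⧸ I) := test_quotient hA I hI
  have hvloc : IsLocalHom (v : PS 𝒪 d →+* A ⧸ I) :=
    test_isLocalHom hA0.isLocalHom hA0.residue_surjective v
  have hex : ∀ i, ∃ a : A, Ideal.Quotient.mk I a = v (MvPowerSeries.X i) :=
    fun i => Ideal.Quotient.mk_surjective _
  choose a ha using hex
  have ham : ∀ i, a i ∈ maximalIdeal A := by
    intro i
    rw [mem_maximalIdeal, mem_nonunits_iff]
    intro hu
    have h1 : IsUnit (v (MvPowerSeries.X i)) := by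
      rw [← ha i]
      exact hu.map (Ideal.Quotient.mk I)
    exact (ps_X_mem d i) (hvloc.map_nonunit _ h1)
  obtain ⟨w, hw⟩ := ps_exists_lift hA a ham
  refine ⟨w, fun x => ?_⟩
  have : (Ideal.Quotient.mkₐ 𝒪 I).comp w = v := by
    refine ps_algHom_ext hA0 _ _ fun i => ?_
    show Ideal.Quotient.mk I (w (MvPowerSeries.X i)) = _
    rw [hw, ha]
  exact congrArg (fun f : PS 𝒪 d →ₐ[𝒪] A ⧸ I => f x) this

/-- (M3–M5) existence of a universal exact lift, universal on Artinian test algebras. -/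
theorem exists_universal_on_test
    (habs : ρbar.IsAbsolutelyIrreducible) (h𝒟 : GaloisRep.IsDeformationCondition 𝒪 𝒟)
    (hbar : 𝒟 (GaloisRepAdic.ofResidualGaloisRep ρbar))
    (hfin : GaloisRep.TangentFinite 𝒪 ρbar 𝒟) :
    ∃ (R : Type) (_ : CommRing R) (_ : IsLocalRing R) (_ : IsNoetherianRing R)
      (_ : IsAdicComplete (maximalIdeal R) R) (_ : Algebra 𝒪 R)
      (_ : IsLocalHom (algebraMap 𝒪 R)),
      Function.Surjective (residue R ∘ algebraMap 𝒪 R) ∧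
      ∃ (r : GQ →* M2 R) (hr : MatCont r), IsExact ρbar r ∧ 𝒟 (matRep r hr) ∧
        ∀ (A : Type) [CommRing A] [IsLocalRing A] [Algebra 𝒪 A]
          [IsLocalHom (algebraMap 𝒪 A)], GaloisRep.IsArtinianTestAlgebra 𝒪 A →
          ∀ (rA : GQ →* M2 A) (hrA : MatCont rA), IsExact ρbar rA → 𝒟 (matRep rA hrA) →
            ∃! φ : R →ₐ[𝒪] A, Conj rA (mapRep (φ : R →+* A) r) := by
  obtain ⟨d, c, hc, hspan, hindep⟩ := exists_tangent_basis habs h𝒟 hbar hfin
  obtain ⟨rE, hE, hrE⟩ := epsRep_exists h𝒟 hbar d c hc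
  have hR := ps_residue_surjective (𝒪 := 𝒪) d
  set s0 : Stage 𝒟 (PS 𝒪 d) := stage0 h𝒟 rE hrE with hs0
  have hex : IsExact ρbar (rLim h𝒟 hR s0) := rLim_isExact h𝒟 rE hrE hE
  refine ⟨PS 𝒪 d ⧸ Jinf s0, inferInstance, inferInstance, inferInstance, inferInstance,
    inferInstance, inferInstance, Jinf_residue_surjective hR s0, rLim h𝒟 hR s0,
    rLim_matCont h𝒟 hR s0, hex, rLim_cond h𝒟 hR s0, ?_⟩
  refine universal_on_test_of_hull habs h𝒟 (Jinf_residue_surjective hR s0) (rLim h𝒟 hR s0) hex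
    (fun A _ _ _ hA u => rLim_isDLift_map h𝒟 hR s0 hA u)
    (rLim_T1 h𝒟 rE hrE hE hspan) (rLim_T2 h𝒟 rE hrE hE hindep) ?_
  intro A _ _ _ hA t ht0 htm hsoc r' hr' u hu
  have htop : Ideal.span {t} ≠ ⊤ := by
    intro h
    have : (1 : A) ∈ maximalIdeal A := by
      have h1 : (1 : A) ∈ Ideal.span {t} := h ▸ Submodule.mem_top
      exact (Ideal.span_singleton_le_iff_mem (I := maximalIdeal A)).2 htm h1
    exact (maximalIdeal.isMaximal A).ne_top ((Ideal.eq_top_iff_one _).2 this)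
  obtain ⟨w₀, hw₀⟩ := ps_exists_lift_quot hA (Ideal.span {t}) htop
    (u.comp (Ideal.Quotient.mkₐ 𝒪 (Jinf s0)))
  exact rLim_lift h𝒟 hR s0 hA t ht0 htm hsoc r' hr' u hu w₀ hw₀

end Fermat.Agent.S53
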