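import Mathlib

/-!
# S53 / M1(e): Chevalley's lemma for complete Noetherian local rings

Let `R` be a complete Noetherian local ring and let `J 0 ⊇ J 1 ⊇ …` be a decreasing sequence
of ideals.  Then for every `n` there is `q` with `J q ≤ (⨅ q, J q) ⊔ 𝔪 ^ n` (`chevalley`),
and every compatible family modulo the `J q` lifts to `R` (`exists_limit`).
-/

set_option autoImplicit false

namespace Fermat.Agent.S53

open IsLocalRing

section Chevalley

variable {R : Type} [CommRing R] [IsLocalRing R] [IsNoetherianRing R]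

/-- In a Noetherian local ring, `R ⧸ 𝔪 ^ m` is Artinian. -/
theorem isArtinianRing_quotient_maximalIdeal_pow (m : ℕ) :
    IsArtinianRing (R ⧸ maximalIdeal R ^ m) := by
  rcases Nat.eq_zero_or_pos m with rfl | hm
  · have : Subsingleton (R ⧸ maximalIdeal R ^ 0) := by
      rw [pow_zero, Ideal.one_eq_top]
      exact Ideal.Quotient.subsingleton_iff.mpr rfl
    have : Finite (R ⧸ maximalIdeal R ^ 0) := Finite.of_subsingleton
    infer_instance
  · have hne : maximalIdeal R ^ m ≠ ⊤ := by
      intro h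
      have h1 : maximalIdeal R ^ m ≤ maximalIdeal R := Ideal.pow_le_self hm.ne'
      rw [h] at h1
      exact (maximalIdeal.isMaximal R).ne_top (top_le_iff.mp h1)
    have : Nontrivial (R ⧸ maximalIdeal R ^ m) := Ideal.Quotient.nontrivial_iff.mpr hne
    have : IsLocalRing (R ⧸ maximalIdeal R ^ m) :=
      IsLocalRing.of_surjective' (Ideal.Quotient.mk _) Ideal.Quotient.mk_surjective
    have := IsLocalHom.of_surjective (Ideal.Quotient.mk (maximalIdeal R ^ m))
      Ideal.Quotient.mk_surjective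
    rw [isArtinianRing_iff_isNilpotent_maximalIdeal]
    refine ⟨m, ?_⟩
    have hmax : (maximalIdeal R).map (Ideal.Quotient.mk (maximalIdeal R ^ m)) =
        maximalIdeal (R ⧸ maximalIdeal R ^ m) := by
      ext x
      obtain ⟨x, rfl⟩ := Ideal.Quotient.mk_surjective x
      simp [sup_eq_left.mpr (le_maximalIdeal hne)]
    rw [← hmax, ← Ideal.map_pow, Ideal.zero_eq_bot, Ideal.map_eq_bot_iff_le_ker, Ideal.mk_ker]

/-- An antitone sequence of ideals, each containing `𝔪 ^ m`, stabilises. -/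
theorem antitone_stabilizes_of_pow_le (K : ℕ → Ideal R) (hK : Antitone K) (m : ℕ)
    (hm : ∀ q, maximalIdeal R ^ m ≤ K q) : ∃ q₀, ∀ q, q₀ ≤ q → K q = K q₀ := by
  have : IsArtinianRing (R ⧸ maximalIdeal R ^ m) := isArtinianRing_quotient_maximalIdeal_pow m
  let f : ℕ →o (Submodule (R ⧸ maximalIdeal R ^ m) (R ⧸ maximalIdeal R ^ m))ᵒᵈ :=
    { toFun := fun q => OrderDual.toDual ((K q).map (Ideal.Quotient.mk (maximalIdeal R ^ m)))
      monotone' := fun a b hab => Ideal.map_mono (hK hab) }
  obtain ⟨q₀, hq₀⟩ := IsArtinian.monotone_stabilizes f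
  refine ⟨q₀, fun q hq => ?_⟩
  have h1 : (K q₀).map (Ideal.Quotient.mk (maximalIdeal R ^ m)) =
      (K q).map (Ideal.Quotient.mk (maximalIdeal R ^ m)) := hq₀ q hq
  have h2 : ∀ q', ((K q').map (Ideal.Quotient.mk (maximalIdeal R ^ m))).comap
      (Ideal.Quotient.mk (maximalIdeal R ^ m)) = K q' := by
    intro q'
    rw [Ideal.comap_map_of_surjective _ Ideal.Quotient.mk_surjective, ← RingHom.ker_eq_comap_bot,
      Ideal.mk_ker]
    exact sup_eq_left.mpr (hm q')
  rw [← h2 q, ← h1, h2 q₀]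

/-- **Ideals of a Noetherian local ring are closed** (Krull's intersection theorem). -/
theorem mem_of_forall_mem_sup_pow (J : Ideal R) (x : R)
    (hx : ∀ n, x ∈ J ⊔ maximalIdeal R ^ n) : x ∈ J := by
  rw [← Ideal.Quotient.eq_zero_iff_mem]
  apply IsHausdorff.haus (inferInstance : IsHausdorff (maximalIdeal R) (R ⧸ J))
  intro n
  rw [SModEq.zero]
  obtain ⟨j, hj, μ, hμ, rfl⟩ := Submodule.mem_sup.mp (hx n)
  have h1 : Ideal.Quotient.mk J (j + μ) = μ • (Ideal.Quotient.mk J 1) := by
    rw [map_add, Ideal.Quotient.eq_zero_iff_mem.mpr hj, zero_add, map_one]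
    rw [Algebra.smul_def, mul_one]
    rfl
  rw [h1]
  exact Submodule.smul_mem_smul hμ Submodule.mem_top

/-- Variant of `mem_of_forall_mem_sup_pow` where the hypothesis is only needed for large `n`. -/
theorem mem_of_forall_ge_mem_sup_pow (J : Ideal R) (x : R) (n₀ : ℕ)
    (hx : ∀ n, n₀ ≤ n → x ∈ J ⊔ maximalIdeal R ^ n) : x ∈ J := by
  apply mem_of_forall_mem_sup_pow J x
  intro n
  have h1 := hx (max n₀ n) (le_max_left _ _)
  exact sup_le_sup_left (Ideal.pow_le_pow_right (le_max_right n₀ n)) J h1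

variable [IsAdicComplete (maximalIdeal R) R]

/-- **Chevalley's lemma.** -/
theorem chevalley (J : ℕ → Ideal R) (hJ : Antitone J) (n : ℕ) :
    ∃ q, J q ≤ (⨅ q, J q) ⊔ maximalIdeal R ^ n := by
  classical
  -- the stable value `I m` of `J q ⊔ 𝔪 ^ m`
  have hstab : ∀ m, ∃ q₀, ∀ q, q₀ ≤ q → J q ⊔ maximalIdeal R ^ m = J q₀ ⊔ maximalIdeal R ^ m :=
    fun m => antitone_stabilizes_of_pow_le (fun q => J q ⊔ maximalIdeal R ^ m)
      (fun a b hab => sup_le_sup_right (hJ hab) _) m (fun q => le_sup_right)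
  choose q₀ hq₀ using hstab
  let I : ℕ → Ideal R := fun m => J (q₀ m) ⊔ maximalIdeal R ^ m
  have hI_le : ∀ m q, I m ≤ J q ⊔ maximalIdeal R ^ m := by
    intro m q
    rcases le_total (q₀ m) q with h | h
    · exact (hq₀ m q h).ge
    · exact sup_le_sup_right (hJ h) _
  have hI_anti : ∀ m, I (m + 1) ≤ I m := by
    intro m
    calc I (m + 1) ≤ J (q₀ m) ⊔ maximalIdeal R ^ (m + 1) := hI_le (m + 1) (q₀ m)
      _ ≤ J (q₀ m) ⊔ maximalIdeal R ^ m :=
        sup_le_sup_left (Ideal.pow_le_pow_right (Nat.le_succ m)) _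
  have hI_anti' : ∀ m m', m ≤ m' → I m' ≤ I m := by
    intro m m' h
    induction h with
    | refl => exact le_rfl
    | step _ ih => exact (hI_anti _).trans ih
  -- Claim A
  have hA : ∀ m, ∀ x ∈ I m, ∃ y ∈ I (m + 1), y - x ∈ maximalIdeal R ^ m := by
    intro m x hx
    have hx' : x ∈ J (max (q₀ m) (q₀ (m + 1))) ⊔ maximalIdeal R ^ m :=
      hI_le m _ hx
    obtain ⟨j, hj, μ, hμ, rfl⟩ := Submodule.mem_sup.mp hx'
    refine ⟨j, ?_, ?_⟩
    · have : J (max (q₀ m) (q₀ (m + 1))) ⊔ maximalIdeal R ^ (m + 1) = I (m + 1) :=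
        hq₀ (m + 1) _ (le_max_right _ _)
      rw [← this]
      exact Submodule.mem_sup_left hj
    · have : j - (j + μ) = -μ := by ring
      rw [this]
      exact neg_mem hμ
  -- Claim B
  have hB : ∀ x, (∀ m, x ∈ I m) → x ∈ ⨅ q, J q := by
    intro x hx
    rw [Ideal.mem_iInf]
    intro q
    exact mem_of_forall_mem_sup_pow (J q) x (fun m => hI_le m q (hx m))
  refine ⟨q₀ n, fun x₀ hx₀ => ?_⟩
  have hx₀I : x₀ ∈ I n := Submodule.mem_sup_left hx₀
  -- build the sequence
  choose! next hnext_mem hnext_sub using hA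
  let y : ℕ → R := fun i => Nat.rec x₀ (fun i yi => next (n + i) yi) i
  have hy0 : y 0 = x₀ := rfl
  have hysucc : ∀ i, y (i + 1) = next (n + i) (y i) := fun i => rfl
  have hymem : ∀ i, y i ∈ I (n + i) := by
    intro i
    induction i with
    | zero => exact hx₀I
    | succ i ih =>
      rw [hysucc]
      exact hnext_mem (n + i) (y i) ih
  have hystep : ∀ i, y (i + 1) - y i ∈ maximalIdeal R ^ (n + i) := by
    intro i
    rw [hysucc]
    exact hnext_sub (n + i) (y i) (hymem i)
  have hydiff : ∀ i j, i ≤ j → y j - y i ∈ maximalIdeal R ^ (n + i) := by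
    intro i j hij
    induction hij with
    | refl => simp
    | @step j hij ih =>
      have h1 : y (j + 1) - y i = (y (j + 1) - y j) + (y j - y i) := by ring
      rw [h1]
      exact add_mem (Ideal.pow_le_pow_right (Nat.add_le_add_left hij n) (hystep j)) ih
  -- the limit
  have hcauchy : ∀ {a b : ℕ}, a ≤ b →
      y a ≡ y b [SMOD (maximalIdeal R ^ a • ⊤ : Submodule R R)] := by
    intro a b hab
    rw [SModEq.sub_mem, smul_eq_mul, Ideal.mul_top]
    have := hydiff a b hab
    have h2 : y a - y b = -(y b - y a) := by ring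
    rw [h2]
    exact neg_mem (Ideal.pow_le_pow_right (by omega) this)
  obtain ⟨L, hL⟩ := IsPrecomplete.prec' (I := maximalIdeal R) (M := R) y hcauchy
  have hL' : ∀ i, y i - L ∈ maximalIdeal R ^ i := by
    intro i
    have := hL i
    rwa [SModEq.sub_mem, smul_eq_mul, Ideal.mul_top] at this
  -- `L` lies in all `I m`
  have hLI : ∀ m, L ∈ I m := by
    intro m
    have h1 : y m ∈ I m := hI_anti' m (n + m) (by omega) (hymem m)
    have h2 : L = y m - (y m - L) := by ring
    rw [h2]
    exact sub_mem h1 (Submodule.mem_sup_right (hL' m))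
  have hLinf : L ∈ ⨅ q, J q := hB L hLI
  -- conclude
  have h3 : x₀ - L ∈ maximalIdeal R ^ n := by
    have h4 : x₀ - L = (y n - L) - (y n - y 0) := by rw [hy0]; ring
    rw [h4]
    exact sub_mem (hL' n) (by simpa using hydiff 0 n (Nat.zero_le n))
  have h5 : x₀ = L + (x₀ - L) := by ring
  rw [h5]
  exact add_mem (Submodule.mem_sup_left hLinf) (Submodule.mem_sup_right h3)

/-- **Limits of compatible families**: if `f (q+1) ≡ f q` modulo `J q` for a decreasing
sequence of ideals, there is `g` with `g ≡ f q` modulo `J q` for all `q`. -/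
theorem exists_limit (J : ℕ → Ideal R) (hJ : Antitone J) (f : ℕ → R)
    (hf : ∀ q, f (q + 1) - f q ∈ J q) : ∃ g : R, ∀ q, g - f q ∈ J q := by
  classical
  have hadiff : ∀ q q', q ≤ q' → f q' - f q ∈ J q := by
    intro q q' h
    induction h with
    | refl => simp
    | @step q' h ih =>
      have h1 : f (q' + 1) - f q = (f (q' + 1) - f q') + (f q' - f q) := by ring
      rw [h1]
      exact add_mem (hJ h (hf q')) ih
  -- indices from Chevalley, made monotone
  have hchev := chevalley J hJ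
  choose q₁ hq₁ using hchev
  let Q : ℕ → ℕ := fun n => Nat.rec (q₁ 0) (fun n Qn => max (Qn + 1) (q₁ (n + 1))) n
  have hQsucc : ∀ n, Q (n + 1) = max (Q n + 1) (q₁ (n + 1)) := fun n => rfl
  have hQge : ∀ n, q₁ n ≤ Q n := by
    intro n
    cases n with
    | zero => exact le_rfl
    | succ n => rw [hQsucc]; exact le_max_right _ _
  have hQmono : Monotone Q := monotone_nat_of_le_succ (fun n => by
    rw [hQsucc]; exact (Nat.le_succ _).trans (le_max_left _ _))
  have hQid : ∀ k, k ≤ Q k := by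
    intro k
    induction k with
    | zero => exact Nat.zero_le _
    | succ k ih =>
      rw [hQsucc]
      exact (Nat.succ_le_succ ih).trans (le_max_left _ _)
  have hQ : ∀ n, J (Q n) ≤ (⨅ q, J q) ⊔ maximalIdeal R ^ n := fun n => (hJ (hQge n)).trans (hq₁ n)
  -- decompose the steps
  have hstep : ∀ n, ∃ j ∈ ⨅ q, J q, ∃ μ ∈ maximalIdeal R ^ n, f (Q (n + 1)) - f (Q n) = j + μ := by
    intro n
    have h1 : f (Q (n + 1)) - f (Q n) ∈ J (Q n) := hadiff _ _ (hQmono (Nat.le_succ n))
    obtain ⟨j, hj, μ, hμ, h⟩ := Submodule.mem_sup.mp (hQ n h1)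
    exact ⟨j, hj, μ, hμ, h.symm⟩
  choose j hj μ hμ hjμ using hstep
  -- corrected sequence
  let c : ℕ → R := fun n => f (Q n) - ∑ i ∈ Finset.range n, j i
  have hcstep : ∀ n, c (n + 1) - c n = μ n := by
    intro n
    simp only [c, Finset.sum_range_succ]
    have := hjμ n
    linear_combination this
  have hcdiff : ∀ m n, m ≤ n → c n - c m ∈ maximalIdeal R ^ m := by
    intro m n h
    induction h with
    | refl => simp
    | @step n h ih =>
      have h1 : c (n + 1) - c m = (c (n + 1) - c n) + (c n - c m) := by ring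
      rw [h1, hcstep]
      exact add_mem (Ideal.pow_le_pow_right h (hμ n)) ih
  have hcauchy : ∀ {m n : ℕ}, m ≤ n →
      c m ≡ c n [SMOD (maximalIdeal R ^ m • ⊤ : Submodule R R)] := by
    intro m n h
    rw [SModEq.sub_mem, smul_eq_mul, Ideal.mul_top]
    have h2 : c m - c n = -(c n - c m) := by ring
    rw [h2]
    exact neg_mem (hcdiff m n h)
  obtain ⟨x, hx⟩ := IsPrecomplete.prec' (I := maximalIdeal R) (M := R) c hcauchy
  have hx' : ∀ n, c n - x ∈ maximalIdeal R ^ n := by
    intro n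
    have := hx n
    rwa [SModEq.sub_mem, smul_eq_mul, Ideal.mul_top] at this
  refine ⟨x, fun q => ?_⟩
  apply mem_of_forall_ge_mem_sup_pow (J q) (x - f q) q
  intro n hn
  have hQn : q ≤ Q n := hn.trans (hQid n)
  have h1 : x - c n ∈ maximalIdeal R ^ n := by
    have h2 : x - c n = -(c n - x) := by ring
    rw [h2]
    exact neg_mem (hx' n)
  have h2 : c n - f (Q n) ∈ J q := by
    have h3 : c n - f (Q n) = -∑ i ∈ Finset.range n, j i := by simp only [c]; ring
    rw [h3]
    refine neg_mem (Submodule.sum_mem _ fun i _ => ?_)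
    exact (Ideal.mem_iInf.mp (hj i)) q
  have h3 : f (Q n) - f q ∈ J q := hadiff q (Q n) hQn
  have h4 : x - f q = ((c n - f (Q n)) + (f (Q n) - f q)) + (x - c n) := by ring
  rw [h4]
  exact add_mem (Submodule.mem_sup_left (add_mem h2 h3)) (Submodule.mem_sup_right h1)

end Chevalley

end Fermat.Agent.S53
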