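import Fermat.Agent.S53.Schur
import Fermat.Agent.S53.Chevalley

/-!
# S53 / M6 — auxiliary lemmas for the passage to the limit

Everything lives in the namespace `Fermat.Agent.S53.Lim`.

* levels `Lev A n := A ⧸ 𝔪 ^ (n + 1)` of a local ring, with their structure;
* limits of compatible families of elements / matrices / algebra homs in a complete local ring;
* `Conj` is an equivalence relation compatible with push-forward;
* exactness is preserved by push-forward;
* normalised intertwiners between exact lifts (unique by Schur).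
-/

set_option autoImplicit false

noncomputable section

namespace Fermat.Agent.S53.Lim

open IsLocalRing

/-! ## Levels -/

section Levels

variable (A : Type) [CommRing A] [IsLocalRing A]

/-- The `n`-th level `A ⧸ 𝔪 ^ (n + 1)` of a local ring. -/
abbrev Lev (n : ℕ) : Type := A ⧸ maximalIdeal A ^ (n + 1)

variable {A}

theorem pow_succ_ne_top (n : ℕ) : maximalIdeal A ^ (n + 1) ≠ ⊤ := by
  intro h
  have h1 : maximalIdeal A ^ (n + 1) ≤ maximalIdeal A := Ideal.pow_le_self (Nat.succ_ne_zero n)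
  rw [h] at h1
  exact (maximalIdeal.isMaximal A).ne_top (top_le_iff.mp h1)

instance lev_nontrivial (n : ℕ) : Nontrivial (Lev A n) :=
  Ideal.Quotient.nontrivial_iff.mpr (pow_succ_ne_top n)

instance lev_isLocalRing (n : ℕ) : IsLocalRing (Lev A n) :=
  IsLocalRing.of_surjective' (Ideal.Quotient.mk _) Ideal.Quotient.mk_surjective

instance lev_isLocalHom_mk (n : ℕ) :
    IsLocalHom (Ideal.Quotient.mk (maximalIdeal A ^ (n + 1))) :=
  IsLocalHom.of_surjective _ Ideal.Quotient.mk_surjective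

instance lev_isArtinianRing [IsNoetherianRing A] (n : ℕ) : IsArtinianRing (Lev A n) :=
  isArtinianRing_quotient_maximalIdeal_pow (n + 1)

section Alg

variable (𝒪 : Type) [CommRing 𝒪] (A : Type) [CommRing A] [IsLocalRing A] [Algebra 𝒪 A]

/-- The projection to the `n`-th level. -/
def levMk (n : ℕ) : A →ₐ[𝒪] Lev A n := Ideal.Quotient.mkₐ 𝒪 _

/-- The transition map between levels. -/
def levFactor {m n : ℕ} (h : m ≤ n) : Lev A n →ₐ[𝒪] Lev A m :=
  Ideal.Quotient.factorₐ 𝒪 (Ideal.pow_le_pow_right (Nat.succ_le_succ h))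

end Alg

variable {𝒪 : Type} [CommRing 𝒪] [Algebra 𝒪 A]

instance lev_isLocalHom_algebraMap [IsLocalHom (algebraMap 𝒪 A)] (n : ℕ) :
    IsLocalHom (algebraMap 𝒪 (Lev A n)) := by
  have : algebraMap 𝒪 (Lev A n) =
      (Ideal.Quotient.mk (maximalIdeal A ^ (n + 1))).comp (algebraMap 𝒪 A) := rfl
  rw [this]
  exact RingHom.isLocalHom_comp _ _

@[simp] lemma levMk_apply (n : ℕ) (a : A) :
    levMk 𝒪 A n a = Ideal.Quotient.mk (maximalIdeal A ^ (n + 1)) a := rfl

lemma levMk_surjective (n : ℕ) : Function.Surjective (levMk 𝒪 A n) :=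
  Ideal.Quotient.mk_surjective

instance lev_isLocalHom_levMk (n : ℕ) : IsLocalHom ((levMk 𝒪 A n : A →ₐ[𝒪] Lev A n) : A →+* Lev A n) :=
  lev_isLocalHom_mk n

lemma levMk_eq_zero_iff (n : ℕ) (a : A) : levMk 𝒪 A n a = 0 ↔ a ∈ maximalIdeal A ^ (n + 1) :=
  Ideal.Quotient.eq_zero_iff_mem

lemma levMk_eq_iff (n : ℕ) (a b : A) :
    levMk 𝒪 A n a = levMk 𝒪 A n b ↔ a - b ∈ maximalIdeal A ^ (n + 1) :=
  Ideal.Quotient.eq

@[simp] lemma levFactor_levMk {m n : ℕ} (h : m ≤ n) (a : A) :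
    levFactor 𝒪 A h (levMk 𝒪 A n a) = levMk 𝒪 A m a := rfl

lemma levFactor_comp_levMk {m n : ℕ} (h : m ≤ n) :
    (levFactor 𝒪 A h).comp (levMk 𝒪 A n) = levMk 𝒪 A m := rfl

lemma levFactor_surjective {m n : ℕ} (h : m ≤ n) : Function.Surjective (levFactor 𝒪 A h) := by
  intro x
  obtain ⟨a, rfl⟩ := levMk_surjective (𝒪 := 𝒪) m x
  exact ⟨levMk 𝒪 A n a, rfl⟩

instance lev_isLocalHom_levFactor {m n : ℕ} (h : m ≤ n) :
    IsLocalHom ((levFactor 𝒪 A h : Lev A n →ₐ[𝒪] Lev A m) : Lev A n →+* Lev A m) :=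
  IsLocalHom.of_surjective _ (levFactor_surjective (𝒪 := 𝒪) h)

/-- Levels of a noetherian local `𝒪`-algebra with residue field `k` are test algebras. -/
lemma lev_isTest [IsLocalRing 𝒪] [IsNoetherianRing A] [IsLocalHom (algebraMap 𝒪 A)]
    (hsurj : Function.Surjective (residue A ∘ algebraMap 𝒪 A)) (n : ℕ) :
    GaloisRep.IsArtinianTestAlgebra 𝒪 (Lev A n) := by
  refine ⟨inferInstance, ?_, inferInstance⟩
  intro x
  obtain ⟨y, rfl⟩ := IsLocalRing.residue_surjective x
  obtain ⟨a, rfl⟩ := Ideal.Quotient.mk_surjective y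
  obtain ⟨c, hc⟩ := hsurj (IsLocalRing.residue A a)
  refine ⟨c, ?_⟩
  simp only [Function.comp_apply] at hc ⊢
  rw [← sub_eq_zero, ← map_sub, IsLocalRing.residue_eq_zero_iff] at hc ⊢
  have h1 : algebraMap 𝒪 (Lev A n) c - Ideal.Quotient.mk _ a =
      Ideal.Quotient.mk (maximalIdeal A ^ (n + 1)) (algebraMap 𝒪 A c - a) := by
    rw [map_sub]; rfl
  rw [h1]
  exact (IsLocalRing.mem_maximalIdeal _).mpr
    (fun hu => (IsLocalRing.mem_maximalIdeal _).mp hc (isUnit_of_map_unit _ _ hu))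

end Levels

/-! ## Limits in a complete local ring -/

section Limits

variable {A : Type} [CommRing A] [IsLocalRing A]
variable {𝒪 : Type} [CommRing 𝒪] [Algebra 𝒪 A]

/-- Separatedness: two elements with the same image in every level are equal. -/
lemma eq_of_levMk_eq [IsHausdorff (maximalIdeal A) A] {a b : A}
    (h : ∀ n, levMk 𝒪 A n a = levMk 𝒪 A n b) : a = b := by
  rw [IsHausdorff.eq_iff_smodEq (I := maximalIdeal A)]
  intro n
  rw [SModEq.sub_mem, smul_eq_mul, Ideal.mul_top]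
  have h1 := (levMk_eq_iff (𝒪 := 𝒪) n a b).mp (h n)
  exact Ideal.pow_le_pow_right (Nat.le_succ n) h1

/-- Completeness: a compatible family of elements of the levels comes from an element. -/
lemma exists_levMk_eq [IsPrecomplete (maximalIdeal A) A] (x : ∀ n, Lev A n)
    (hx : ∀ n, levFactor 𝒪 A (Nat.le_succ n) (x (n + 1)) = x n) :
    ∃ a : A, ∀ n, levMk 𝒪 A n a = x n := by
  choose f hf using fun n => levMk_surjective (𝒪 := 𝒪) n (x n)
  have hstep : ∀ n, f n - f (n + 1) ∈ maximalIdeal A ^ (n + 1) := by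
    intro n
    rw [← levMk_eq_iff (𝒪 := 𝒪), hf n, ← hx n, ← hf (n + 1)]
    rfl
  have hcompat : ∀ {m n}, m ≤ n → f m - f n ∈ maximalIdeal A ^ (m + 1) := by
    intro m n hmn
    induction n, hmn using Nat.le_induction with
    | base => simp
    | succ n hmn ih =>
      have h1 : f n - f (n + 1) ∈ maximalIdeal A ^ (m + 1) :=
        Ideal.pow_le_pow_right (Nat.succ_le_succ hmn) (hstep n)
      have : f m - f (n + 1) = (f m - f n) + (f n - f (n + 1)) := by ring
      rw [this]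
      exact add_mem ih h1
  obtain ⟨L, hL⟩ := IsPrecomplete.prec' (I := maximalIdeal A) f (fun {m n} hmn => by
    rw [SModEq.sub_mem, smul_eq_mul, Ideal.mul_top]
    exact Ideal.pow_le_pow_right (Nat.le_succ m) (hcompat hmn))
  refine ⟨L, fun n => ?_⟩
  rw [← hf n, levMk_eq_iff]
  have h1 := hL (n + 1)
  rw [SModEq.sub_mem, smul_eq_mul, Ideal.mul_top] at h1
  have h2 := hstep n
  have : L - f n = -((f (n + 1) - L) + (f n - f (n + 1))) := by ring
  rw [this]
  exact neg_mem (add_mem h1 h2)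

end Limits


/-! ## Locality of algebra homs -/

section Local

variable {𝒪 : Type} [CommRing 𝒪]

/-- `𝒪`-algebra homs into a local `𝒪`-algebra with local structure map and residue field `k`
are local. -/
lemma isLocalHom_algHom {R A : Type} [CommRing R] [IsLocalRing R] [Algebra 𝒪 R]
    [CommRing A] [IsLocalRing A] [Algebra 𝒪 A] (hloc : IsLocalHom (algebraMap 𝒪 A))
    (hA : Function.Surjective (residue A ∘ algebraMap 𝒪 A))
    (φ : R →ₐ[𝒪] A) : IsLocalHom (φ : R →+* A) := by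
  constructor
  intro a ha
  by_contra hna
  obtain ⟨o, ho⟩ := hA (residue A (φ a))
  have h1 : φ a - algebraMap 𝒪 A o ∈ maximalIdeal A := by
    rw [← residue_eq_zero_iff, map_sub, sub_eq_zero]
    exact ho.symm
  have ho_unit : IsUnit o := by
    apply hloc.map_nonunit
    by_contra hno
    have h2 : algebraMap 𝒪 A o ∈ maximalIdeal A := (mem_maximalIdeal _).mpr hno
    have h3 : φ a ∈ maximalIdeal A := by
      have : φ a = (φ a - algebraMap 𝒪 A o) + algebraMap 𝒪 A o := by ring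
      rw [this]
      exact add_mem h1 h2
    exact (mem_maximalIdeal _).mp h3 ha
  have h4 : IsUnit (algebraMap 𝒪 R o - a) := by
    have hu : IsUnit (algebraMap 𝒪 R o) := ho_unit.map _
    have ha' : a ∈ maximalIdeal R := (mem_maximalIdeal a).mpr hna
    by_contra hno
    have h5 : algebraMap 𝒪 R o - a ∈ maximalIdeal R := (mem_maximalIdeal _).mpr hno
    have h6 : algebraMap 𝒪 R o ∈ maximalIdeal R := by
      have : algebraMap 𝒪 R o = (algebraMap 𝒪 R o - a) + a := by ring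
      rw [this]
      exact add_mem h5 ha'
    exact (mem_maximalIdeal _).mp h6 hu
  have h7 : IsUnit (φ (algebraMap 𝒪 R o - a)) := h4.map φ
  rw [map_sub, AlgHom.commutes] at h7
  have h8 : algebraMap 𝒪 A o - φ a ∈ maximalIdeal A := by
    have : algebraMap 𝒪 A o - φ a = -(φ a - algebraMap 𝒪 A o) := by ring
    rw [this]
    exact neg_mem h1
  exact (mem_maximalIdeal _).mp h8 h7

end Local

/-! ## Conjugacy -/

section Conj

variable {A B : Type} [CommRing A] [CommRing B]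

lemma conj_refl (r : GQ →* M2 A) : Conj r r :=
  ⟨1, fun g => by simp⟩

lemma conj_symm {r r' : GQ →* M2 A} (h : Conj r r') : Conj r' r := by
  obtain ⟨γ, hγ⟩ := h
  refine ⟨γ⁻¹, fun g => ?_⟩
  rw [hγ g, inv_inv]
  simp only [mul_assoc, Units.inv_mul, mul_one]
  rw [← mul_assoc, Units.inv_mul, one_mul]

lemma conj_trans {r r' r'' : GQ →* M2 A} (h : Conj r r') (h' : Conj r' r'') : Conj r r'' := by
  obtain ⟨γ, hγ⟩ := h
  obtain ⟨γ', hγ'⟩ := h'
  refine ⟨γ' * γ, fun g => ?_⟩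
  rw [hγ' g, hγ g, mul_inv_rev]
  simp only [Units.val_mul, mul_assoc]

lemma conj_mapRep (φ : A →+* B) {r r' : GQ →* M2 A} (h : Conj r r') :
    Conj (mapRep φ r) (mapRep φ r') := by
  obtain ⟨γ, hγ⟩ := h
  refine ⟨Units.map (RingHom.mapMatrix φ : M2 A →+* M2 B).toMonoidHom γ, fun g => ?_⟩
  have h1 : mapRep φ r' g = (RingHom.mapMatrix φ : M2 A →+* M2 B) (r' g) := rfl
  have h2 : mapRep φ r g = (RingHom.mapMatrix φ : M2 A →+* M2 B) (r g) := rfl
  rw [h1, h2, hγ g, map_mul, map_mul]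
  rfl

/-- Conjugacy in terms of an invertible intertwiner. -/
lemma conj_of_intertwine {r r' : GQ →* M2 A} (Γ : M2 A) (hΓ : IsUnit Γ)
    (h : ∀ g, Γ * r g = r' g * Γ) : Conj r r' := by
  obtain ⟨γ, rfl⟩ := hΓ
  refine ⟨γ, fun g => ?_⟩
  rw [h g, mul_assoc, Units.mul_inv, mul_one]

lemma intertwine_of_conj {r r' : GQ →* M2 A} (h : Conj r r') :
    ∃ γ : (M2 A)ˣ, ∀ g, (γ : M2 A) * r g = r' g * (γ : M2 A) := by
  obtain ⟨γ, hγ⟩ := h
  refine ⟨γ, fun g => ?_⟩
  rw [hγ g, mul_assoc, Units.inv_mul, mul_one]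

end Conj

/-! ## Exactness -/

section Exact

variable {𝒪 : Type} [CommRing 𝒪] [IsLocalRing 𝒪]
  (ρbar : ResidualGaloisRep (ResidueField 𝒪))

/-- entry-wise form of exactness. -/
lemma isExact_iff {A : Type} [CommRing A] [IsLocalRing A] [Algebra 𝒪 A]
    [IsLocalHom (algebraMap 𝒪 A)] (r : GQ →* M2 A) :
    IsExact ρbar r ↔ ∀ g i j,
      residue A (r g i j) = ResidueField.map (algebraMap 𝒪 A) (rhobarM ρbar g i j) := by
  constructor
  · intro h g i j
    have := congrFun (congrFun (congrArg (fun f : GQ →* M2 (ResidueField A) => f g) h) i) j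
    simpa only [mapRep_apply] using this
  · intro h
    ext g i j
    simpa only [mapRep_apply] using h g i j

/-- exactness is preserved by push-forward along local algebra homs. -/
lemma isExact_mapRep {A B : Type} [CommRing A] [IsLocalRing A] [Algebra 𝒪 A]
    [IsLocalHom (algebraMap 𝒪 A)] [CommRing B] [IsLocalRing B] [Algebra 𝒪 B]
    [IsLocalHom (algebraMap 𝒪 B)] (φ : A →ₐ[𝒪] B) (hφ : IsLocalHom (φ : A →+* B))
    {r : GQ →* M2 A} (h : IsExact ρbar r) : IsExact ρbar (mapRep (φ : A →+* B) r) := by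
  rw [isExact_iff] at h ⊢
  intro g i j
  obtain ⟨o, ho⟩ := residue_surjective (rhobarM ρbar g i j)
  have h1 := h g i j
  rw [← ho, ResidueField.map_residue] at h1 ⊢
  rw [← sub_eq_zero, ← map_sub, residue_eq_zero_iff] at h1 ⊢
  rw [mapRep_apply]
  have h2 : (φ : A →+* B) (r g i j) - algebraMap 𝒪 B o =
      (φ : A →+* B) (r g i j - algebraMap 𝒪 A o) := by
    rw [map_sub]
    congr 1
    exact (φ.commutes o).symm
  rw [h2]
  exact (mem_maximalIdeal _).mpr
    (fun hu => (mem_maximalIdeal _).mp h1 (hφ.map_nonunit _ hu))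

end Exact

/-! ## Normalised intertwiners -/

section NormInt

/-- `Γ` is an invertible intertwiner from `r` to `r'` normalised by `Γ 0 0 = 1`. -/
def NormInt {A : Type} [CommRing A] (r r' : GQ →* M2 A) (Γ : M2 A) : Prop :=
  IsUnit Γ ∧ Γ 0 0 = 1 ∧ ∀ g, Γ * r g = r' g * Γ

lemma NormInt.conj {A : Type} [CommRing A] {r r' : GQ →* M2 A} {Γ : M2 A}
    (h : NormInt r r' Γ) : Conj r r' :=
  conj_of_intertwine Γ h.1 h.2.2

lemma NormInt.map {A B : Type} [CommRing A] [CommRing B] (φ : A →+* B) {r r' : GQ →* M2 A}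
    {Γ : M2 A} (h : NormInt r r' Γ) : NormInt (mapRep φ r) (mapRep φ r') (Γ.map φ) := by
  obtain ⟨h1, h2, h3⟩ := h
  refine ⟨h1.map (RingHom.mapMatrix φ : M2 A →+* M2 B), ?_, fun g => ?_⟩
  · rw [Matrix.map_apply, h2, map_one]
  · have e1 : mapRep φ r g = (r g).map φ := rfl
    have e2 : mapRep φ r' g = (r' g).map φ := rfl
    rw [e1, e2, ← Matrix.map_mul, ← Matrix.map_mul, h3 g]

variable {𝒪 : Type} [CommRing 𝒪] [IsLocalRing 𝒪]
  {ρbar : ResidualGaloisRep (ResidueField 𝒪)}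
  {A : Type} [CommRing A] [IsLocalRing A] [Algebra 𝒪 A] [IsLocalHom (algebraMap 𝒪 A)]

/-- two conjugate exact lifts admit a normalised intertwiner. -/
lemma exists_normInt (habs : ρbar.IsAbsolutelyIrreducible)
    (hsurj : Function.Surjective (residue A ∘ algebraMap 𝒪 A))
    {r r' : GQ →* M2 A} (hex : IsExact ρbar r) (hex' : IsExact ρbar r') (h : Conj r r') :
    ∃ Γ, NormInt r r' Γ := by
  obtain ⟨γ, hγ⟩ := intertwine_of_conj h
  obtain ⟨a, γ₁, -, hγ₁, hint⟩ := conj_exact_eq_scalar_mul ρbar habs hsurj r r' hex hex' γ hγ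
  -- the `(0,0)` entry of `γ₁` is a unit
  have hu : IsUnit ((γ₁ : M2 A) 0 0) := by
    have h1 := hγ₁ 0 0
    simp only [Matrix.sub_apply, Matrix.one_apply_eq] at h1
    by_contra hno
    have h2 : (γ₁ : M2 A) 0 0 ∈ maximalIdeal A := (mem_maximalIdeal _).mpr hno
    have h3 : (1 : A) ∈ maximalIdeal A := by
      have : (1 : A) = (γ₁ : M2 A) 0 0 - ((γ₁ : M2 A) 0 0 - 1) := by ring
      rw [this]
      exact sub_mem h2 h1
    exact (maximalIdeal.isMaximal A).ne_top ((Ideal.eq_top_iff_one _).mpr h3)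
  obtain ⟨u, hu⟩ := hu
  refine ⟨((u⁻¹ : Aˣ) : A) • (γ₁ : M2 A), ?_, ?_, fun g => ?_⟩
  · have : IsUnit (((u⁻¹ : Aˣ) : A) • (1 : M2 A)) := by
      refine ⟨⟨((u⁻¹ : Aˣ) : A) • 1, (u : A) • 1, ?_, ?_⟩, rfl⟩
      · rw [smul_mul_smul_comm, Units.inv_mul, one_smul, one_mul]
      · rw [smul_mul_smul_comm, Units.mul_inv, one_smul, one_mul]
    have h2 := this.mul γ₁.isUnit
    rwa [smul_mul_assoc, one_mul] at h2
  · rw [Matrix.smul_apply, smul_eq_mul, ← hu, Units.inv_mul]
  · rw [Matrix.smul_mul, Matrix.mul_smul, hint g]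

/-- normalised intertwiners between exact lifts are unique. -/
lemma normInt_unique (habs : ρbar.IsAbsolutelyIrreducible)
    (hsurj : Function.Surjective (residue A ∘ algebraMap 𝒪 A))
    {r r' : GQ →* M2 A} (hex : IsExact ρbar r) {Γ Γ' : M2 A}
    (h : NormInt r r' Γ) (h' : NormInt r r' Γ') : Γ = Γ' := by
  obtain ⟨⟨γ, rfl⟩, h2, h3⟩ := h
  obtain ⟨-, h2', h3'⟩ := h'
  -- `γ⁻¹ Γ'` commutes with `r`
  obtain ⟨c, hc⟩ := schur_exact ρbar habs hsurj r hex (((γ⁻¹ : (M2 A)ˣ) : M2 A) * Γ')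
    (fun g => by
      have e1 : ((γ⁻¹ : (M2 A)ˣ) : M2 A) * r' g = r g * ((γ⁻¹ : (M2 A)ˣ) : M2 A) := by
        calc ((γ⁻¹ : (M2 A)ˣ) : M2 A) * r' g
            = ((γ⁻¹ : (M2 A)ˣ) : M2 A) * (r' g * (γ : M2 A)) * ((γ⁻¹ : (M2 A)ˣ) : M2 A) := by
              rw [mul_assoc, mul_assoc, Units.mul_inv, mul_one]
          _ = ((γ⁻¹ : (M2 A)ˣ) : M2 A) * ((γ : M2 A) * r g) * ((γ⁻¹ : (M2 A)ˣ) : M2 A) := by
              rw [h3 g]
          _ = r g * ((γ⁻¹ : (M2 A)ˣ) : M2 A) := by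
              rw [← mul_assoc, Units.inv_mul, one_mul]
      rw [mul_assoc, h3' g, ← mul_assoc, e1, mul_assoc])
  have hΓ' : Γ' = (γ : M2 A) * Matrix.scalar (Fin 2) c := by
    rw [← hc, ← mul_assoc, Units.mul_inv, one_mul]
  have hc1 : c = 1 := by
    have := congrFun (congrFun hΓ' 0) 0
    rw [h2', Matrix.mul_apply, Fin.sum_univ_two] at this
    simp only [Matrix.scalar_apply, Matrix.diagonal_apply_eq, ne_eq, one_ne_zero,
      not_false_eq_true, Matrix.diagonal_apply_ne, mul_zero, add_zero, h2, one_mul] at this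
    exact this.symm
  rw [hΓ', hc1, map_one, mul_one]

end NormInt

/-! ## Limits of matrices -/

section MatLim

variable {A : Type} [CommRing A] [IsLocalRing A]
variable {𝒪 : Type} [CommRing 𝒪] [Algebra 𝒪 A]

lemma mat_eq_of_levMk_eq [IsHausdorff (maximalIdeal A) A] {X Y : M2 A}
    (h : ∀ n, X.map (levMk 𝒪 A n) = Y.map (levMk 𝒪 A n)) : X = Y := by
  ext i j
  refine eq_of_levMk_eq (𝒪 := 𝒪) fun n => ?_
  have := congrFun (congrFun (h n) i) j
  simpa only [Matrix.map_apply] using this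

lemma exists_mat_levMk_eq [IsPrecomplete (maximalIdeal A) A] (X : ∀ n, M2 (Lev A n))
    (hX : ∀ n, (X (n + 1)).map (levFactor 𝒪 A (Nat.le_succ n)) = X n) :
    ∃ Γ : M2 A, ∀ n, Γ.map (levMk 𝒪 A n) = X n := by
  have key : ∀ i j, ∃ a : A, ∀ n, levMk 𝒪 A n a = X n i j := fun i j =>
    exists_levMk_eq (𝒪 := 𝒪) (fun n => X n i j) (fun n => by
      have := congrFun (congrFun (hX n) i) j
      simpa only [Matrix.map_apply] using this)
  choose f hf using key
  refine ⟨Matrix.of f, fun n => ?_⟩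
  ext i j
  simp only [Matrix.map_apply, Matrix.of_apply, hf]

/-- a matrix over a local ring is invertible iff its image in a level is. -/
lemma isUnit_of_isUnit_map_levMk (n : ℕ) (Γ : M2 A) (h : IsUnit (Γ.map (levMk 𝒪 A n))) :
    IsUnit Γ := by
  rw [Matrix.isUnit_iff_isUnit_det] at h ⊢
  have h1 : (Γ.map (levMk 𝒪 A n)).det = (levMk 𝒪 A n) Γ.det := by
    exact (RingHom.map_det ((levMk 𝒪 A n : A →ₐ[𝒪] Lev A n) : A →+* Lev A n) Γ).symm
  rw [h1] at h
  exact isUnit_of_map_unit ((levMk 𝒪 A n : A →ₐ[𝒪] Lev A n) : A →+* Lev A n) _ h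

end MatLim

end Fermat.Agent.S53.Lim
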