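import Fermat.Agent.S53.Schur
import Fermat.Agent.S53.LimitAux

/-!
# S53 / M6 — from universality on Artinian test algebras to universality on complete
noetherian local algebras.
-/

set_option autoImplicit false
set_option linter.unusedSectionVars false
set_option linter.unusedVariables false

noncomputable section

namespace Fermat.Agent.S53

open IsLocalRing

variable {𝒪 : Type} [CommRing 𝒪] [IsDomain 𝒪] [IsDiscreteValuationRing 𝒪]
  [IsAdicComplete (maximalIdeal 𝒪) 𝒪]
  {ρbar : ResidualGaloisRep (ResidueField 𝒪)}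
  {𝒟 : ∀ ⦃A : Type⦄ [CommRing A] [IsLocalRing A] [Algebra 𝒪 A], GaloisRepAdic A → Prop}

/-- an `𝒪`-algebra hom between local `𝒪`-algebras with residue field `k` is local. -/
lemma isLocalHom_of_algHom {R A : Type} [CommRing R] [IsLocalRing R] [Algebra 𝒪 R]
    [CommRing A] [IsLocalRing A] [Algebra 𝒪 A] (hloc : IsLocalHom (algebraMap 𝒪 A))
    (hA : Function.Surjective (residue A ∘ algebraMap 𝒪 A))
    (φ : R →ₐ[𝒪] A) : IsLocalHom (φ : R →+* A) :=
  Lim.isLocalHom_algHom hloc hA φ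

open Lim in
/-- (M6) universality on Artinian test algebras (matrix form) implies universality on complete
noetherian local algebras (in the form required by `DeformationRingData.universal`). -/
theorem universal_of_universal_on_test
    (habs : ρbar.IsAbsolutelyIrreducible) (h𝒟 : GaloisRep.IsDeformationCondition 𝒪 𝒟)
    {R : Type} [CommRing R] [IsLocalRing R] [IsNoetherianRing R]
    [IsAdicComplete (maximalIdeal R) R] [Algebra 𝒪 R] [IsLocalHom (algebraMap 𝒪 R)]
    (hR : Function.Surjective (residue R ∘ algebraMap 𝒪 R))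
    (r : GQ →* M2 R) (hr : MatCont r) (hex : IsExact ρbar r)
    (huniv : ∀ (A : Type) [CommRing A] [IsLocalRing A] [Algebra 𝒪 A]
      [IsLocalHom (algebraMap 𝒪 A)], GaloisRep.IsArtinianTestAlgebra 𝒪 A →
      ∀ (rA : GQ →* M2 A) (hrA : MatCont rA), IsExact ρbar rA → 𝒟 (matRep rA hrA) →
        ∃! φ : R →ₐ[𝒪] A, Conj rA (mapRep (φ : R →+* A) r)) :
    ∀ (A : Type) [CommRing A] [IsLocalRing A] [IsNoetherianRing A]
      [IsAdicComplete (maximalIdeal A) A] [Algebra 𝒪 A] [IsLocalHom (algebraMap 𝒪 A)],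
      Function.Surjective (residue A ∘ algebraMap 𝒪 A) →
      ∀ ρA : GaloisRepAdic A, 𝒟 ρA →
        ρA.residual.IsEquiv
          (ρbar.baseChangeAlong (ResidueField.map (algebraMap 𝒪 A))) →
        ∃! φ : R →ₐ[𝒪] A, ∃ hφ : IsLocalHom (φ : R →+* A),
          ((matRep r hr).baseChangeAlong (φ : R →+* A) hφ).IsEquiv ρA := by
  intro A _ _ _ _ _ _ hA ρA hρA hresA
  classical
  -- Step 0: matrix form of `ρA`
  obtain ⟨rA, hrA, hexA, hequiv⟩ := exists_exact_matRep ρbar ρA hresA
  have hDA : 𝒟 (matRep rA hrA) := cond_of_isEquiv h𝒟 inferInstance hA hequiv hρA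
  -- levels
  have hT : ∀ n, GaloisRep.IsArtinianTestAlgebra 𝒪 (Lev A n) := fun n => lev_isTest hA n
  have hsurjn : ∀ n, Function.Surjective (residue (Lev A n) ∘ algebraMap 𝒪 (Lev A n)) :=
    fun n => (hT n).residue_surjective
  have hcont : ∀ n, MatCont (mapRep (levMk 𝒪 A n : A →+* Lev A n) rA) :=
    fun n => hrA.mapRep _
  have hexn : ∀ n, IsExact ρbar (mapRep (levMk 𝒪 A n : A →+* Lev A n) rA) :=
    fun n => isExact_mapRep ρbar (levMk 𝒪 A n) inferInstance hexA
  have hDn : ∀ n, 𝒟 (matRep (mapRep (levMk 𝒪 A n : A →+* Lev A n) rA) (hcont n)) := by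
    intro n
    have h1 := (h𝒟.iff_forall_surjective inferInstance hA (matRep rA hrA)).mp hDA (hT n)
      (levMk 𝒪 A n) inferInstance (levMk_surjective n)
    exact h𝒟.of_isEquiv (hT n)
      (matRep_baseChangeAlong (levMk 𝒪 A n : A →+* Lev A n) inferInstance rA hrA (hcont n)) h1
  -- the maps at each level
  have hu := fun n => huniv (Lev A n) (hT n) _ (hcont n) (hexn n) (hDn n)
  choose φn hφn hφn_unique using hu
  have hφnloc : ∀ n, IsLocalHom ((φn n : R →ₐ[𝒪] Lev A n) : R →+* Lev A n) :=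
    fun n => Lim.isLocalHom_algHom inferInstance (hsurjn n) (φn n)
  have hexφn : ∀ n, IsExact ρbar (mapRep (φn n : R →+* Lev A n) r) :=
    fun n => isExact_mapRep ρbar (φn n) (hφnloc n) hex
  -- compatibility of the maps
  have hcompat : ∀ n, (levFactor 𝒪 A (Nat.le_succ n)).comp (φn (n + 1)) = φn n := by
    intro n
    apply hφn_unique
    have h1 := conj_mapRep (levFactor 𝒪 A (Nat.le_succ n) : Lev A (n + 1) →+* Lev A n)
      (hφn (n + 1))
    rw [mapRep_mapRep, mapRep_mapRep] at h1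
    exact h1
  -- the limit map
  have hlim : ∀ x : R, ∃ a : A, ∀ n, levMk 𝒪 A n a = φn n x := fun x =>
    exists_levMk_eq (𝒪 := 𝒪) (fun n => φn n x) (fun n => by
      have := congrArg (fun f : R →ₐ[𝒪] Lev A n => f x) (hcompat n)
      exact this)
  choose φfun hφfun using hlim
  let φ : R →ₐ[𝒪] A :=
    { toFun := φfun
      map_one' := eq_of_levMk_eq (𝒪 := 𝒪) fun n => by rw [hφfun, map_one, map_one]
      map_mul' := fun x y => eq_of_levMk_eq (𝒪 := 𝒪) fun n => by
        rw [hφfun, map_mul, map_mul, hφfun, hφfun]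
      map_zero' := eq_of_levMk_eq (𝒪 := 𝒪) fun n => by rw [hφfun, map_zero, map_zero]
      map_add' := fun x y => eq_of_levMk_eq (𝒪 := 𝒪) fun n => by
        rw [hφfun, map_add, map_add, hφfun, hφfun]
      commutes' := fun o => eq_of_levMk_eq (𝒪 := 𝒪) fun n => by
        rw [hφfun, AlgHom.commutes, AlgHom.commutes] }
  have hφ_lev : ∀ n, (levMk 𝒪 A n).comp φ = φn n := fun n => AlgHom.ext fun x => hφfun x n
  have hφloc : IsLocalHom ((φ : R →ₐ[𝒪] A) : R →+* A) :=
    Lim.isLocalHom_algHom inferInstance hA φ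
  have hcontφ : MatCont (mapRep (φ : R →+* A) r) := hr.mapRep _
  have hexφ : IsExact ρbar (mapRep (φ : R →+* A) r) := isExact_mapRep ρbar φ hφloc hex
  have hmapφ : ∀ n, mapRep (levMk 𝒪 A n : A →+* Lev A n) (mapRep (φ : R →+* A) r) =
      mapRep (φn n : R →+* Lev A n) r := by
    intro n
    rw [mapRep_mapRep]
    congr 1
    exact congrArg (fun f : R →ₐ[𝒪] Lev A n => (f : R →+* Lev A n)) (hφ_lev n)
  -- key: a representation conjugate to `rA` at every level is conjugate to `rA`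
  have hkey : ∀ (s : GQ →* M2 A), IsExact ρbar s →
      (∀ n, Conj (mapRep (levMk 𝒪 A n : A →+* Lev A n) rA)
        (mapRep (levMk 𝒪 A n : A →+* Lev A n) s)) → Conj rA s := by
    intro s hexs hs
    have hexsn : ∀ n, IsExact ρbar (mapRep (levMk 𝒪 A n : A →+* Lev A n) s) :=
      fun n => isExact_mapRep ρbar (levMk 𝒪 A n) inferInstance hexs
    have hΓ := fun n => exists_normInt habs (hsurjn n) (hexn n) (hexsn n) (hs n)
    choose Γn hΓn using hΓ
    have hΓcompat : ∀ n, (Γn (n + 1)).map (levFactor 𝒪 A (Nat.le_succ n)) = Γn n := by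
      intro n
      have h1 := (hΓn (n + 1)).map (levFactor 𝒪 A (Nat.le_succ n) : Lev A (n + 1) →+* Lev A n)
      rw [mapRep_mapRep, mapRep_mapRep] at h1
      exact normInt_unique habs (hsurjn n) (hexn n) h1 (hΓn n)
    obtain ⟨Γ, hΓ⟩ := exists_mat_levMk_eq (𝒪 := 𝒪) Γn hΓcompat
    refine conj_of_intertwine Γ ?_ ?_
    · apply isUnit_of_isUnit_map_levMk (𝒪 := 𝒪) 0
      rw [hΓ 0]
      exact (hΓn 0).1
    · intro g
      refine mat_eq_of_levMk_eq (𝒪 := 𝒪) fun n => ?_
      rw [Matrix.map_mul, Matrix.map_mul, hΓ n]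
      exact (hΓn n).2.2 g
  have hconj : Conj rA (mapRep (φ : R →+* A) r) := by
    refine hkey _ hexφ fun n => ?_
    rw [hmapφ n]
    exact hφn n
  refine ⟨φ, ⟨hφloc, ?_⟩, ?_⟩
  · -- existence
    obtain ⟨e1⟩ := matRep_baseChangeAlong (φ : R →+* A) hφloc r hr hcontφ
    obtain ⟨e2⟩ := (matRep_isEquiv_iff _ _ hcontφ hrA).2 (conj_symm hconj)
    obtain ⟨e3⟩ := hequiv
    exact ⟨(e1.trans e2).trans e3.symm⟩
  · -- uniqueness
    rintro φ' ⟨hφ'loc, ⟨e'⟩⟩
    have hcontφ' : MatCont (mapRep (φ' : R →+* A) r) :=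
      haveI := hφ'loc; hr.mapRep _
    obtain ⟨e1⟩ := matRep_baseChangeAlong (φ' : R →+* A) hφ'loc r hr hcontφ'
    obtain ⟨e3⟩ := hequiv
    have hconj' : Conj rA (mapRep (φ' : R →+* A) r) :=
      (matRep_isEquiv_iff _ _ hrA hcontφ').1 ⟨(e3.symm.trans e'.symm).trans e1⟩
    have hlev : ∀ n, (levMk 𝒪 A n).comp φ' = φn n := by
      intro n
      apply hφn_unique
      have h1 := conj_mapRep (levMk 𝒪 A n : A →+* Lev A n) hconj'
      rw [mapRep_mapRep] at h1
      exact h1
    refine AlgHom.ext fun x => eq_of_levMk_eq (𝒪 := 𝒪) fun n => ?_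
    have h1 := congrArg (fun f : R →ₐ[𝒪] Lev A n => f x) (hlev n)
    have h2 := congrArg (fun f : R →ₐ[𝒪] Lev A n => f x) (hφ_lev n)
    exact h1.trans h2.symm

end Fermat.Agent.S53
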