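import Mathlib
import Fermat.Prelude.Def_GaloisRep_DeformationCondition

/-!
# S53 / M1: basic facts on Artinian test algebras

* test algebras over `𝒪` with finite residue field are finite rings;
* socle elements;
* quotients of test algebras are test algebras (of smaller cardinality).
-/

set_option autoImplicit false

namespace Fermat.Agent.S53

open IsLocalRing GaloisRep

section General

variable {A : Type} [CommRing A] [IsLocalRing A]

/-- A proper quotient of a local ring is local. -/
theorem isLocalRing_quotient {I : Ideal A} (hI : I ≠ ⊤) : IsLocalRing (A ⧸ I) := by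
  haveI : Nontrivial (A ⧸ I) := Ideal.Quotient.nontrivial_iff.mpr hI
  exact IsLocalRing.of_surjective' (Ideal.Quotient.mk I) Ideal.Quotient.mk_surjective

theorem span_singleton_ne_top_of_mem_maximalIdeal {t : A} (ht : t ∈ maximalIdeal A) :
    Ideal.span {t} ≠ ⊤ := by
  rw [Ne, Ideal.span_singleton_eq_top]
  exact (mem_maximalIdeal t).mp ht

/-- In an Artinian local ring, the maximal ideal is nilpotent. -/
theorem exists_maximalIdeal_pow_eq_bot [IsArtinianRing A] : ∃ n : ℕ, maximalIdeal A ^ n = ⊥ := by
  obtain ⟨n, hn⟩ := IsArtinianRing.isNilpotent_jacobson_bot (R := A)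
  rw [IsLocalRing.jacobson_eq_maximalIdeal _ bot_ne_top] at hn
  exact ⟨n, hn⟩

/-- Elements of the maximal ideal of an Artinian local ring are nilpotent. -/
theorem isNilpotent_of_mem_maximalIdeal [IsArtinianRing A] {a : A} (ha : a ∈ maximalIdeal A) :
    IsNilpotent a := by
  obtain ⟨n, hn⟩ := exists_maximalIdeal_pow_eq_bot (A := A)
  refine ⟨n, ?_⟩
  have : a ^ n ∈ maximalIdeal A ^ n := Ideal.pow_mem_pow ha n
  rwa [hn, Ideal.mem_bot] at this

/-- **Socle element**: a nonzero Artinian local ring which is not a field has a nonzero element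
killed by the maximal ideal. -/
theorem exists_socle_element [IsArtinianRing A] (h : maximalIdeal A ≠ ⊥) :
    ∃ t : A, t ≠ 0 ∧ t ∈ maximalIdeal A ∧ ∀ m ∈ maximalIdeal A, m * t = 0 := by
  classical
  have hex := exists_maximalIdeal_pow_eq_bot (A := A)
  set n := Nat.find hex with hn
  have hnspec : maximalIdeal A ^ n = ⊥ := Nat.find_spec hex
  have hn0 : n ≠ 0 := by
    intro h0
    rw [h0, pow_zero, Ideal.one_eq_top] at hnspec
    exact top_ne_bot hnspec
  have hn1 : n ≠ 1 := by
    intro h1
    rw [h1, pow_one] at hnspec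
    exact h hnspec
  have hlt : n - 1 < n := by omega
  have hne : maximalIdeal A ^ (n - 1) ≠ ⊥ := Nat.find_min hex hlt
  obtain ⟨t, htmem, ht0⟩ := Submodule.exists_mem_ne_zero_of_ne_bot hne
  refine ⟨t, ht0, ?_, ?_⟩
  · have hle : maximalIdeal A ^ (n - 1) ≤ maximalIdeal A ^ 1 := Ideal.pow_le_pow_right (by omega)
    rw [pow_one] at hle
    exact hle htmem
  · intro m hm
    have : m * t ∈ maximalIdeal A ^ n := by
      have hn' : n = 1 + (n - 1) := by omega
      rw [hn', pow_add, pow_one]
      exact Ideal.mul_mem_mul hm htmem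
    rwa [hnspec, Ideal.mem_bot] at this

/-- If the maximal ideal vanishes, the residue map is bijective. -/
theorem residue_bijective_of_maximalIdeal_eq_bot (h : maximalIdeal A = ⊥) :
    Function.Bijective (IsLocalRing.residue A) := by
  refine ⟨?_, IsLocalRing.residue_surjective⟩
  rw [injective_iff_map_eq_zero]
  intro a ha
  rw [IsLocalRing.residue_eq_zero_iff, h, Ideal.mem_bot] at ha
  exact ha

end General

section TestAlgebra

variable {𝒪 : Type} [CommRing 𝒪] [IsLocalRing 𝒪]
variable {A : Type} [CommRing A] [IsLocalRing A] [Algebra 𝒪 A]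

/-- The residue field of a test algebra is a quotient of the residue field of `𝒪`. -/
theorem residueFieldMap_surjective (h : IsArtinianTestAlgebra 𝒪 A) :
    haveI := h.isLocalHom
    Function.Surjective (IsLocalRing.ResidueField.map (algebraMap 𝒪 A)) := by
  haveI := h.isLocalHom
  intro x
  obtain ⟨a, rfl⟩ := h.residue_surjective x
  exact ⟨IsLocalRing.residue 𝒪 a, by simp [IsLocalRing.ResidueField.map_residue]⟩

theorem finite_residueField_of_testAlgebra [Finite (ResidueField 𝒪)]
    (h : IsArtinianTestAlgebra 𝒪 A) : Finite (ResidueField A) := by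
  haveI := h.isLocalHom
  exact Finite.of_surjective _ (residueFieldMap_surjective h)

/-- **Test algebras are finite rings.** -/
theorem finite_of_testAlgebra [Finite (ResidueField 𝒪)] (h : IsArtinianTestAlgebra 𝒪 A) :
    Finite A := by
  haveI := h.isArtinian
  haveI := finite_residueField_of_testAlgebra h
  obtain ⟨n, hn⟩ := exists_maximalIdeal_pow_eq_bot (A := A)
  have hfin : Finite (A ⧸ (⊥ : Ideal A)) :=
    IsLocalRing.finite_quotient_iff.mpr ⟨n, hn.le⟩
  exact Finite.of_equiv _ (RingEquiv.quotientBot A).toEquiv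

/-- A finite local `𝒪`-algebra with local structure map and surjective residue map is a
test algebra. -/
theorem isArtinianTestAlgebra_of_finite [Finite A] (hloc : IsLocalHom (algebraMap 𝒪 A))
    (hsurj : Function.Surjective (IsLocalRing.residue A ∘ algebraMap 𝒪 A)) :
    IsArtinianTestAlgebra 𝒪 A :=
  ⟨hloc, hsurj, inferInstance⟩

/-- Quotients of test algebras by proper ideals are test algebras. -/
theorem isArtinianTestAlgebra_quotient (h : IsArtinianTestAlgebra 𝒪 A) {I : Ideal A}
    (hI : I ≠ ⊤) :
    @IsArtinianTestAlgebra 𝒪 _ (A ⧸ I) _ (isLocalRing_quotient hI) _ := by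
  letI := isLocalRing_quotient hI
  haveI := h.isArtinian
  haveI := h.isLocalHom
  haveI : Nontrivial (A ⧸ I) := Ideal.Quotient.nontrivial_iff.mpr hI
  haveI hq : IsLocalHom (Ideal.Quotient.mk I) :=
    IsLocalHom.of_surjective _ Ideal.Quotient.mk_surjective
  refine ⟨?_, ?_, inferInstance⟩
  · have : algebraMap 𝒪 (A ⧸ I) = (Ideal.Quotient.mk I).comp (algebraMap 𝒪 A) := rfl
    rw [this]
    exact RingHom.isLocalHom_comp _ _
  · intro x
    obtain ⟨y, rfl⟩ := IsLocalRing.residue_surjective x
    obtain ⟨a, rfl⟩ := Ideal.Quotient.mk_surjective y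
    obtain ⟨c, hc⟩ := h.residue_surjective (IsLocalRing.residue A a)
    refine ⟨c, ?_⟩
    simp only [Function.comp_apply] at hc ⊢
    rw [← sub_eq_zero, ← map_sub, IsLocalRing.residue_eq_zero_iff] at hc ⊢
    have h1 : algebraMap 𝒪 (A ⧸ I) c - Ideal.Quotient.mk I a =
        Ideal.Quotient.mk I (algebraMap 𝒪 A c - a) := by
      rw [map_sub]; rfl
    rw [h1]
    exact (IsLocalRing.mem_maximalIdeal _).mpr
      (fun hu => (IsLocalRing.mem_maximalIdeal _).mp hc (isUnit_of_map_unit _ _ hu))

/-- The quotient by a nonzero ideal of a finite ring has smaller cardinality. -/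
theorem card_quotient_lt [Finite A] {I : Ideal A} (hI : I ≠ ⊥) :
    Nat.card (A ⧸ I) < Nat.card A := by
  obtain ⟨t, htI, ht0⟩ := Submodule.exists_mem_ne_zero_of_ne_bot hI
  haveI := Fintype.ofFinite A
  haveI := Fintype.ofFinite (A ⧸ I)
  rw [Nat.card_eq_fintype_card, Nat.card_eq_fintype_card]
  apply Fintype.card_lt_of_surjective_not_injective (Ideal.Quotient.mk I)
    Ideal.Quotient.mk_surjective
  intro hinj
  apply ht0
  apply hinj
  rw [map_zero, Ideal.Quotient.eq_zero_iff_mem]
  exact htI

theorem card_quotient_span_singleton_lt [Finite A] {t : A} (ht : t ≠ 0) :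
    Nat.card (A ⧸ Ideal.span {t}) < Nat.card A :=
  card_quotient_lt (by
    intro h
    apply ht
    have : t ∈ Ideal.span {t} := Ideal.mem_span_singleton_self t
    rwa [h, Ideal.mem_bot] at this)

end TestAlgebra

end Fermat.Agent.S53
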