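import Mathlib
import Fermat.Agent.S53.ArtinBasic

/-!
# S53 / M1(b): fibre products of test algebras
-/

set_option autoImplicit false

namespace Fermat.Agent.S53

open IsLocalRing GaloisRep

section Def

variable {𝒪 : Type} [CommRing 𝒪]
variable {A B C : Type} [CommRing A] [Algebra 𝒪 A] [CommRing B] [Algebra 𝒪 B]
  [CommRing C] [Algebra 𝒪 C]

/-- The fibre product `A ×_C B` as a subalgebra of `A × B`. -/
def fibreProd (f : A →ₐ[𝒪] C) (g : B →ₐ[𝒪] C) : Subalgebra 𝒪 (A × B) :=
  AlgHom.equalizer (f.comp (AlgHom.fst 𝒪 A B)) (g.comp (AlgHom.snd 𝒪 A B))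

variable (f : A →ₐ[𝒪] C) (g : B →ₐ[𝒪] C)

theorem mem_fibreProd {x : A × B} : x ∈ fibreProd f g ↔ f x.1 = g x.2 := Iff.rfl

/-- First projection of the fibre product. -/
def fibreProdFst : fibreProd f g →ₐ[𝒪] A := (AlgHom.fst 𝒪 A B).comp (fibreProd f g).val

/-- Second projection of the fibre product. -/
def fibreProdSnd : fibreProd f g →ₐ[𝒪] B := (AlgHom.snd 𝒪 A B).comp (fibreProd f g).val

@[simp] theorem fibreProdFst_apply (x : fibreProd f g) : fibreProdFst f g x = x.1.1 := rfl

@[simp] theorem fibreProdSnd_apply (x : fibreProd f g) : fibreProdSnd f g x = x.1.2 := rfl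

theorem fibreProd_comm : f.comp (fibreProdFst f g) = g.comp (fibreProdSnd f g) := by
  ext x
  exact x.2

theorem fibreProd_injective :
    Function.Injective (fun x : fibreProd f g => (fibreProdFst f g x, fibreProdSnd f g x)) := by
  intro x y h
  exact Subtype.ext h

theorem fibreProd_exists (a : A) (b : B) (h : f a = g b) :
    ∃ x : fibreProd f g, fibreProdFst f g x = a ∧ fibreProdSnd f g x = b :=
  ⟨⟨(a, b), h⟩, rfl, rfl⟩

/-- The element of the fibre product given by a compatible pair. -/
def fibreProdMk (a : A) (b : B) (h : f a = g b) : fibreProd f g := ⟨(a, b), h⟩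

@[simp] theorem fibreProdMk_fst (a : A) (b : B) (h : f a = g b) :
    fibreProdFst f g (fibreProdMk f g a b h) = a := rfl

@[simp] theorem fibreProdMk_snd (a : A) (b : B) (h : f a = g b) :
    fibreProdSnd f g (fibreProdMk f g a b h) = b := rfl

/-- The universal property: lifting a compatible pair of algebra homs. -/
def fibreProdLift {D : Type} [CommRing D] [Algebra 𝒪 D] (u : D →ₐ[𝒪] A) (v : D →ₐ[𝒪] B)
    (h : f.comp u = g.comp v) : D →ₐ[𝒪] fibreProd f g :=
  (AlgHom.prod u v).codRestrict (fibreProd f g) (fun d => by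
    rw [mem_fibreProd]
    exact DFunLike.congr_fun h d)

@[simp] theorem fibreProdFst_lift {D : Type} [CommRing D] [Algebra 𝒪 D] (u : D →ₐ[𝒪] A)
    (v : D →ₐ[𝒪] B) (h : f.comp u = g.comp v) (d : D) :
    fibreProdFst f g (fibreProdLift f g u v h d) = u d := rfl

@[simp] theorem fibreProdSnd_lift {D : Type} [CommRing D] [Algebra 𝒪 D] (u : D →ₐ[𝒪] A)
    (v : D →ₐ[𝒪] B) (h : f.comp u = g.comp v) (d : D) :
    fibreProdSnd f g (fibreProdLift f g u v h d) = v d := rfl

end Def

section Local

variable {𝒪 : Type} [CommRing 𝒪]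
variable {A B C : Type} [CommRing A] [IsLocalRing A] [Algebra 𝒪 A] [CommRing B] [IsLocalRing B]
  [Algebra 𝒪 B] [CommRing C] [IsLocalRing C] [Algebra 𝒪 C]
variable (f : A →ₐ[𝒪] C) (g : B →ₐ[𝒪] C)

/-- Units of the fibre product are detected on the first factor (if `g` is local). -/
theorem isUnit_fibreProd_iff (hg : IsLocalHom (g : B →+* C)) (x : fibreProd f g) :
    IsUnit x ↔ IsUnit x.1.1 := by
  constructor
  · intro h
    exact h.map (fibreProdFst f g)
  · intro h
    have hx : f x.1.1 = g x.1.2 := x.2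
    have hb : IsUnit x.1.2 := by
      have h1 : IsUnit ((g : B →+* C) x.1.2) := by
        have := h.map f
        rwa [hx] at this
      exact isUnit_of_map_unit (g : B →+* C) _ h1
    obtain ⟨a', ha'⟩ := h.exists_right_inv
    obtain ⟨b', hb'⟩ := hb.exists_right_inv
    have hfg : f a' = g b' := by
      have h1 : f x.1.1 * f a' = 1 := by rw [← map_mul, ha', map_one]
      have h2 : g x.1.2 * g b' = 1 := by rw [← map_mul, hb', map_one]
      have hu : IsUnit (f x.1.1) := h.map f
      apply hu.mul_left_cancel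
      rw [h1, hx, h2]
    refine IsUnit.of_mul_eq_one (⟨(a', b'), hfg⟩ : fibreProd f g) ?_
    apply Subtype.ext
    exact Prod.ext ha' hb'

/-- The fibre product of local rings along local homs is local. -/
theorem isLocalRing_fibreProd (hg : IsLocalHom (g : B →+* C)) :
    IsLocalRing (fibreProd f g) := by
  haveI : Nontrivial (fibreProd f g) := by
    refine ⟨⟨0, 1, ?_⟩⟩
    intro h
    have h1 : (0 : A) = 1 := congrArg (fun x : fibreProd f g => x.1.1) h
    exact zero_ne_one h1
  apply IsLocalRing.of_isUnit_or_isUnit_one_sub_self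
  intro x
  rcases IsLocalRing.isUnit_or_isUnit_one_sub_self x.1.1 with h | h
  · exact Or.inl ((isUnit_fibreProd_iff f g hg x).mpr h)
  · exact Or.inr ((isUnit_fibreProd_iff f g hg (1 - x)).mpr h)

theorem isLocalHom_fibreProdFst (hg : IsLocalHom (g : B →+* C)) :
    IsLocalHom (fibreProdFst f g : fibreProd f g →+* A) :=
  ⟨fun x hx => (isUnit_fibreProd_iff f g hg x).mpr hx⟩

theorem isLocalHom_fibreProdSnd (hf : IsLocalHom (f : A →+* C)) (hg : IsLocalHom (g : B →+* C)) :
    IsLocalHom (fibreProdSnd f g : fibreProd f g →+* B) := by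
  refine ⟨fun x hx => (isUnit_fibreProd_iff f g hg x).mpr ?_⟩
  have h1 : IsUnit (g x.1.2) := IsUnit.map g hx
  have hx' : f x.1.1 = g x.1.2 := x.2
  rw [← hx'] at h1
  exact isUnit_of_map_unit (f : A →+* C) _ h1

end Local

section TestAlgebra

variable {𝒪 : Type} [CommRing 𝒪] [IsLocalRing 𝒪]
variable {A B C : Type} [CommRing A] [IsLocalRing A] [Algebra 𝒪 A] [CommRing B] [IsLocalRing B]
  [Algebra 𝒪 B] [CommRing C] [IsLocalRing C] [Algebra 𝒪 C]

/-- An `𝒪`-algebra hom into a test algebra-like target from an Artinian local ring is local. -/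
theorem isLocalHom_of_isArtinianRing [IsArtinianRing A] (f : A →ₐ[𝒪] C) :
    IsLocalHom (f : A →+* C) := by
  refine ⟨fun a ha => ?_⟩
  by_contra hna
  have hmem : a ∈ maximalIdeal A := (mem_maximalIdeal a).mpr hna
  obtain ⟨n, hn⟩ := isNilpotent_of_mem_maximalIdeal hmem
  have h1 : IsUnit ((f : A →+* C) a ^ n) := ha.pow n
  rw [← map_pow, hn, map_zero] at h1
  exact not_isUnit_zero h1

/-- **The fibre product of test algebras is a test algebra.** -/
theorem isArtinianTestAlgebra_fibreProd [Finite (ResidueField 𝒪)]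
    (hA : IsArtinianTestAlgebra 𝒪 A) (hB : IsArtinianTestAlgebra 𝒪 B)
    (f : A →ₐ[𝒪] C) (g : B →ₐ[𝒪] C) :
    @IsArtinianTestAlgebra 𝒪 _ (fibreProd f g) _
      (isLocalRing_fibreProd f g (haveI := hB.isArtinian; isLocalHom_of_isArtinianRing g)) _ := by
  haveI := hA.isArtinian
  haveI := hB.isArtinian
  have hg : IsLocalHom (g : B →+* C) := isLocalHom_of_isArtinianRing g
  letI := isLocalRing_fibreProd f g hg
  haveI := finite_of_testAlgebra hA
  haveI := finite_of_testAlgebra hB
  haveI : Finite (fibreProd f g) := Subtype.finite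
  haveI := hA.isLocalHom
  refine ⟨⟨fun c hc => ?_⟩, ?_, inferInstance⟩
  · have h1 : IsUnit (algebraMap 𝒪 A c) := by
      have := hc.map (fibreProdFst f g)
      rwa [AlgHom.commutes] at this
    exact isUnit_of_map_unit (algebraMap 𝒪 A) c h1
  · intro x
    obtain ⟨y, rfl⟩ := IsLocalRing.residue_surjective x
    obtain ⟨c, hc⟩ := hA.residue_surjective (IsLocalRing.residue A y.1.1)
    refine ⟨c, ?_⟩
    simp only [Function.comp_apply] at hc ⊢
    rw [← sub_eq_zero, ← map_sub, IsLocalRing.residue_eq_zero_iff, mem_maximalIdeal,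
      mem_nonunits_iff] at hc ⊢
    intro hu
    apply hc
    have := hu.map (fibreProdFst f g)
    rwa [map_sub, AlgHom.commutes] at this

end TestAlgebra

end Fermat.Agent.S53
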