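import Mathlib
import Fermat.Prelude.Def_GaloisRep_DeformationCondition
import Fermat.Agent.S53.ArtinBasic
import Fermat.Agent.S53.FibreProd
import Fermat.Agent.S53.Chevalley

/-!
# S53 / M1 — ring infrastructure, sections `Test`, `Triv`, `Pair`
(section `Chev` = `chevalley`, `exists_limit` lives in `Fermat/Agent/S53/Chevalley.lean`)

Names and statements are those of the interface `RingsSpec.lean`.
-/

set_option autoImplicit false
set_option linter.unusedSectionVars false

noncomputable section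

namespace Fermat.Agent.S53

open IsLocalRing GaloisRep

variable {𝒪 : Type} [CommRing 𝒪] [IsDomain 𝒪] [IsDiscreteValuationRing 𝒪]
  [IsAdicComplete (maximalIdeal 𝒪) 𝒪] [Finite (ResidueField 𝒪)]

/-! ## Section Test: Artinian test algebras -/
section Test

variable {A : Type} [CommRing A] [IsLocalRing A] [Algebra 𝒪 A]

lemma test_finite (hA : IsArtinianTestAlgebra 𝒪 A) : Finite A :=
  finite_of_testAlgebra hA

lemma test_exists_pow_eq_bot (hA : IsArtinianTestAlgebra 𝒪 A) :
    ∃ n : ℕ, maximalIdeal A ^ n = ⊥ := by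
  have := hA.isArtinian
  exact exists_maximalIdeal_pow_eq_bot

/-- socle element -/
lemma test_exists_socle (hA : IsArtinianTestAlgebra 𝒪 A) (hm : maximalIdeal A ≠ ⊥) :
    ∃ t : A, t ≠ 0 ∧ t ∈ maximalIdeal A ∧ ∀ x ∈ maximalIdeal A, x * t = 0 := by
  have := hA.isArtinian
  exact exists_socle_element hm

/-- the structure map of a test algebra is surjective modulo the maximal ideal:
every element is `algebraMap o + m` -/
lemma test_exists_add (hA : IsArtinianTestAlgebra 𝒪 A) (a : A) :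
    ∃ o : 𝒪, a - algebraMap 𝒪 A o ∈ maximalIdeal A := by
  obtain ⟨o, ho⟩ := hA.residue_surjective (residue A a)
  refine ⟨o, ?_⟩
  rw [← residue_eq_zero_iff, map_sub, sub_eq_zero]
  exact ho.symm

/-- if the maximal ideal is zero, `A` is the residue field. -/
lemma test_algebraMap_surjective_of_eq_bot (hA : IsArtinianTestAlgebra 𝒪 A)
    (hm : maximalIdeal A = ⊥) : Function.Surjective (algebraMap 𝒪 A) := by
  intro a
  obtain ⟨o, ho⟩ := test_exists_add hA a
  rw [hm, Ideal.mem_bot, sub_eq_zero] at ho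
  exact ⟨o, ho.symm⟩

/-- quotients of local rings by proper ideals are local (to be used with `haveI`). -/
lemma quot_isLocalRing (I : Ideal A) (hI : I ≠ ⊤) : IsLocalRing (A ⧸ I) :=
  isLocalRing_quotient hI

lemma test_quotient (hA : IsArtinianTestAlgebra 𝒪 A) (I : Ideal A) (hI : I ≠ ⊤) :
    haveI := quot_isLocalRing I hI
    IsArtinianTestAlgebra 𝒪 (A ⧸ I) :=
  isArtinianTestAlgebra_quotient hA hI

lemma test_card_quotient_lt (hA : IsArtinianTestAlgebra 𝒪 A) (I : Ideal A) (hI : I ≠ ⊥) :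
    Nat.card (A ⧸ I) < Nat.card A := by
  have := test_finite hA
  exact card_quotient_lt hI

/-- the residue field of `𝒪` is a test algebra. -/
lemma test_residueField : IsArtinianTestAlgebra 𝒪 (ResidueField 𝒪) := by
  refine ⟨?_, ?_, inferInstance⟩
  · constructor
    intro a ha
    by_contra hna
    have h1 : a ∈ maximalIdeal 𝒪 := (mem_maximalIdeal a).mpr hna
    have h2 : algebraMap 𝒪 (ResidueField 𝒪) a = 0 := (residue_eq_zero_iff a).mpr h1
    rw [h2] at ha
    exact not_isUnit_zero ha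
  · intro x
    obtain ⟨y, rfl⟩ := residue_surjective x
    obtain ⟨o, rfl⟩ := residue_surjective y
    exact ⟨o, rfl⟩

/-- `𝒪`-algebra homs into a local `𝒪`-algebra with local structure map and residue field `k`
are local.  (No hypothesis on the source is needed.) -/
lemma test_isLocalHom {B : Type} [CommRing B] [IsLocalRing B] [Algebra 𝒪 B]
    (hB : IsLocalHom (algebraMap 𝒪 B))
    (hBres : Function.Surjective (residue B ∘ algebraMap 𝒪 B)) (φ : A →ₐ[𝒪] B) :
    IsLocalHom (φ : A →+* B) := by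
  constructor
  intro a ha
  by_contra hna
  -- `φ a` is a unit; pick `o` with `φ a ≡ o`; then `o` is a unit of `𝒪`
  obtain ⟨o, ho⟩ := hBres (residue B (φ a))
  have h1 : φ a - algebraMap 𝒪 B o ∈ maximalIdeal B := by
    rw [← residue_eq_zero_iff, map_sub, sub_eq_zero]
    exact ho.symm
  have ho_unit : IsUnit o := by
    apply hB.map_nonunit
    by_contra hno
    have h2 : algebraMap 𝒪 B o ∈ maximalIdeal B := (mem_maximalIdeal _).mpr hno
    have h3 : φ a ∈ maximalIdeal B := by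
      have : φ a = (φ a - algebraMap 𝒪 B o) + algebraMap 𝒪 B o := by ring
      rw [this]
      exact add_mem h1 h2
    exact (mem_maximalIdeal _).mp h3 ha
  -- `algebraMap o - a` is a unit of `A` since `a` is a non-unit
  have h4 : IsUnit (algebraMap 𝒪 A o - a) := by
    have hu : IsUnit (algebraMap 𝒪 A o) := ho_unit.map _
    have ha' : a ∈ maximalIdeal A := (mem_maximalIdeal a).mpr hna
    by_contra hno
    have h5 : algebraMap 𝒪 A o - a ∈ maximalIdeal A := (mem_maximalIdeal _).mpr hno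
    have h6 : algebraMap 𝒪 A o ∈ maximalIdeal A := by
      have : algebraMap 𝒪 A o = (algebraMap 𝒪 A o - a) + a := by ring
      rw [this]
      exact add_mem h5 ha'
    exact (mem_maximalIdeal _).mp h6 hu
  have h7 : IsUnit (φ (algebraMap 𝒪 A o - a)) := h4.map φ
  rw [map_sub, AlgHom.commutes] at h7
  have h8 : algebraMap 𝒪 B o - φ a ∈ maximalIdeal B := by
    have : algebraMap 𝒪 B o - φ a = -(φ a - algebraMap 𝒪 B o) := by ring
    rw [this]
    exact neg_mem h1
  exact (mem_maximalIdeal _).mp h8 h7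

/-- `𝒪`-algebra homs between test algebras are local. -/
lemma test_isLocalHom' {B : Type} [CommRing B] [IsLocalRing B] [Algebra 𝒪 B]
    (hB : IsArtinianTestAlgebra 𝒪 B) (φ : A →ₐ[𝒪] B) :
    IsLocalHom (φ : A →+* B) :=
  test_isLocalHom hB.isLocalHom hB.residue_surjective φ

end Test

/-! ## Section Triv: trivial square-zero extensions `k ⊕ M` as test algebras
(with the DEFAULT algebra instance `TrivSqZeroExt.algebra'`). -/
section Triv

variable (𝒪) in
/-- `k ⊕ kⁿ` with square-zero ideal `kⁿ`. -/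
abbrev Eps (n : ℕ) : Type := TrivSqZeroExt (ResidueField 𝒪) (Fin n → ResidueField 𝒪)

instance eps_isLocalRing (n : ℕ) : IsLocalRing (Eps 𝒪 n) where
  isUnit_or_isUnit_of_add_one {a b} h := by
    rw [add_comm, ← eq_sub_iff_add_eq] at h
    rcases eq_or_ne (TrivSqZeroExt.fst a) 0 with ha | ha <;>
    simp [TrivSqZeroExt.isUnit_iff_isUnit_fst, h, ha]

lemma eps_mem_maximalIdeal (n : ℕ) (x : Eps 𝒪 n) :
    x ∈ maximalIdeal (Eps 𝒪 n) ↔ x.fst = 0 := by
  rw [mem_maximalIdeal, mem_nonunits_iff, TrivSqZeroExt.isUnit_iff_isUnit_fst,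
    isUnit_iff_ne_zero, not_not]

lemma eps_isTest (n : ℕ) : IsArtinianTestAlgebra 𝒪 (Eps 𝒪 n) := by
  have hfin : Finite (Eps 𝒪 n) := by
    unfold Eps TrivSqZeroExt
    infer_instance
  refine ⟨?_, ?_, inferInstance⟩
  · constructor
    intro a ha
    by_contra hna
    have h1 : a ∈ maximalIdeal 𝒪 := (mem_maximalIdeal a).mpr hna
    have h2 : algebraMap 𝒪 (ResidueField 𝒪) a = 0 := (residue_eq_zero_iff a).mpr h1
    rw [TrivSqZeroExt.isUnit_iff_isUnit_fst] at ha
    have h3 : (algebraMap 𝒪 (Eps 𝒪 n) a).fst = algebraMap 𝒪 (ResidueField 𝒪) a := rfl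
    rw [h3, h2] at ha
    exact not_isUnit_zero ha
  · intro x
    obtain ⟨y, rfl⟩ := residue_surjective x
    obtain ⟨o, ho⟩ := residue_surjective (TrivSqZeroExt.fst y)
    refine ⟨o, ?_⟩
    simp only [Function.comp_apply]
    rw [← sub_eq_zero, ← map_sub, residue_eq_zero_iff, eps_mem_maximalIdeal,
      TrivSqZeroExt.fst_sub, sub_eq_zero]
    exact ho

/-- the dual numbers with the DEFAULT algebra instance. -/
lemma dual_mem_maximalIdeal (x : DualNumber (ResidueField 𝒪)) :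
    x ∈ maximalIdeal (DualNumber (ResidueField 𝒪)) ↔ x.fst = 0 := by
  rw [mem_maximalIdeal, mem_nonunits_iff, TrivSqZeroExt.isUnit_iff_isUnit_fst,
    isUnit_iff_ne_zero, not_not]

lemma dual_isTest : IsArtinianTestAlgebra 𝒪 (DualNumber (ResidueField 𝒪)) := by
  have hfin : Finite (DualNumber (ResidueField 𝒪)) := by
    unfold DualNumber TrivSqZeroExt
    infer_instance
  refine ⟨?_, ?_, inferInstance⟩
  · constructor
    intro a ha
    by_contra hna
    have h1 : a ∈ maximalIdeal 𝒪 := (mem_maximalIdeal a).mpr hna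
    have h2 : algebraMap 𝒪 (ResidueField 𝒪) a = 0 := (residue_eq_zero_iff a).mpr h1
    rw [TrivSqZeroExt.isUnit_iff_isUnit_fst] at ha
    have h3 : (algebraMap 𝒪 (DualNumber (ResidueField 𝒪)) a).fst =
        algebraMap 𝒪 (ResidueField 𝒪) a := rfl
    rw [h3, h2] at ha
    exact not_isUnit_zero ha
  · intro x
    obtain ⟨y, rfl⟩ := residue_surjective x
    obtain ⟨o, ho⟩ := residue_surjective (TrivSqZeroExt.fst y)
    refine ⟨o, ?_⟩
    simp only [Function.comp_apply]
    rw [← sub_eq_zero, ← map_sub, residue_eq_zero_iff, dual_mem_maximalIdeal,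
      TrivSqZeroExt.fst_sub, sub_eq_zero]
    exact ho

/-- the algebra instance used in `TangentFinite` is (propositionally) the default one. -/
lemma dual_algebra_eq :
    (((algebraMap (ResidueField 𝒪) (DualNumber (ResidueField 𝒪))).comp
      (algebraMap 𝒪 (ResidueField 𝒪))).toAlgebra : Algebra 𝒪 (DualNumber (ResidueField 𝒪))) =
    TrivSqZeroExt.algebra' 𝒪 (ResidueField 𝒪) (ResidueField 𝒪) := by
  apply Algebra.algebra_ext
  intro o
  rfl

end Triv

/-! ## Section Pair: the fibre product `A ×_{A/t} A` and the map `θ` to `k[ε]` -/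
section Pair

variable {A : Type} [CommRing A] [IsLocalRing A] [Algebra 𝒪 A]

variable (𝒪) in
/-- pairs `(a, b)` with `b - a ∈ (t)`. -/
def pairAlg (t : A) : Subalgebra 𝒪 (A × A) where
  carrier := {p | p.2 - p.1 ∈ Ideal.span {t}}
  mul_mem' := by
    intro p q hp hq
    have : (p * q).2 - (p * q).1 = p.2 * (q.2 - q.1) + (p.2 - p.1) * q.1 := by
      simp only [Prod.snd_mul, Prod.fst_mul]; ring
    simp only [Set.mem_ofPred_eq] at hp hq ⊢
    rw [this]
    exact Ideal.add_mem _ (Ideal.mul_mem_left _ _ hq) (Ideal.mul_mem_right _ _ hp)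
  add_mem' := by
    intro p q hp hq
    have : (p + q).2 - (p + q).1 = (p.2 - p.1) + (q.2 - q.1) := by
      simp only [Prod.snd_add, Prod.fst_add]; ring
    simp only [Set.mem_ofPred_eq] at hp hq ⊢
    rw [this]
    exact Ideal.add_mem _ hp hq
  algebraMap_mem' := by
    intro o
    simp

lemma mem_pairAlg (t : A) (p : A × A) : p ∈ pairAlg 𝒪 t ↔ p.2 - p.1 ∈ Ideal.span {t} := Iff.rfl

variable (𝒪) in
/-- the first projection `A ×_{A/t} A → A`. -/
def pairFst (t : A) : pairAlg 𝒪 t →ₐ[𝒪] A := (AlgHom.fst 𝒪 A A).comp (pairAlg 𝒪 t).val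

variable (𝒪) in
/-- the second projection `A ×_{A/t} A → A`. -/
def pairSnd (t : A) : pairAlg 𝒪 t →ₐ[𝒪] A := (AlgHom.snd 𝒪 A A).comp (pairAlg 𝒪 t).val

@[simp] lemma pairFst_apply (t : A) (p : pairAlg 𝒪 t) : pairFst 𝒪 t p = (p : A × A).1 := rfl

@[simp] lemma pairSnd_apply (t : A) (p : pairAlg 𝒪 t) : pairSnd 𝒪 t p = (p : A × A).2 := rfl

/-- the diagonal `A → A ×_{A/t} A`. -/
def pairDiag (t : A) (a : A) : pairAlg 𝒪 t := ⟨(a, a), by simp [mem_pairAlg]⟩

lemma pairAlg_snd_mem_maximalIdeal_iff (t : A) (ht : t ∈ maximalIdeal A) (p : pairAlg 𝒪 t) :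
    (p : A × A).2 ∈ maximalIdeal A ↔ (p : A × A).1 ∈ maximalIdeal A := by
  have hp : (p : A × A).2 - (p : A × A).1 ∈ maximalIdeal A :=
    (Ideal.span_singleton_le_iff_mem (I := maximalIdeal A)).mpr ht p.2
  constructor
  · intro h
    have : (p : A × A).1 = (p : A × A).2 - ((p : A × A).2 - (p : A × A).1) := by ring
    rw [this]
    exact sub_mem h hp
  · intro h
    have : (p : A × A).2 = (p : A × A).1 + ((p : A × A).2 - (p : A × A).1) := by ring
    rw [this]
    exact add_mem h hp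

lemma pairAlg_isUnit_iff (t : A) (ht : t ∈ maximalIdeal A) (p : pairAlg 𝒪 t) :
    IsUnit p ↔ IsUnit (p : A × A).1 := by
  constructor
  · intro h
    exact h.map (pairFst 𝒪 t)
  · intro ha
    have hb : IsUnit (p : A × A).2 := by
      by_contra hnb
      have h1 : (p : A × A).2 ∈ maximalIdeal A := (mem_maximalIdeal _).mpr hnb
      exact (mem_maximalIdeal _).mp ((pairAlg_snd_mem_maximalIdeal_iff t ht p).mp h1) ha
    obtain ⟨a', ha'⟩ := isUnit_iff_exists_inv.mp ha
    obtain ⟨b', hb'⟩ := isUnit_iff_exists_inv.mp hb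
    have hq : (a', b') ∈ pairAlg 𝒪 t := by
      rw [mem_pairAlg]
      have h1 : b' - a' = -(a' * b') * ((p : A × A).2 - (p : A × A).1) := by
        linear_combination (-b') * ha' + a' * hb'
      simp only
      rw [h1]
      exact Ideal.mul_mem_left _ _ p.2
    refine isUnit_iff_exists_inv.mpr ⟨⟨(a', b'), hq⟩, ?_⟩
    apply Subtype.ext
    apply Prod.ext
    · exact ha'
    · exact hb'

lemma pairAlg_isLocalRing (t : A) (ht : t ∈ maximalIdeal A) : IsLocalRing (pairAlg 𝒪 t) := by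
  have : IsLocalHom (pairFst 𝒪 t : pairAlg 𝒪 t →+* A) :=
    ⟨fun p hp => (pairAlg_isUnit_iff t ht p).mpr hp⟩
  exact RingHom.domain_isLocalRing (pairFst 𝒪 t : pairAlg 𝒪 t →+* A)

lemma pairAlg_mem_maximalIdeal_iff (t : A) (ht : t ∈ maximalIdeal A) (p : pairAlg 𝒪 t) :
    haveI := pairAlg_isLocalRing (𝒪 := 𝒪) t ht
    p ∈ maximalIdeal (pairAlg 𝒪 t) ↔ (p : A × A).1 ∈ maximalIdeal A := by
  have := pairAlg_isLocalRing (𝒪 := 𝒪) t ht
  rw [mem_maximalIdeal, mem_maximalIdeal, mem_nonunits_iff, mem_nonunits_iff,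
    pairAlg_isUnit_iff t ht]

lemma pairAlg_isTest (hA : IsArtinianTestAlgebra 𝒪 A) (t : A) (ht : t ∈ maximalIdeal A) :
    haveI := pairAlg_isLocalRing (𝒪 := 𝒪) t ht
    IsArtinianTestAlgebra 𝒪 (pairAlg 𝒪 t) := by
  have := pairAlg_isLocalRing (𝒪 := 𝒪) t ht
  have := test_finite hA
  have hfin : Finite (pairAlg 𝒪 t) := Subtype.finite
  have := hA.isLocalHom
  refine ⟨⟨fun c hc => ?_⟩, ?_, inferInstance⟩
  · have h1 : IsUnit (algebraMap 𝒪 A c) := by
      have := hc.map (pairFst 𝒪 t)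
      rwa [AlgHom.commutes] at this
    exact isUnit_of_map_unit (algebraMap 𝒪 A) c h1
  · intro x
    obtain ⟨y, rfl⟩ := residue_surjective x
    obtain ⟨c, hc⟩ := test_exists_add hA (y : A × A).1
    refine ⟨c, ?_⟩
    simp only [Function.comp_apply]
    rw [← sub_eq_zero, ← map_sub, residue_eq_zero_iff, pairAlg_mem_maximalIdeal_iff t ht]
    have h1 : ((algebraMap 𝒪 (pairAlg 𝒪 t) c - y : pairAlg 𝒪 t) : A × A).1 =
        -((y : A × A).1 - algebraMap 𝒪 A c) := by
      simp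
    rw [h1]
    exact neg_mem hc

section theta

variable (hA : IsArtinianTestAlgebra 𝒪 A) (t : A) (ht0 : t ≠ 0)
  (htm : t ∈ maximalIdeal A) (hsoc : ∀ x ∈ maximalIdeal A, x * t = 0)

include hA in
lemma algebraMap_mem_maximalIdeal_iff (o : 𝒪) :
    algebraMap 𝒪 A o ∈ maximalIdeal A ↔ o ∈ maximalIdeal 𝒪 := by
  have := hA.isLocalHom
  rw [mem_maximalIdeal, mem_maximalIdeal, mem_nonunits_iff, mem_nonunits_iff,
    isUnit_map_iff]

include hA ht0 hsoc in
lemma algebraMap_mul_socle_eq_zero_iff (o : 𝒪) :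
    algebraMap 𝒪 A o * t = 0 ↔ o ∈ maximalIdeal 𝒪 := by
  constructor
  · intro h
    by_contra hno
    have hu : IsUnit o := by
      by_contra hnu
      exact hno ((mem_maximalIdeal o).mpr hnu)
    have hu' : IsUnit (algebraMap 𝒪 A o) := hu.map _
    exact ht0 ((hu'.mul_right_eq_zero).mp h)
  · intro h
    exact hsoc _ ((algebraMap_mem_maximalIdeal_iff hA o).mpr h)

include hA hsoc in
lemma pairAlg_exists_coeff (p : pairAlg 𝒪 t) :
    ∃ o₂ : 𝒪, (p : A × A).2 - (p : A × A).1 = algebraMap 𝒪 A o₂ * t := by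
  obtain ⟨c, hc⟩ := Ideal.mem_span_singleton'.mp p.2
  obtain ⟨o, ho⟩ := test_exists_add hA c
  refine ⟨o, ?_⟩
  have h1 := hsoc _ ho
  rw [← hc]
  linear_combination h1

/-- the underlying function of `θ` (defined by choice; see `pairTheta_eq`). -/
def pairThetaFun (p : pairAlg 𝒪 t) : DualNumber (ResidueField 𝒪) :=
  TrivSqZeroExt.inl (residue 𝒪 (test_exists_add hA (p : A × A).1).choose) +
    TrivSqZeroExt.inr (residue 𝒪 (pairAlg_exists_coeff hA t hsoc p).choose)

include ht0 in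
lemma pairThetaFun_eq (p : pairAlg 𝒪 t) (o₁ o₂ : 𝒪)
    (h₁ : (p : A × A).1 - algebraMap 𝒪 A o₁ ∈ maximalIdeal A)
    (h₂ : (p : A × A).2 - (p : A × A).1 = algebraMap 𝒪 A o₂ * t) :
    pairThetaFun hA t hsoc p =
      TrivSqZeroExt.inl (residue 𝒪 o₁) + TrivSqZeroExt.inr (residue 𝒪 o₂) := by
  have c₁ := (test_exists_add hA (p : A × A).1).choose_spec
  have c₂ := (pairAlg_exists_coeff hA t hsoc p).choose_spec
  set o₁' := (test_exists_add hA (p : A × A).1).choose with ho₁'
  set o₂' := (pairAlg_exists_coeff hA t hsoc p).choose with ho₂'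
  have e₁ : residue 𝒪 o₁' = residue 𝒪 o₁ := by
    rw [← sub_eq_zero, ← map_sub, residue_eq_zero_iff, ← algebraMap_mem_maximalIdeal_iff hA]
    have : algebraMap 𝒪 A (o₁' - o₁) =
        ((p : A × A).1 - algebraMap 𝒪 A o₁) - ((p : A × A).1 - algebraMap 𝒪 A o₁') := by
      rw [map_sub]; ring
    rw [this]
    exact sub_mem h₁ c₁
  have e₂ : residue 𝒪 o₂' = residue 𝒪 o₂ := by
    rw [← sub_eq_zero, ← map_sub, residue_eq_zero_iff,
      ← algebraMap_mul_socle_eq_zero_iff hA t ht0 hsoc, map_sub, sub_mul, ← c₂, ← h₂, sub_self]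
  unfold pairThetaFun
  rw [← ho₁', ← ho₂', e₁, e₂]

end theta

/-- the map `θ : A ×_{A/t} A → k[ε]`, `(a, b) ↦ ā + ((b - a)/t) ε` for a socle element `t`.
SPEC: if `b - a = o • t` then `θ (a,b) = inl (residue o_a) + inr (residue o)` where `o_a` is any
element of `𝒪` congruent to `a` modulo the maximal ideal. -/
theorem exists_theta (hA : IsArtinianTestAlgebra 𝒪 A) (t : A) (ht0 : t ≠ 0)
    (htm : t ∈ maximalIdeal A) (hsoc : ∀ x ∈ maximalIdeal A, x * t = 0) :
    ∃ θ : pairAlg 𝒪 t →ₐ[𝒪] DualNumber (ResidueField 𝒪),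
      ∀ (p : pairAlg 𝒪 t) (o₁ o₂ : 𝒪), (p : A × A).1 - algebraMap 𝒪 A o₁ ∈ maximalIdeal A →
        (p : A × A).2 - (p : A × A).1 = algebraMap 𝒪 A o₂ * t →
        θ p = TrivSqZeroExt.inl (residue 𝒪 o₁) + TrivSqZeroExt.inr (residue 𝒪 o₂) := by
  have key := pairThetaFun_eq hA t ht0 hsoc
  -- chosen representatives
  have ex₁ : ∀ p : pairAlg 𝒪 t, ∃ o₁ : 𝒪, (p : A × A).1 - algebraMap 𝒪 A o₁ ∈ maximalIdeal A :=
    fun p => test_exists_add hA _
  have ex₂ : ∀ p : pairAlg 𝒪 t, ∃ o₂ : 𝒪,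
      (p : A × A).2 - (p : A × A).1 = algebraMap 𝒪 A o₂ * t :=
    fun p => pairAlg_exists_coeff hA t hsoc p
  have hone : pairThetaFun hA t hsoc 1 = 1 := by
    rw [key 1 1 0 (by simp) (by simp)]
    simp
  have hmul : ∀ p q : pairAlg 𝒪 t, pairThetaFun hA t hsoc (p * q) =
      pairThetaFun hA t hsoc p * pairThetaFun hA t hsoc q := by
    intro p q
    obtain ⟨o₁, h₁⟩ := ex₁ p
    obtain ⟨o₂, h₂⟩ := ex₂ p
    obtain ⟨o₁', h₁'⟩ := ex₁ q
    obtain ⟨o₂', h₂'⟩ := ex₂ q
    rw [key p o₁ o₂ h₁ h₂, key q o₁' o₂' h₁' h₂',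
      key (p * q) (o₁ * o₁') (o₁ * o₂' + o₂ * o₁') ?_ ?_]
    · ext <;> simp [mul_comm]
    · -- first component
      have : ((p * q : pairAlg 𝒪 t) : A × A).1 - algebraMap 𝒪 A (o₁ * o₁') =
          ((p : A × A).1 - algebraMap 𝒪 A o₁) * (q : A × A).1 +
            algebraMap 𝒪 A o₁ * ((q : A × A).1 - algebraMap 𝒪 A o₁') := by
        simp only [Subalgebra.coe_mul, Prod.fst_mul, map_mul]; ring
      rw [this]
      exact add_mem (Ideal.mul_mem_right _ _ h₁) (Ideal.mul_mem_left _ _ h₁')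
    · -- second component
      have s₁ := hsoc _ h₁
      have s₁' := hsoc _ h₁'
      have hb : (p : A × A).2 - algebraMap 𝒪 A o₁ ∈ maximalIdeal A := by
        have : (p : A × A).2 - algebraMap 𝒪 A o₁ =
            ((p : A × A).2 - (p : A × A).1) + ((p : A × A).1 - algebraMap 𝒪 A o₁) := by ring
        rw [this, h₂]
        exact add_mem (Ideal.mul_mem_left _ _ htm) h₁
      have s₂ := hsoc _ hb
      simp only [Subalgebra.coe_mul, Prod.fst_mul, Prod.snd_mul, map_mul, map_add]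
      linear_combination (p : A × A).2 * h₂' + (q : A × A).1 * h₂ +
        algebraMap 𝒪 A o₂' * s₂ + algebraMap 𝒪 A o₂ * s₁'
  have hzero : pairThetaFun hA t hsoc 0 = 0 := by
    rw [key 0 0 0 (by simp) (by simp)]
    simp
  have hadd : ∀ p q : pairAlg 𝒪 t, pairThetaFun hA t hsoc (p + q) =
      pairThetaFun hA t hsoc p + pairThetaFun hA t hsoc q := by
    intro p q
    obtain ⟨o₁, h₁⟩ := ex₁ p
    obtain ⟨o₂, h₂⟩ := ex₂ p
    obtain ⟨o₁', h₁'⟩ := ex₁ q
    obtain ⟨o₂', h₂'⟩ := ex₂ q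
    rw [key p o₁ o₂ h₁ h₂, key q o₁' o₂' h₁' h₂',
      key (p + q) (o₁ + o₁') (o₂ + o₂') ?_ ?_]
    · ext <;> simp
    · have : ((p + q : pairAlg 𝒪 t) : A × A).1 - algebraMap 𝒪 A (o₁ + o₁') =
          ((p : A × A).1 - algebraMap 𝒪 A o₁) + ((q : A × A).1 - algebraMap 𝒪 A o₁') := by
        simp only [Subalgebra.coe_add, Prod.fst_add, map_add]; ring
      rw [this]
      exact add_mem h₁ h₁'
    · simp only [Subalgebra.coe_add, Prod.fst_add, Prod.snd_add, map_add]
      linear_combination h₂ + h₂'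
  have hcomm : ∀ o : 𝒪, pairThetaFun hA t hsoc (algebraMap 𝒪 (pairAlg 𝒪 t) o) =
      algebraMap 𝒪 (DualNumber (ResidueField 𝒪)) o := by
    intro o
    rw [key (algebraMap 𝒪 (pairAlg 𝒪 t) o) o 0 (by simp) (by simp)]
    simp only [map_zero, TrivSqZeroExt.inr_zero, add_zero]
    rfl
  exact ⟨{ toFun := pairThetaFun hA t hsoc
           map_one' := hone
           map_mul' := hmul
           map_zero' := hzero
           map_add' := hadd
           commutes' := hcomm }, key⟩

end Pair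

end Fermat.Agent.S53
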