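import Mathlib

/-!
# S53 / M1: `R⟦X₁,…,X_d⟧` is complete for the `(𝔞, X₁,…,X_d)`-adic topology

Let `R` be a commutative ring, `𝔞` an ideal such that `R` is `𝔞`-adically complete, and `σ` a
finite type.  Then `MvPowerSeries σ R` is complete for the ideal `𝔄 = 𝔞·P + (X_i)`
(`isAdicComplete_psIdeal`).  The proof is coefficientwise:
`f ∈ 𝔄 ^ n ↔ ∀ α, coeff α f ∈ 𝔞 ^ (n - |α|)` (`mem_psIdeal_pow_iff`).
-/

set_option autoImplicit false
set_option linter.unusedSectionVars false

noncomputable section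

namespace Fermat.Agent.S53

open MvPowerSeries Finsupp

section General

variable {σ : Type*} [Finite σ] {R : Type*} [CommRing R] (𝔞 : Ideal R)

/-- the ideal of power series whose coefficient at `α` lies in `𝔞 ^ (n - |α|)`. -/
def psCoeffIdeal (n : ℕ) : Ideal (MvPowerSeries σ R) where
  carrier := {f | ∀ α : σ →₀ ℕ, coeff α f ∈ 𝔞 ^ (n - degree α)}
  add_mem' := by
    intro f g hf hg α
    rw [map_add]
    exact add_mem (hf α) (hg α)
  zero_mem' := by
    intro α
    rw [map_zero]
    exact zero_mem _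
  smul_mem' := by
    classical
    intro g f hf α
    rw [smul_eq_mul, coeff_mul]
    refine Ideal.sum_mem _ fun p hp => ?_
    have hp' : p.1 + p.2 = α := Finset.HasAntidiagonal.mem_antidiagonal.mp hp
    have hdeg : degree p.2 ≤ degree α := by
      rw [← hp', map_add]; exact Nat.le_add_left _ _
    exact Ideal.mul_mem_left _ _ (Ideal.pow_le_pow_right (by omega) (hf p.2))

lemma mem_psCoeffIdeal {n : ℕ} {f : MvPowerSeries σ R} :
    f ∈ psCoeffIdeal 𝔞 n ↔ ∀ α : σ →₀ ℕ, coeff α f ∈ 𝔞 ^ (n - degree α) := Iff.rfl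

lemma psCoeffIdeal_mul_le (m n : ℕ) :
    psCoeffIdeal 𝔞 m * psCoeffIdeal 𝔞 n ≤ psCoeffIdeal (σ := σ) 𝔞 (m + n) := by
  classical
  rw [Ideal.mul_le]
  intro f hf g hg α
  rw [coeff_mul]
  refine Ideal.sum_mem _ fun p hp => ?_
  have hp' : p.1 + p.2 = α := Finset.HasAntidiagonal.mem_antidiagonal.mp hp
  have hdeg : degree p.1 + degree p.2 = degree α := by rw [← hp', map_add]
  have h1 := Ideal.mul_mem_mul (hf p.1) (hg p.2)
  rw [← pow_add] at h1
  exact Ideal.pow_le_pow_right (by omega) h1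

variable (σ) in
/-- the ideal `𝔄 = 𝔞·P + (X_i)` of `P = R⟦X₁,…,X_d⟧`. -/
def psIdeal : Ideal (MvPowerSeries σ R) :=
  𝔞.map (C : R →+* MvPowerSeries σ R) ⊔ Ideal.span (Set.range X)

lemma span_X_le_psIdeal :
    (Ideal.span (Set.range X) : Ideal (MvPowerSeries σ R)) ≤ psIdeal σ 𝔞 := le_sup_right

lemma map_C_le_psIdeal : 𝔞.map (C : R →+* MvPowerSeries σ R) ≤ psIdeal σ 𝔞 := le_sup_left

lemma psIdeal_le_psCoeffIdeal_one : psIdeal σ 𝔞 ≤ psCoeffIdeal 𝔞 1 := by
  classical
  refine sup_le ?_ ?_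
  · rw [Ideal.map_le_iff_le_comap]
    intro a ha α
    rw [coeff_C]
    split_ifs with h
    · subst h
      simpa using ha
    · exact zero_mem _
  · rw [Ideal.span_le]
    rintro _ ⟨i, rfl⟩ α
    rw [coeff_X]
    split_ifs with h
    · subst h
      simp [degree_single]
    · exact zero_mem _

lemma psIdeal_pow_le (n : ℕ) : psIdeal σ 𝔞 ^ n ≤ psCoeffIdeal 𝔞 n := by
  induction n with
  | zero =>
    intro f _ α
    simp
  | succ n ih =>
    rw [pow_succ]
    exact (Ideal.mul_mono ih (psIdeal_le_psCoeffIdeal_one 𝔞)).trans (psCoeffIdeal_mul_le 𝔞 n 1)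

/-- elements of `(X_i)^n` have vanishing coefficients in degrees `< n`. -/
lemma coeff_eq_zero_of_mem_span_X_pow {n : ℕ} {f : MvPowerSeries σ R}
    (hf : f ∈ (Ideal.span (Set.range X) : Ideal (MvPowerSeries σ R)) ^ n) {α : σ →₀ ℕ}
    (hα : degree α < n) : coeff α f = 0 := by
  have h1 : f ∈ psCoeffIdeal (⊥ : Ideal R) n :=
    psIdeal_pow_le ⊥ n (Ideal.pow_right_mono (span_X_le_psIdeal ⊥) n hf)
  have h2 := h1 α
  have h3 : n - degree α ≠ 0 := by omega
  rw [← Ideal.zero_eq_bot, zero_pow h3, Ideal.zero_eq_bot, Ideal.mem_bot] at h2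
  exact h2

/-- polynomials in `idealOfVars ^ k` map into `(X_i)^k`. -/
lemma coe_mem_span_X_pow {k : ℕ} {q : MvPolynomial σ R}
    (hq : q ∈ MvPolynomial.idealOfVars σ R ^ k) :
    (q : MvPowerSeries σ R) ∈ (Ideal.span (Set.range X) : Ideal (MvPowerSeries σ R)) ^ k := by
  have h1 : (MvPolynomial.idealOfVars σ R).map
      (MvPolynomial.coeToMvPowerSeries.ringHom (σ := σ) (R := R)) =
      Ideal.span (Set.range X) := by
    rw [MvPolynomial.idealOfVars, Ideal.map_span, ← Set.range_comp]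
    congr 2
    ext1 i
    simp
  rw [← h1, ← Ideal.map_pow]
  exact Ideal.mem_map_of_mem _ hq

/-- **Tail lemma**: a power series whose coefficients vanish in degrees `< n` lies in
`(X_i)^n`. -/
lemma mem_span_X_pow_of_coeff_eq_zero (n : ℕ) (g : MvPowerSeries σ R)
    (hg : ∀ α : σ →₀ ℕ, degree α < n → coeff α g = 0) :
    g ∈ (Ideal.span (Set.range X) : Ideal (MvPowerSeries σ R)) ^ n := by
  set I : Ideal (MvPowerSeries σ R) := Ideal.span (Set.range X) with hI
  have hcauchy : ∀ {a b : ℕ}, a ≤ b →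
      ((truncTotal a g : MvPolynomial σ R) : MvPowerSeries σ R) ≡
        ((truncTotal b g : MvPolynomial σ R) : MvPowerSeries σ R)
        [SMOD (I ^ a • ⊤ : Submodule (MvPowerSeries σ R) (MvPowerSeries σ R))] := by
    intro a b hab
    rw [SModEq.sub_mem, smul_eq_mul, Ideal.mul_top]
    have h1 := truncTotal_sub_truncTotal_mem_pow_idealOfVars (le_refl a) hab g
    have h2 := coe_mem_span_X_pow h1
    have h3 : ((truncTotal a g - truncTotal b g : MvPolynomial σ R) : MvPowerSeries σ R) =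
        ((truncTotal a g : MvPolynomial σ R) : MvPowerSeries σ R) -
          ((truncTotal b g : MvPolynomial σ R) : MvPowerSeries σ R) :=
      map_sub (MvPolynomial.coeToMvPowerSeries.ringHom (σ := σ) (R := R)) _ _
    rw [← h3]
    exact h2
  obtain ⟨L, hL⟩ := IsPrecomplete.prec' (I := I) (M := MvPowerSeries σ R)
    (fun m => ((truncTotal m g : MvPolynomial σ R) : MvPowerSeries σ R)) hcauchy
  have hL' : ∀ m, ((truncTotal m g : MvPolynomial σ R) : MvPowerSeries σ R) - L ∈ I ^ m := by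
    intro m
    have := hL m
    rwa [SModEq.sub_mem, smul_eq_mul, Ideal.mul_top] at this
  have hLg : L = g := by
    ext α
    have h1 := coeff_eq_zero_of_mem_span_X_pow (hL' (degree α + 1)) (Nat.lt_succ_self _)
    rw [map_sub, sub_eq_zero, MvPolynomial.coeff_coe,
      coeff_truncTotal _ (Nat.lt_succ_self _)] at h1
    exact h1.symm
  have h0 : (truncTotal n g : MvPolynomial σ R) = 0 := by
    ext α
    rw [coeff_truncTotal_eq_ite, MvPolynomial.coeff_zero]
    split_ifs with h
    · exact hg α h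
    · rfl
  have := hL' n
  rw [h0, hLg, MvPolynomial.coe_zero, zero_sub] at this
  exact (neg_mem_iff).mp this

lemma monomial_one_mem_span_X_pow (v : σ →₀ ℕ) :
    (monomial v (1 : R) : MvPowerSeries σ R) ∈
      (Ideal.span (Set.range X) : Ideal (MvPowerSeries σ R)) ^ (degree v) := by
  classical
  apply mem_span_X_pow_of_coeff_eq_zero
  intro α hα
  rw [coeff_monomial, if_neg]
  rintro rfl
  exact lt_irrefl _ hα

lemma psCoeffIdeal_le (n : ℕ) : psCoeffIdeal 𝔞 n ≤ psIdeal σ 𝔞 ^ n := by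
  classical
  intro f hf
  -- tail
  have htail : f - ((truncTotal n f : MvPolynomial σ R) : MvPowerSeries σ R) ∈
      psIdeal σ 𝔞 ^ n := by
    apply Ideal.pow_right_mono (span_X_le_psIdeal 𝔞) n
    apply mem_span_X_pow_of_coeff_eq_zero
    intro α hα
    rw [map_sub, MvPolynomial.coeff_coe, coeff_truncTotal _ hα, sub_self]
  -- polynomial part
  have hmon : ∀ v : σ →₀ ℕ,
      (monomial v (MvPolynomial.coeff v (truncTotal n f)) : MvPowerSeries σ R) ∈
        psIdeal σ 𝔞 ^ n := by
    intro v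
    rw [coeff_truncTotal_eq_ite]
    split_ifs with h
    · have h1 : (monomial v (coeff v f) : MvPowerSeries σ R) =
          C (coeff v f) * monomial v (1 : R) := by
        rw [← monomial_zero_eq_C_apply, monomial_mul_monomial, zero_add, mul_one]
      rw [h1]
      have h2 : (C (coeff v f) : MvPowerSeries σ R) ∈ psIdeal σ 𝔞 ^ (n - degree v) := by
        apply Ideal.pow_right_mono (map_C_le_psIdeal 𝔞) (n - degree v)
        rw [← Ideal.map_pow]
        exact Ideal.mem_map_of_mem _ (hf v)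
      have h3 : (monomial v (1 : R) : MvPowerSeries σ R) ∈ psIdeal σ 𝔞 ^ (degree v) :=
        Ideal.pow_right_mono (span_X_le_psIdeal 𝔞) _ (monomial_one_mem_span_X_pow v)
      have h4 := Ideal.mul_mem_mul h2 h3
      rw [← pow_add, Nat.sub_add_cancel h.le] at h4
      exact h4
    · rw [map_zero]
      exact zero_mem _
  have hpoly : (truncTotal n f : MvPolynomial σ R) ∈
      (psIdeal σ 𝔞 ^ n).comap (MvPolynomial.coeToMvPowerSeries.ringHom (σ := σ) (R := R)) := by
    rw [MvPolynomial.as_sum (truncTotal n f)]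
    refine Ideal.sum_mem _ fun v _ => ?_
    rw [Ideal.mem_comap]
    have := hmon v
    rwa [← MvPolynomial.coe_monomial] at this
  rw [Ideal.mem_comap] at hpoly
  have : f = (f - ((truncTotal n f : MvPolynomial σ R) : MvPowerSeries σ R)) +
      ((truncTotal n f : MvPolynomial σ R) : MvPowerSeries σ R) := by ring
  rw [this]
  exact add_mem htail hpoly

/-- **Coefficientwise description of the powers of `𝔄 = 𝔞·P + (X_i)`.** -/
theorem mem_psIdeal_pow_iff {n : ℕ} {f : MvPowerSeries σ R} :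
    f ∈ psIdeal σ 𝔞 ^ n ↔ ∀ α : σ →₀ ℕ, coeff α f ∈ 𝔞 ^ (n - degree α) :=
  ⟨fun h => psIdeal_pow_le 𝔞 n h, fun h => psCoeffIdeal_le 𝔞 n h⟩

theorem mem_psIdeal_iff {f : MvPowerSeries σ R} :
    f ∈ psIdeal σ 𝔞 ↔ constantCoeff f ∈ 𝔞 := by
  have h := mem_psIdeal_pow_iff 𝔞 (n := 1) (f := f)
  rw [pow_one] at h
  rw [h]
  constructor
  · intro h0
    have := h0 0
    simpa using this
  · intro h0 α
    by_cases hα : α = 0
    · subst hα
      simpa using h0
    · have h1 : degree α ≠ 0 := fun h => hα ((degree_eq_zero_iff α).mp h)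
      have h2 : 1 - degree α = 0 := by omega
      rw [h2, pow_zero, Ideal.one_eq_top]
      exact Submodule.mem_top

theorem isHausdorff_psIdeal [IsHausdorff 𝔞 R] :
    IsHausdorff (psIdeal σ 𝔞) (MvPowerSeries σ R) := by
  constructor
  intro x hx
  ext α
  rw [map_zero]
  apply IsHausdorff.haus' (I := 𝔞) (coeff α x)
  intro k
  have h1 := hx (k + degree α)
  rw [SModEq.zero, smul_eq_mul, Ideal.mul_top, mem_psIdeal_pow_iff] at h1
  have h2 := h1 α
  rw [Nat.add_sub_cancel] at h2
  rw [SModEq.zero, smul_eq_mul, Ideal.mul_top]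
  exact h2

theorem isPrecomplete_psIdeal [IsPrecomplete 𝔞 R] :
    IsPrecomplete (psIdeal σ 𝔞) (MvPowerSeries σ R) := by
  constructor
  intro f hf
  have hf' : ∀ {m n : ℕ}, m ≤ n → ∀ α : σ →₀ ℕ,
      coeff α (f m) - coeff α (f n) ∈ 𝔞 ^ (m - degree α) := by
    intro m n hmn α
    have h1 := hf hmn
    rw [SModEq.sub_mem, smul_eq_mul, Ideal.mul_top, mem_psIdeal_pow_iff] at h1
    have := h1 α
    rwa [map_sub] at this
  have hex : ∀ α : σ →₀ ℕ, ∃ c : R, ∀ k : ℕ,
      coeff α (f (k + degree α)) ≡ c [SMOD (𝔞 ^ k • ⊤ : Submodule R R)] := by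
    intro α
    apply IsPrecomplete.prec' (I := 𝔞) (M := R) (fun k => coeff α (f (k + degree α)))
    intro a b hab
    rw [SModEq.sub_mem, smul_eq_mul, Ideal.mul_top]
    have := hf' (Nat.add_le_add_right hab (degree α)) α
    rwa [Nat.add_sub_cancel] at this
  choose c hc using hex
  let L : MvPowerSeries σ R := fun α => c α
  have hL : ∀ α, coeff α L = c α := fun α => rfl
  refine ⟨L, fun n => ?_⟩
  rw [SModEq.sub_mem, smul_eq_mul, Ideal.mul_top, mem_psIdeal_pow_iff]
  intro α
  rcases Nat.lt_or_ge (degree α) n with h | h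
  · have h1 := hc α (n - degree α)
    rw [SModEq.sub_mem, smul_eq_mul, Ideal.mul_top, Nat.sub_add_cancel h.le] at h1
    rw [map_sub, hL]
    exact h1
  · have h2 : n - degree α = 0 := by omega
    rw [h2, pow_zero, Ideal.one_eq_top]
    exact Submodule.mem_top

/-- **`R⟦X₁,…,X_d⟧` is `(𝔞, X₁,…,X_d)`-adically complete if `R` is `𝔞`-adically complete.** -/
theorem isAdicComplete_psIdeal [IsAdicComplete 𝔞 R] :
    IsAdicComplete (psIdeal σ 𝔞) (MvPowerSeries σ R) :=
  { isHausdorff_psIdeal 𝔞, isPrecomplete_psIdeal 𝔞 with }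

end General

section Local

variable {σ : Type*} [Finite σ] {R : Type*} [CommRing R] [IsLocalRing R]

open IsLocalRing

theorem mem_maximalIdeal_mvPowerSeries_iff {f : MvPowerSeries σ R} :
    f ∈ maximalIdeal (MvPowerSeries σ R) ↔ constantCoeff f ∈ maximalIdeal R := by
  rw [mem_maximalIdeal, mem_maximalIdeal, mem_nonunits_iff, mem_nonunits_iff,
    isUnit_iff_constantCoeff]

theorem maximalIdeal_mvPowerSeries :
    maximalIdeal (MvPowerSeries σ R) = psIdeal σ (maximalIdeal R) := by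
  ext f
  rw [mem_maximalIdeal_mvPowerSeries_iff, mem_psIdeal_iff]

/-- **`R⟦X₁,…,X_d⟧` is complete for its maximal ideal if `R` is.** -/
theorem isAdicComplete_mvPowerSeries [IsAdicComplete (maximalIdeal R) R] :
    IsAdicComplete (maximalIdeal (MvPowerSeries σ R)) (MvPowerSeries σ R) := by
  rw [maximalIdeal_mvPowerSeries]
  exact isAdicComplete_psIdeal _

end Local

end Fermat.Agent.S53
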