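import Mathlib
import Fermat.Prelude.Def_GaloisRep_DeformationCondition
import Fermat.Prelude.Thm_IsLocalRing_isAdicComplete_of_module_finite
import Fermat.Agent.S53.RingsA
import Fermat.Agent.S53.PowerSeriesComplete

/-!
# S53 / M1 — ring infrastructure, sections `Quot` and `PS` of the interface `RingsSpec.lean`

Names and statements are those of the interface `RingsSpec.lean`.
-/

set_option autoImplicit false
set_option linter.unusedSectionVars false

noncomputable section

namespace Fermat.Agent.S53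

open IsLocalRing GaloisRep

variable {𝒪 : Type} [CommRing 𝒪] [IsDomain 𝒪] [IsDiscreteValuationRing 𝒪]
  [IsAdicComplete (maximalIdeal 𝒪) 𝒪] [Finite (ResidueField 𝒪)]

/-! ## Section Quot: quotients of complete noetherian local `𝒪`-algebras -/
section Quot

variable {R : Type} [CommRing R] [IsLocalRing R] [IsNoetherianRing R]
  [IsAdicComplete (maximalIdeal R) R] [Algebra 𝒪 R] [IsLocalHom (algebraMap 𝒪 R)]

lemma quot_isAdicComplete (J : Ideal R) (hJ : J ≠ ⊤) :
    haveI := quot_isLocalRing J hJ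
    IsAdicComplete (maximalIdeal (R ⧸ J)) (R ⧸ J) := by
  have := quot_isLocalRing J hJ
  have : IsLocalHom (algebraMap R (R ⧸ J)) :=
    IsLocalHom.of_surjective _ Ideal.Quotient.mk_surjective
  exact IsLocalRing.isAdicComplete_of_module_finite (𝒪 := R) (T := R ⧸ J)

lemma quot_isLocalHom (J : Ideal R) (hJ : J ≠ ⊤) :
    haveI := quot_isLocalRing J hJ
    IsLocalHom (algebraMap 𝒪 (R ⧸ J)) := by
  have := quot_isLocalRing J hJ
  have hq : IsLocalHom (Ideal.Quotient.mk J) :=
    IsLocalHom.of_surjective _ Ideal.Quotient.mk_surjective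
  have : algebraMap 𝒪 (R ⧸ J) = (Ideal.Quotient.mk J).comp (algebraMap 𝒪 R) := rfl
  rw [this]
  exact RingHom.isLocalHom_comp _ _

/-- maximal ideal of the quotient -/
lemma quot_maximalIdeal (J : Ideal R) (hJ : J ≠ ⊤) :
    haveI := quot_isLocalRing J hJ
    maximalIdeal (R ⧸ J) = (maximalIdeal R).map (Ideal.Quotient.mk J) := by
  have := quot_isLocalRing J hJ
  have := IsLocalHom.of_surjective (Ideal.Quotient.mk J) Ideal.Quotient.mk_surjective
  ext x
  obtain ⟨x, rfl⟩ := Ideal.Quotient.mk_surjective x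
  simp [sup_eq_left.mpr (le_maximalIdeal hJ)]

lemma quot_mk_mem_maximalIdeal_iff (J : Ideal R) (hJ : J ≠ ⊤) (x : R) :
    haveI := quot_isLocalRing J hJ
    Ideal.Quotient.mk J x ∈ maximalIdeal (R ⧸ J) ↔ x ∈ maximalIdeal R := by
  have := quot_isLocalRing J hJ
  have := IsLocalHom.of_surjective (Ideal.Quotient.mk J) Ideal.Quotient.mk_surjective
  simp

lemma quot_residue_surjective (hR : Function.Surjective (residue R ∘ algebraMap 𝒪 R))
    (J : Ideal R) (hJ : J ≠ ⊤) :
    haveI := quot_isLocalRing J hJ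
    Function.Surjective (residue (R ⧸ J) ∘ algebraMap 𝒪 (R ⧸ J)) := by
  have := quot_isLocalRing J hJ
  intro x
  obtain ⟨y, rfl⟩ := residue_surjective x
  obtain ⟨a, rfl⟩ := Ideal.Quotient.mk_surjective y
  obtain ⟨c, hc⟩ := hR (residue R a)
  refine ⟨c, ?_⟩
  simp only [Function.comp_apply] at hc ⊢
  rw [← sub_eq_zero, ← map_sub, residue_eq_zero_iff] at hc ⊢
  have h1 : algebraMap 𝒪 (R ⧸ J) c - Ideal.Quotient.mk J a =
      Ideal.Quotient.mk J (algebraMap 𝒪 R c - a) := by
    rw [map_sub]; rfl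
  rw [h1]
  exact (quot_mk_mem_maximalIdeal_iff J hJ _).mpr hc

/-- the residue field of a local `𝒪`-algebra with surjective residue map is finite. -/
lemma finite_residueField_of_surjective
    (hR : Function.Surjective (residue R ∘ algebraMap 𝒪 R)) : Finite (ResidueField R) := by
  have h1 : Function.Surjective (IsLocalRing.ResidueField.map (algebraMap 𝒪 R)) := by
    intro x
    obtain ⟨a, rfl⟩ := hR x
    exact ⟨residue 𝒪 a, by simp [IsLocalRing.ResidueField.map_residue]⟩
  exact Finite.of_surjective _ h1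

/-- an open quotient is finite -/
lemma quot_finite (hR : Function.Surjective (residue R ∘ algebraMap 𝒪 R))
    (J : Ideal R) (n : ℕ) (hn : maximalIdeal R ^ n ≤ J) : Finite (R ⧸ J) := by
  have := finite_residueField_of_surjective hR
  exact IsLocalRing.finite_quotient_iff.mpr ⟨n, hn⟩

/-- an open quotient is a test algebra -/
lemma quot_isTest (hR : Function.Surjective (residue R ∘ algebraMap 𝒪 R))
    (J : Ideal R) (hJ : J ≠ ⊤) (n : ℕ) (hn : maximalIdeal R ^ n ≤ J) :
    haveI := quot_isLocalRing J hJ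
    IsArtinianTestAlgebra 𝒪 (R ⧸ J) := by
  have := quot_isLocalRing J hJ
  have := quot_finite hR J n hn
  exact ⟨quot_isLocalHom J hJ, quot_residue_surjective hR J hJ, inferInstance⟩

/-- there are finitely many ideals containing an open ideal (needs finite residue field) -/
lemma quot_finite_ideals_ge (hR : Function.Surjective (residue R ∘ algebraMap 𝒪 R))
    (J : Ideal R) (n : ℕ) (hn : maximalIdeal R ^ n ≤ J) :
    {K : Ideal R | J ≤ K}.Finite := by
  have := quot_finite hR J n hn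
  have hfin : Finite (Ideal (R ⧸ J)) := inferInstance
  refine Set.Finite.of_injOn (f := fun K : Ideal R => K.map (Ideal.Quotient.mk J))
    (t := Set.univ) (fun _ _ => Set.mem_univ _) ?_ Set.finite_univ
  intro K hK K' hK' h
  have h2 : ∀ K'' : Ideal R, J ≤ K'' →
      (K''.map (Ideal.Quotient.mk J)).comap (Ideal.Quotient.mk J) = K'' := by
    intro K'' hK''
    rw [Ideal.comap_map_of_surjective _ Ideal.Quotient.mk_surjective, ← RingHom.ker_eq_comap_bot,
      Ideal.mk_ker]
    exact sup_eq_left.mpr hK''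
  have h3 : K.map (Ideal.Quotient.mk J) = K'.map (Ideal.Quotient.mk J) := h
  rw [← h2 K hK, h3, h2 K' hK']

end Quot

/-! ## Section PS: the power series ring -/
section PS

variable (𝒪) in
/-- the power series ring in `d` variables. -/
abbrev PS (d : ℕ) : Type := MvPowerSeries (Fin d) 𝒪

instance ps_isAdicComplete (d : ℕ) : IsAdicComplete (maximalIdeal (PS 𝒪 d)) (PS 𝒪 d) :=
  isAdicComplete_mvPowerSeries

instance ps_isLocalHom (d : ℕ) : IsLocalHom (algebraMap 𝒪 (PS 𝒪 d)) := by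
  constructor
  intro a ha
  rw [MvPowerSeries.algebraMap_apply, MvPowerSeries.isUnit_iff_constantCoeff,
    MvPowerSeries.constantCoeff_C] at ha
  exact ha

lemma ps_mem_maximalIdeal_iff (d : ℕ) (f : PS 𝒪 d) :
    f ∈ maximalIdeal (PS 𝒪 d) ↔ MvPowerSeries.constantCoeff f ∈ maximalIdeal 𝒪 :=
  mem_maximalIdeal_mvPowerSeries_iff

lemma ps_residue_surjective (d : ℕ) :
    Function.Surjective (residue (PS 𝒪 d) ∘ algebraMap 𝒪 (PS 𝒪 d)) := by
  intro x
  obtain ⟨f, rfl⟩ := residue_surjective x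
  refine ⟨MvPowerSeries.constantCoeff f, ?_⟩
  simp only [Function.comp_apply]
  rw [← sub_eq_zero, ← map_sub, residue_eq_zero_iff, ps_mem_maximalIdeal_iff, map_sub,
    MvPowerSeries.algebraMap_apply, MvPowerSeries.constantCoeff_C]
  simp

lemma ps_X_mem (d : ℕ) (i : Fin d) :
    (MvPowerSeries.X i : PS 𝒪 d) ∈ maximalIdeal (PS 𝒪 d) := by
  rw [ps_mem_maximalIdeal_iff, MvPowerSeries.constantCoeff_X]
  exact zero_mem _

/-- finiteness of `P / m^n` -/
lemma ps_finite_quotient_pow (d n : ℕ) : Finite (PS 𝒪 d ⧸ maximalIdeal (PS 𝒪 d) ^ n) := by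
  have : Finite (ResidueField (PS 𝒪 d)) :=
    finite_residueField_of_surjective (𝒪 := 𝒪) (ps_residue_surjective d)
  exact IsLocalRing.finite_quotient_iff.mpr ⟨n, le_rfl⟩

variable {A : Type} [CommRing A] [IsLocalRing A] [Algebra 𝒪 A]

/-- an `𝒪`-algebra hom from `P` to a test algebra maps `(X_i)^n` into `𝔪_A^n`. -/
lemma ps_algHom_map_span_X_pow_le (hA : IsArtinianTestAlgebra 𝒪 A) {d : ℕ}
    (u : PS 𝒪 d →ₐ[𝒪] A) (n : ℕ) (f : PS 𝒪 d)
    (hf : f ∈ (Ideal.span (Set.range MvPowerSeries.X) : Ideal (PS 𝒪 d)) ^ n) :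
    u f ∈ maximalIdeal A ^ n := by
  have hloc : IsLocalHom (u : PS 𝒪 d →+* A) := test_isLocalHom' hA u
  have h1 : (Ideal.span (Set.range MvPowerSeries.X) : Ideal (PS 𝒪 d)) ≤
      (maximalIdeal A).comap (u : PS 𝒪 d →+* A) := by
    rw [Ideal.span_le]
    rintro _ ⟨i, rfl⟩
    have hX := ps_X_mem (𝒪 := 𝒪) d i
    rw [SetLike.mem_coe, Ideal.mem_comap, mem_maximalIdeal, mem_nonunits_iff]
    intro hu
    exact (mem_maximalIdeal _).mp hX (hloc.map_nonunit _ hu)
  have h2 : (Ideal.span (Set.range MvPowerSeries.X) : Ideal (PS 𝒪 d)) ^ n ≤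
      (maximalIdeal A ^ n).comap (u : PS 𝒪 d →+* A) :=
    (Ideal.pow_right_mono h1 n).trans (Ideal.le_comap_pow _ n)
  exact h2 hf

/-- existence of `𝒪`-algebra homs out of `P` with prescribed images of the variables -/
theorem ps_exists_lift (hA : IsArtinianTestAlgebra 𝒪 A) {d : ℕ} (a : Fin d → A)
    (ha : ∀ i, a i ∈ maximalIdeal A) :
    ∃ u : PS 𝒪 d →ₐ[𝒪] A, ∀ i, u (MvPowerSeries.X i) = a i := by
  obtain ⟨N, hN⟩ := test_exists_pow_eq_bot hA
  have hker : ∀ q ∈ MvPolynomial.idealOfVars (Fin d) 𝒪 ^ (N + 2),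
      (MvPolynomial.aeval a : MvPolynomial (Fin d) 𝒪 →ₐ[𝒪] A) q = 0 := by
    intro q hq
    have h1 : MvPolynomial.idealOfVars (Fin d) 𝒪 ≤
        (maximalIdeal A).comap
          ((MvPolynomial.aeval a : MvPolynomial (Fin d) 𝒪 →ₐ[𝒪] A) :
            MvPolynomial (Fin d) 𝒪 →+* A) := by
      rw [MvPolynomial.idealOfVars, Ideal.span_le]
      rintro _ ⟨i, rfl⟩
      rw [SetLike.mem_coe, Ideal.mem_comap]
      simpa using ha i
    have h2 : MvPolynomial.idealOfVars (Fin d) 𝒪 ^ (N + 2) ≤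
        (maximalIdeal A ^ (N + 2)).comap
          ((MvPolynomial.aeval a : MvPolynomial (Fin d) 𝒪 →ₐ[𝒪] A) :
            MvPolynomial (Fin d) 𝒪 →+* A) :=
      (Ideal.pow_right_mono h1 (N + 2)).trans (Ideal.le_comap_pow _ (N + 2))
    have h3 := h2 hq
    rw [Ideal.mem_comap] at h3
    have h4 : maximalIdeal A ^ (N + 2) ≤ maximalIdeal A ^ N :=
      Ideal.pow_le_pow_right (by omega)
    have h5 := h4 h3
    rw [hN, Ideal.mem_bot] at h5
    exact h5
  have h1 : ∀ i : Fin d,
      MvPowerSeries.truncTotal (N + 2) (MvPowerSeries.X i : PS 𝒪 d) = MvPolynomial.X i := by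
    intro i
    rw [← MvPolynomial.coe_X, MvPowerSeries.truncTotal_coe_eq_self_iff _ (by omega),
      MvPolynomial.totalDegree_X]
    omega
  refine ⟨(Ideal.Quotient.liftₐ (MvPolynomial.idealOfVars (Fin d) 𝒪 ^ (N + 2))
      (MvPolynomial.aeval a : MvPolynomial (Fin d) 𝒪 →ₐ[𝒪] A) hker).comp
      ((MvPowerSeries.truncTotalAlgHom (Fin d) 𝒪 (N + 2)).restrictScalars 𝒪), fun i => ?_⟩
  rw [AlgHom.comp_apply, AlgHom.restrictScalars_apply, MvPowerSeries.truncTotalAlgHom_apply,
    h1 i]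
  exact (Ideal.Quotient.liftₐ_apply _ _ hker _).trans
    ((Ideal.Quotient.lift_mk _ _ _).trans (MvPolynomial.aeval_X a i))

/-- uniqueness of `𝒪`-algebra homs out of `P` into test algebras -/
theorem ps_algHom_ext (hA : IsArtinianTestAlgebra 𝒪 A) {d : ℕ} (u v : PS 𝒪 d →ₐ[𝒪] A)
    (h : ∀ i, u (MvPowerSeries.X i) = v (MvPowerSeries.X i)) : u = v := by
  obtain ⟨N, hN⟩ := test_exists_pow_eq_bot hA
  -- `u` and `v` agree on polynomials
  have hpoly : u.comp (MvPolynomial.coeToMvPowerSeries.algHom (σ := Fin d) (R := 𝒪) 𝒪) =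
      v.comp (MvPolynomial.coeToMvPowerSeries.algHom (σ := Fin d) (R := 𝒪) 𝒪) := by
    apply MvPolynomial.algHom_ext
    intro i
    simpa using h i
  -- both kill `(X_i)^N`
  have hkill : ∀ w : PS 𝒪 d →ₐ[𝒪] A, ∀ f : PS 𝒪 d,
      f ∈ (Ideal.span (Set.range MvPowerSeries.X) : Ideal (PS 𝒪 d)) ^ N → w f = 0 := by
    intro w f hf
    have := ps_algHom_map_span_X_pow_le hA w N f hf
    rwa [hN, Ideal.mem_bot] at this
  ext f
  have htail : f - ((MvPowerSeries.truncTotal N f : MvPolynomial (Fin d) 𝒪) : PS 𝒪 d) ∈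
      (Ideal.span (Set.range MvPowerSeries.X) : Ideal (PS 𝒪 d)) ^ N := by
    apply mem_span_X_pow_of_coeff_eq_zero
    intro α hα
    rw [map_sub, MvPolynomial.coeff_coe, MvPowerSeries.coeff_truncTotal _ hα, sub_self]
  have hu := hkill u _ htail
  have hv := hkill v _ htail
  rw [map_sub, sub_eq_zero] at hu hv
  have hq := DFunLike.congr_fun hpoly (MvPowerSeries.truncTotal N f)
  simp only [AlgHom.comp_apply, MvPolynomial.coeToMvPowerSeries.algHom_apply] at hq
  rw [hu, hv]
  exact hq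

end PS

end Fermat.Agent.S53
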