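import Fermat.Agent.S53.Defs
import Fermat.Agent.S53.RingsA
import Fermat.Agent.S53.RingsB

/-!
# S53 / M1 — ring infrastructure: INTERFACE used by Core.lean

All sections are now proved (sorry-free):
* sections `Test`, `Pair`, `Triv` are in `RingsA.lean`, section `Chev` in `Chevalley.lean`;
* sections `PS`, `Quot` are in `RingsB.lean` (completeness of the power series ring is in
  `PowerSeriesComplete.lean`).

This file only re-exports them (together with `Defs.lean`).
-/
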