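import Fermat.Agent.S53.MatRep
import Fermat.Agent.S53.RingsSpec

/-!
# S53 / Core K0 — the deformation condition in matrix form
-/

set_option autoImplicit false
set_option linter.unusedSectionVars false

noncomputable section

namespace Fermat.Agent.S53

open IsLocalRing GaloisRep

variable {𝒪 : Type} [CommRing 𝒪] [IsDomain 𝒪] [IsDiscreteValuationRing 𝒪]
  [IsAdicComplete (maximalIdeal 𝒪) 𝒪] [Finite (ResidueField 𝒪)]
  (𝒟 : ∀ ⦃A : Type⦄ [CommRing A] [IsLocalRing A] [Algebra 𝒪 A], GaloisRepAdic A → Prop)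

/-- `r` is continuous and `matRep r` satisfies the deformation condition. -/
def IsDLift {A : Type} [CommRing A] [IsLocalRing A] [Algebra 𝒪 A] (r : GQ →* M2 A) : Prop :=
  ∃ hr : MatCont r, 𝒟 (matRep r hr)

variable {𝒟}

lemma IsDLift.matCont {A : Type} [CommRing A] [IsLocalRing A] [Algebra 𝒪 A] {r : GQ →* M2 A}
    (h : IsDLift 𝒟 r) : MatCont r := h.1

/-- continuity over a test algebra: trivial on an open subgroup. -/
lemma matCont_test_iff {A : Type} [CommRing A] [IsLocalRing A] [Algebra 𝒪 A]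
    (hA : IsArtinianTestAlgebra 𝒪 A) (r : GQ →* M2 A) :
    MatCont r ↔ ∃ L : IntermediateField ℚ (AlgebraicClosure ℚ), FiniteDimensional ℚ L ∧
      ∀ σ : GQ, (∀ x ∈ L, σ x = x) → r σ = 1 := by
  constructor
  · intro h
    obtain ⟨n, hn⟩ := test_exists_pow_eq_bot hA
    obtain ⟨L, hL, hσ⟩ := h n
    refine ⟨L, hL, fun σ hs => ?_⟩
    ext i j
    have := hσ σ hs i j
    rw [hn, Ideal.mem_bot, sub_eq_zero] at this
    exact this
  · rintro ⟨L, hL, hσ⟩ n
    refine ⟨L, hL, fun σ hs i j => ?_⟩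
    rw [hσ σ hs, sub_self]
    exact Ideal.zero_mem _

/-- push-forward of deformations along algebra homs of test algebras. -/
lemma IsDLift.map (h𝒟 : IsDeformationCondition 𝒪 𝒟)
    {A B : Type} [CommRing A] [IsLocalRing A] [Algebra 𝒪 A]
    [CommRing B] [IsLocalRing B] [Algebra 𝒪 B]
    (hA : IsArtinianTestAlgebra 𝒪 A) (hB : IsArtinianTestAlgebra 𝒪 B)
    (φ : A →ₐ[𝒪] B) {r : GQ →* M2 A} (h : IsDLift 𝒟 r) :
    IsDLift 𝒟 (mapRep (φ : A →+* B) r) := by
  obtain ⟨hr, hD⟩ := h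
  have hφ : IsLocalHom (φ : A →+* B) := test_isLocalHom hB.isLocalHom hB.residue_surjective φ
  have hr' : MatCont (mapRep (φ : A →+* B) r) := hr.mapRep (φ : A →+* B)
  refine ⟨hr', ?_⟩
  have h1 := h𝒟.baseChangeAlong hA hB φ hφ hD
  exact h𝒟.of_isEquiv hB (matRep_baseChangeAlong (φ : A →+* B) hφ r hr hr') h1

/-- conjugation invariance. -/
lemma IsDLift.conj (h𝒟 : IsDeformationCondition 𝒪 𝒟)
    {A : Type} [CommRing A] [IsLocalRing A] [Algebra 𝒪 A]
    (hA : IsArtinianTestAlgebra 𝒪 A) {r r' : GQ →* M2 A} (hc : Conj r r') (h : IsDLift 𝒟 r) :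
    IsDLift 𝒟 r' := by
  obtain ⟨hr, hD⟩ := h
  have hr' : MatCont r' := hr.conj hc
  exact ⟨hr', h𝒟.of_isEquiv hA ((matRep_isEquiv_iff r r' hr hr').2 hc) hD⟩

/-- gluing along a fibre product. -/
lemma IsDLift.glue (h𝒟 : IsDeformationCondition 𝒪 𝒟)
    {A B C P : Type} [CommRing A] [IsLocalRing A] [Algebra 𝒪 A]
    [CommRing B] [IsLocalRing B] [Algebra 𝒪 B] [CommRing C] [IsLocalRing C] [Algebra 𝒪 C]
    [CommRing P] [IsLocalRing P] [Algebra 𝒪 P]
    (hA : IsArtinianTestAlgebra 𝒪 A) (hB : IsArtinianTestAlgebra 𝒪 B)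
    (hC : IsArtinianTestAlgebra 𝒪 C) (hP : IsArtinianTestAlgebra 𝒪 P)
    (f : A →ₐ[𝒪] C) (g : B →ₐ[𝒪] C) (pA : P →ₐ[𝒪] A) (pB : P →ₐ[𝒪] B)
    (hcomm : f.comp pA = g.comp pB)
    (hinj : Function.Injective (fun x => (pA x, pB x)))
    (hsurj : ∀ a b, f a = g b → ∃ x, pA x = a ∧ pB x = b)
    {r : GQ →* M2 P} (hr : MatCont r)
    (h1 : IsDLift 𝒟 (mapRep (pA : P →+* A) r)) (h2 : IsDLift 𝒟 (mapRep (pB : P →+* B) r)) :
    IsDLift 𝒟 r := by
  obtain ⟨hr1, hD1⟩ := h1
  obtain ⟨hr2, hD2⟩ := h2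
  have hpA : IsLocalHom (pA : P →+* A) := test_isLocalHom hA.isLocalHom hA.residue_surjective pA
  have hpB : IsLocalHom (pB : P →+* B) := test_isLocalHom hB.isLocalHom hB.residue_surjective pB
  refine ⟨hr, h𝒟.of_fibreProduct hA hB hC hP f g pA pB hpA hpB hcomm hinj hsurj ?_ ?_⟩
  · have e := matRep_baseChangeAlong (pA : P →+* A) hpA r hr hr1
    obtain ⟨e'⟩ := e
    exact h𝒟.of_isEquiv hA ⟨e'.symm⟩ hD1
  · have e := matRep_baseChangeAlong (pB : P →+* B) hpB r hr hr2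
    obtain ⟨e'⟩ := e
    exact h𝒟.of_isEquiv hB ⟨e'.symm⟩ hD2

/-- continuity can be checked after a jointly injective pair of maps (test algebras). -/
lemma matCont_of_jointly_injective
    {A B P : Type} [CommRing A] [IsLocalRing A] [Algebra 𝒪 A]
    [CommRing B] [IsLocalRing B] [Algebra 𝒪 B]
    [CommRing P] [IsLocalRing P] [Algebra 𝒪 P]
    (hA : IsArtinianTestAlgebra 𝒪 A) (hB : IsArtinianTestAlgebra 𝒪 B)
    (hP : IsArtinianTestAlgebra 𝒪 P)
    (pA : P →+* A) (pB : P →+* B)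
    (hinj : Function.Injective (fun x => (pA x, pB x)))
    {r : GQ →* M2 P} (h1 : MatCont (mapRep pA r)) (h2 : MatCont (mapRep pB r)) :
    MatCont r := by
  rw [matCont_test_iff hP]
  obtain ⟨L1, hL1, h1⟩ := (matCont_test_iff hA _).1 h1
  obtain ⟨L2, hL2, h2⟩ := (matCont_test_iff hB _).1 h2
  refine ⟨L1 ⊔ L2, IntermediateField.finiteDimensional_sup L1 L2, fun σ hσ => ?_⟩
  have e1 := h1 σ (fun x hx => hσ x ((le_sup_left : L1 ≤ L1 ⊔ L2) hx))
  have e2 := h2 σ (fun x hx => hσ x ((le_sup_right : L2 ≤ L1 ⊔ L2) hx))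
  ext i j
  apply hinj
  have e1' := congrFun (congrFun e1 i) j
  have e2' := congrFun (congrFun e2 i) j
  simp only [mapRep_apply] at e1' e2'
  simp only [Prod.mk.injEq]
  constructor
  · rw [e1']
    by_cases hij : i = j
    · subst hij; simp
    · simp [Matrix.one_apply_ne hij]
  · rw [e2']
    by_cases hij : i = j
    · subst hij; simp
    · simp [Matrix.one_apply_ne hij]

/-- a function `GQ → M2 P` whose images under a jointly injective pair of ring homs are
monoid homs is a monoid hom. -/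
lemma monoidHom_of_jointly_injective {A B P : Type} [CommRing A] [CommRing B] [CommRing P]
    (pA : P →+* A) (pB : P →+* B) (hinj : Function.Injective (fun x => (pA x, pB x)))
    (s : GQ → M2 P) (rA : GQ →* M2 A) (rB : GQ →* M2 B)
    (hA : ∀ g, (s g).map pA = rA g) (hB : ∀ g, (s g).map pB = rB g) :
    ∃ r : GQ →* M2 P, ∀ g, r g = s g := by
  have key : ∀ X Y : M2 P, X.map pA = Y.map pA → X.map pB = Y.map pB → X = Y := by
    intro X Y h1 h2
    ext i j
    apply hinj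
    have e1 := congrFun (congrFun h1 i) j
    have e2 := congrFun (congrFun h2 i) j
    simp only [Matrix.map_apply] at e1 e2
    simp only [Prod.mk.injEq]
    exact ⟨e1, e2⟩
  refine ⟨{ toFun := s, map_one' := ?_, map_mul' := ?_ }, fun g => rfl⟩
  · apply key
    · rw [hA, map_one, Matrix.map_one _ (map_zero pA) (map_one pA)]
    · rw [hB, map_one, Matrix.map_one _ (map_zero pB) (map_one pB)]
  · intro g h
    apply key
    · rw [hA, map_mul, Matrix.map_mul, hA, hA]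
    · rw [hB, map_mul, Matrix.map_mul, hB, hB]

/-- gluing two `𝒟`-lifts that agree over `C` to a `𝒟`-lift over the fibre product. -/
theorem IsDLift.glue_exists (h𝒟 : IsDeformationCondition 𝒪 𝒟)
    {A B C P : Type} [CommRing A] [IsLocalRing A] [Algebra 𝒪 A]
    [CommRing B] [IsLocalRing B] [Algebra 𝒪 B] [CommRing C] [IsLocalRing C] [Algebra 𝒪 C]
    [CommRing P] [IsLocalRing P] [Algebra 𝒪 P]
    (hA : IsArtinianTestAlgebra 𝒪 A) (hB : IsArtinianTestAlgebra 𝒪 B)
    (hC : IsArtinianTestAlgebra 𝒪 C) (hP : IsArtinianTestAlgebra 𝒪 P)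
    (f : A →ₐ[𝒪] C) (g : B →ₐ[𝒪] C) (pA : P →ₐ[𝒪] A) (pB : P →ₐ[𝒪] B)
    (hcomm : f.comp pA = g.comp pB)
    (hinj : Function.Injective (fun x => (pA x, pB x)))
    (hsurj : ∀ a b, f a = g b → ∃ x, pA x = a ∧ pB x = b)
    {rA : GQ →* M2 A} {rB : GQ →* M2 B} (h1 : IsDLift 𝒟 rA) (h2 : IsDLift 𝒟 rB)
    (hAB : mapRep (f : A →+* C) rA = mapRep (g : B →+* C) rB) :
    ∃ r : GQ →* M2 P, IsDLift 𝒟 r ∧ mapRep (pA : P →+* A) r = rA ∧
      mapRep (pB : P →+* B) r = rB := by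
  have hex : ∀ (σ : GQ) (i j : Fin 2), ∃ x, pA x = rA σ i j ∧ pB x = rB σ i j := by
    intro σ i j
    apply hsurj
    exact congrFun (congrFun (congrArg (fun r => r σ) hAB) i) j
  choose s hs1 hs2 using hex
  obtain ⟨r, hr⟩ := monoidHom_of_jointly_injective (pA : P →+* A) (pB : P →+* B) hinj
    (fun σ => Matrix.of (s σ)) rA rB
    (fun σ => Matrix.ext fun i j => hs1 σ i j) (fun σ => Matrix.ext fun i j => hs2 σ i j)
  have e1 : mapRep (pA : P →+* A) r = rA := by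
    refine MonoidHom.ext fun σ => Matrix.ext fun i j => ?_
    rw [mapRep_apply, hr]
    exact hs1 σ i j
  have e2 : mapRep (pB : P →+* B) r = rB := by
    refine MonoidHom.ext fun σ => Matrix.ext fun i j => ?_
    rw [mapRep_apply, hr]
    exact hs2 σ i j
  have hcont : MatCont r :=
    matCont_of_jointly_injective hA hB hP (pA : P →+* A) (pB : P →+* B) hinj
      (by rw [e1]; exact h1.matCont) (by rw [e2]; exact h2.matCont)
  exact ⟨r, IsDLift.glue h𝒟 hA hB hC hP f g pA pB hcomm hinj hsurj hcont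
    (by rw [e1]; exact h1) (by rw [e2]; exact h2), e1, e2⟩

end Fermat.Agent.S53
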