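import Mathlib
import Fermat.Prelude.Def_GaloisRep_DeformationRingData
import Fermat.Prelude.Def_GaloisRep_DeformationCondition

/-!
# S53 — shared definitions (matrix form of deformations)

All names live in `Fermat.Agent.S53`.  This file contains ONLY definitions and tiny lemmas;
it is imported by every other S53 module.
-/

set_option autoImplicit false

noncomputable section

namespace Fermat.Agent.S53

open IsLocalRing

/-- The absolute Galois group of `ℚ`. -/
abbrev GQ : Type := AlgebraicClosure ℚ ≃ₐ[ℚ] AlgebraicClosure ℚ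

/-- `2 × 2` matrices. -/
abbrev M2 (A : Type) : Type := Matrix (Fin 2) (Fin 2) A

/-- Matrices act on column vectors: the monoid hom `M₂(A) →* End_A(A²)`. -/
def matEnd (A : Type) [CommRing A] : M2 A →* Module.End A (Fin 2 → A) :=
  (Matrix.toLinAlgEquiv' : Matrix (Fin 2) (Fin 2) A ≃ₐ[A] _).toAlgHom.toRingHom.toMonoidHom

@[simp] lemma matEnd_apply (A : Type) [CommRing A] (M : M2 A) (v : Fin 2 → A) :
    matEnd A M v = M.mulVec v := rfl

/-- Push a matrix representation forward along a ring hom. -/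
def mapRep {A B : Type} [CommRing A] [CommRing B] (φ : A →+* B) (r : GQ →* M2 A) : GQ →* M2 B :=
  (RingHom.mapMatrix φ : M2 A →+* M2 B).toMonoidHom.comp r

@[simp] lemma mapRep_apply {A B : Type} [CommRing A] [CommRing B] (φ : A →+* B) (r : GQ →* M2 A)
    (g : GQ) (i j : Fin 2) : mapRep φ r g i j = φ (r g i j) := rfl

lemma mapRep_apply' {A B : Type} [CommRing A] [CommRing B] (φ : A →+* B) (r : GQ →* M2 A)
    (g : GQ) : mapRep φ r g = (r g).map φ := rfl

lemma mapRep_mapRep {A B C : Type} [CommRing A] [CommRing B] [CommRing C] (φ : A →+* B)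
    (ψ : B →+* C) (r : GQ →* M2 A) : mapRep ψ (mapRep φ r) = mapRep (ψ.comp φ) r := rfl

lemma mapRep_id {A : Type} [CommRing A] (r : GQ →* M2 A) : mapRep (RingHom.id A) r = r := by
  ext g i j; rfl

/-- Adic continuity of a matrix-valued representation. -/
def MatCont {A : Type} [CommRing A] [IsLocalRing A] (r : GQ →* M2 A) : Prop :=
  ∀ n : ℕ, ∃ L : IntermediateField ℚ (AlgebraicClosure ℚ), FiniteDimensional ℚ L ∧
    ∀ σ : GQ, (∀ x ∈ L, σ x = x) → ∀ i j, r σ i j - (1 : M2 A) i j ∈ maximalIdeal A ^ n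

/-- Two matrix representations are conjugate. -/
def Conj {A : Type} [CommRing A] (r r' : GQ →* M2 A) : Prop :=
  ∃ γ : (M2 A)ˣ, ∀ g, r' g = γ * r g * ((γ⁻¹ : (M2 A)ˣ) : M2 A)

section rhobar

variable {k : Type} [Field k] (ρbar : ResidualGaloisRep k)

/-- A fixed basis of the residual representation. -/
def rhobarBasis : Module.Basis (Fin 2) k ρbar.V :=
  Module.finBasisOfFinrankEq k ρbar.V ρbar.finrank_eq

/-- The residual representation in matrix form. -/
def rhobarM : GQ →* M2 k :=
  (LinearMap.toMatrixAlgEquiv (rhobarBasis ρbar)).toAlgHom.toRingHom.toMonoidHom.comp ρbar.ρ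

lemma rhobarM_apply (g : GQ) :
    rhobarM ρbar g = LinearMap.toMatrix (rhobarBasis ρbar) (rhobarBasis ρbar) (ρbar.ρ g) := rfl

end rhobar

section lifts

variable {𝒪 : Type} [CommRing 𝒪] [IsLocalRing 𝒪]
  (ρbar : ResidualGaloisRep (ResidueField 𝒪))

/-- `r` reduces EXACTLY to `ρbar` (in the fixed basis) modulo the maximal ideal. -/
def IsExact {A : Type} [CommRing A] [IsLocalRing A] [Algebra 𝒪 A] [IsLocalHom (algebraMap 𝒪 A)]
    (r : GQ →* M2 A) : Prop :=
  mapRep (residue A) r = mapRep (ResidueField.map (algebraMap 𝒪 A)) (rhobarM ρbar)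

end lifts

end Fermat.Agent.S53
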