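import Fermat.Agent.S53.Defs

/-!
# S53 — API for `IsExact` (exact lifts of `ρM`) and for conjugation
-/

set_option autoImplicit false
set_option linter.unusedSectionVars false

noncomputable section

namespace Fermat.Agent.S53

open IsLocalRing

/-- conjugate of a representation by a unit. -/
def conjRep {A : Type} [CommRing A] (γ : (M2 A)ˣ) (r : GQ →* M2 A) : GQ →* M2 A where
  toFun g := γ * r g * ((γ⁻¹ : (M2 A)ˣ) : M2 A)
  map_one' := by simp
  map_mul' g h := by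
    rw [map_mul]
    have : ((γ⁻¹ : (M2 A)ˣ) : M2 A) * (γ : M2 A) = 1 := Units.inv_mul γ
    calc (γ : M2 A) * (r g * r h) * ((γ⁻¹ : (M2 A)ˣ) : M2 A)
        = (γ : M2 A) * r g * (1 : M2 A) * r h * ((γ⁻¹ : (M2 A)ˣ) : M2 A) := by
          simp [mul_assoc]
      _ = _ := by rw [← this]; simp only [mul_assoc]

@[simp] lemma conjRep_apply {A : Type} [CommRing A] (γ : (M2 A)ˣ) (r : GQ →* M2 A) (g : GQ) :
    conjRep γ r g = γ * r g * ((γ⁻¹ : (M2 A)ˣ) : M2 A) := rfl

lemma conj_conjRep {A : Type} [CommRing A] (γ : (M2 A)ˣ) (r : GQ →* M2 A) :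
    Conj r (conjRep γ r) := ⟨γ, fun _ => rfl⟩

lemma Conj.refl {A : Type} [CommRing A] (r : GQ →* M2 A) : Conj r r :=
  ⟨1, fun g => by simp⟩

lemma Conj.symm {A : Type} [CommRing A] {r r' : GQ →* M2 A} (h : Conj r r') : Conj r' r := by
  obtain ⟨γ, hγ⟩ := h
  refine ⟨γ⁻¹, fun g => ?_⟩
  rw [hγ g, inv_inv]
  have h1 : ((γ⁻¹ : (M2 A)ˣ) : M2 A) * (γ : M2 A) = 1 := Units.inv_mul γ
  calc r g = 1 * r g * 1 := by simp
    _ = (((γ⁻¹ : (M2 A)ˣ) : M2 A) * (γ : M2 A)) * r g *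
        (((γ⁻¹ : (M2 A)ˣ) : M2 A) * (γ : M2 A)) := by rw [h1]
    _ = _ := by simp only [mul_assoc]

lemma Conj.trans {A : Type} [CommRing A] {r r' r'' : GQ →* M2 A} (h : Conj r r')
    (h' : Conj r' r'') : Conj r r'' := by
  obtain ⟨γ, hγ⟩ := h
  obtain ⟨γ', hγ'⟩ := h'
  refine ⟨γ' * γ, fun g => ?_⟩
  rw [hγ' g, hγ g, mul_inv_rev]
  simp only [Units.val_mul, mul_assoc]

lemma Conj.map {A B : Type} [CommRing A] [CommRing B] (φ : A →+* B) {r r' : GQ →* M2 A}
    (h : Conj r r') : Conj (mapRep φ r) (mapRep φ r') := by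
  obtain ⟨γ, hγ⟩ := h
  refine ⟨Units.map (RingHom.mapMatrix φ : M2 A →+* M2 B).toMonoidHom γ, fun g => ?_⟩
  show (RingHom.mapMatrix φ : M2 A →+* M2 B) (r' g) = _
  rw [hγ g, map_mul, map_mul]
  rfl

section exact

variable {𝒪 : Type} [CommRing 𝒪] [IsLocalRing 𝒪]
  (ρbar : ResidualGaloisRep (ResidueField 𝒪))

/-- entrywise characterisation of exactness. -/
lemma isExact_iff {A : Type} [CommRing A] [IsLocalRing A] [Algebra 𝒪 A]
    [IsLocalHom (algebraMap 𝒪 A)] (r : GQ →* M2 A) :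
    IsExact ρbar r ↔ ∀ (g : GQ) (i j : Fin 2) (o : 𝒪), residue 𝒪 o = rhobarM ρbar g i j →
      r g i j - algebraMap 𝒪 A o ∈ maximalIdeal A := by
  constructor
  · intro h g i j o ho
    have := congrFun (congrFun (congrArg (fun r => r g) h) i) j
    simp only [mapRep_apply] at this
    rw [← ho, ResidueField.map_residue] at this
    rw [← residue_eq_zero_iff, map_sub, this, sub_self]
  · intro h
    refine MonoidHom.ext fun g => Matrix.ext fun i j => ?_
    simp only [mapRep_apply]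
    obtain ⟨o, ho⟩ := Ideal.Quotient.mk_surjective (rhobarM ρbar g i j)
    have := h g i j o ho
    rw [← residue_eq_zero_iff, map_sub, sub_eq_zero] at this
    rw [this, ← ResidueField.map_residue]
    congr 1

variable {ρbar}

/-- exactness is preserved by `𝒪`-algebra homs. -/
lemma IsExact.map {A B : Type} [CommRing A] [IsLocalRing A] [Algebra 𝒪 A]
    [IsLocalHom (algebraMap 𝒪 A)] [CommRing B] [IsLocalRing B] [Algebra 𝒪 B]
    [IsLocalHom (algebraMap 𝒪 B)] (φ : A →ₐ[𝒪] B) (hφ : IsLocalHom (φ : A →+* B))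
    {r : GQ →* M2 A} (h : IsExact ρbar r) : IsExact ρbar (mapRep (φ : A →+* B) r) := by
  rw [isExact_iff] at h ⊢
  intro g i j o ho
  have h1 := h g i j o ho
  have h2 : (φ : A →+* B) (r g i j - algebraMap 𝒪 A o) ∈ maximalIdeal B := by
    rw [mem_maximalIdeal, mem_nonunits_iff] at h1 ⊢
    intro hu
    exact h1 (hφ.map_nonunit _ hu)
  simpa using h2

/-- exactness can be checked after an `𝒪`-algebra hom. -/
lemma IsExact.of_map {A B : Type} [CommRing A] [IsLocalRing A] [Algebra 𝒪 A]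
    [IsLocalHom (algebraMap 𝒪 A)] [CommRing B] [IsLocalRing B] [Algebra 𝒪 B]
    [IsLocalHom (algebraMap 𝒪 B)] (φ : A →ₐ[𝒪] B)
    {r : GQ →* M2 A} (h : IsExact ρbar (mapRep (φ : A →+* B) r)) : IsExact ρbar r := by
  rw [isExact_iff] at h ⊢
  intro g i j o ho
  have h1 := h g i j o ho
  rw [mem_maximalIdeal, mem_nonunits_iff] at h1 ⊢
  intro hu
  apply h1
  have : (φ : A →+* B) (r g i j - algebraMap 𝒪 A o) =
      mapRep (φ : A →+* B) r g i j - algebraMap 𝒪 B o := by simp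
  rw [← this]
  exact hu.map _

end exact

end Fermat.Agent.S53
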