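import Fermat.Agent.S53.RingsSpec

/-!
# S53 / Core K3a — limits of compatible families of matrix representations
-/

set_option autoImplicit false
set_option linter.unusedSectionVars false

noncomputable section

namespace Fermat.Agent.S53

open IsLocalRing

/-- the maps `R ⧸ ⨅ J q → R ⧸ J q` are jointly injective. -/
lemma quot_iInf_ext {R : Type} [CommRing R] (J : ℕ → Ideal R) (x y : R ⧸ ⨅ q, J q)
    (h : ∀ q, Ideal.Quotient.factor (iInf_le J q) x = Ideal.Quotient.factor (iInf_le J q) y) :
    x = y := by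
  obtain ⟨a, rfl⟩ := Ideal.Quotient.mk_surjective x
  obtain ⟨b, rfl⟩ := Ideal.Quotient.mk_surjective y
  rw [Ideal.Quotient.eq, Ideal.mem_iInf]
  intro q
  have := h q
  rwa [Ideal.Quotient.factor_mk, Ideal.Quotient.factor_mk, Ideal.Quotient.eq] at this

lemma quot_iInf_mat_ext {R : Type} [CommRing R] (J : ℕ → Ideal R) (X Y : M2 (R ⧸ ⨅ q, J q))
    (h : ∀ q, X.map (Ideal.Quotient.factor (iInf_le J q)) =
      Y.map (Ideal.Quotient.factor (iInf_le J q))) : X = Y := by
  refine Matrix.ext fun i j => quot_iInf_ext J _ _ fun q => ?_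
  exact congrFun (congrFun (h q) i) j

/-- a compatible family of representations over the quotients `R ⧸ J q` comes from a
representation over `R ⧸ ⨅ q, J q`. -/
theorem exists_limit_rep {R : Type} [CommRing R] [IsLocalRing R] [IsNoetherianRing R]
    [IsAdicComplete (maximalIdeal R) R]
    (J : ℕ → Ideal R) (hJ : Antitone J) (r : ∀ q, GQ →* M2 (R ⧸ J q))
    (hcompat : ∀ q, mapRep (Ideal.Quotient.factor (hJ (Nat.le_succ q))) (r (q + 1)) = r q) :
    ∃ r' : GQ →* M2 (R ⧸ ⨅ q, J q),
      ∀ q, mapRep (Ideal.Quotient.factor (iInf_le J q)) r' = r q := by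
  have hex : ∀ (g : GQ) (i j : Fin 2), ∃ x : R, ∀ q, Ideal.Quotient.mk (J q) x = r q g i j := by
    intro g i j
    have hf : ∀ q, ∃ y : R, Ideal.Quotient.mk (J q) y = r q g i j :=
      fun q => Ideal.Quotient.mk_surjective _
    choose f hf using hf
    have hstep : ∀ q, f (q + 1) - f q ∈ J q := by
      intro q
      rw [← Ideal.Quotient.eq, hf q, ← hcompat q, mapRep_apply, ← hf (q + 1),
        Ideal.Quotient.factor_mk]
    obtain ⟨x, hx⟩ := exists_limit J hJ f hstep
    exact ⟨x, fun q => by rw [← hf q, Ideal.Quotient.eq]; exact hx q⟩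
  choose s hs using hex
  have hmap : ∀ (g : GQ) (q : ℕ),
      (Matrix.of fun i j => Ideal.Quotient.mk (⨅ q, J q) (s g i j)).map
        (Ideal.Quotient.factor (iInf_le J q)) = r q g := by
    intro g q
    refine Matrix.ext fun i j => ?_
    simp only [Matrix.map_apply, Matrix.of_apply, Ideal.Quotient.factor_mk]
    exact hs g i j q
  refine ⟨{ toFun := fun g => Matrix.of fun i j => Ideal.Quotient.mk (⨅ q, J q) (s g i j)
            map_one' := ?_
            map_mul' := ?_ }, ?_⟩
  · refine quot_iInf_mat_ext J _ _ fun q => ?_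
    rw [hmap, map_one, Matrix.map_one _ (map_zero _) (map_one _)]
  · intro g h
    refine quot_iInf_mat_ext J _ _ fun q => ?_
    rw [hmap, Matrix.map_mul, hmap, hmap, map_mul]
  · intro q
    refine MonoidHom.ext fun g => ?_
    exact hmap g q

end Fermat.Agent.S53
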