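import Fermat.Agent.S53.Defs

/-!
# S53 / M0 — translation between `GaloisRepAdic` and matrix representations

OWNER: helper9.  The statements of the agreed interface (`matCont_iff`, `matRep`, `MatCont.mapRep`,
`MatCont.conj`, `matRep_baseChangeAlong`, `matRep_isEquiv_iff`, `exists_matRep`,
`exists_exact_matRep`, `matRep_residual_isEquiv`, `residual_isEquiv_of_isEquiv`,
`cond_of_isEquiv`) are unchanged; everything else is auxiliary (and may be used freely).

Extra API: `toMat`, `matCont_toMat`, `equivMatRepToMat`, `isEquiv_trans/symm/refl`,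
`isEquiv_baseChangeAlong`, `conjMat` (+ `conj_conjMat`, `MatCont.conjMat`, `IsExact.conjMat`),
`isExact_iff_residue`, `IsExact.mapRep`, `conj_iff`.
(`Conj.refl/symm/trans/map`, `isExact_iff`, `conjRep` live in `Exact.lean`.)
-/

set_option autoImplicit false
set_option linter.style.haveILetI false
set_option linter.unusedSimpArgs false
set_option linter.unusedVariables false
set_option linter.unusedSectionVars false

noncomputable section

namespace Fermat.Agent.S53

open IsLocalRing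

/-! ### Auxiliary: membership in `I • ⊤` -/

theorem mem_smul_top_pi_iff {A : Type} [CommRing A] {ι : Type} [Fintype ι] [DecidableEq ι]
    (I : Ideal A) (w : ι → A) :
    w ∈ I • (⊤ : Submodule A (ι → A)) ↔ ∀ i, w i ∈ I := by
  constructor
  · intro hw
    refine Submodule.smul_induction_on hw ?_ ?_
    · intro a ha v _ i
      simpa using I.mul_mem_right (v i) ha
    · intro x y hx hy i
      simpa using I.add_mem (hx i) (hy i)
  · intro hw
    have : w = ∑ i, w i • (Pi.single i (1 : A) : ι → A) := by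
      ext j
      simp [Finset.sum_apply, Pi.single_apply]
    rw [this]
    exact Submodule.sum_mem _ fun i _ => Submodule.smul_mem_smul (hw i) Submodule.mem_top

/-- coordinates w.r.t. a basis of elements of `I • ⊤` lie in `I`. -/
theorem repr_mem_of_mem_smul_top {A V : Type} [CommRing A] [AddCommGroup V] [Module A V]
    {ι : Type} [Fintype ι] (b : Module.Basis ι A V) (I : Ideal A) {v : V}
    (hv : v ∈ I • (⊤ : Submodule A V)) (i : ι) : b.repr v i ∈ I := by
  refine Submodule.smul_induction_on hv ?_ ?_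
  · intro a ha w _
    simpa using I.mul_mem_right (b.repr w i) ha
  · intro x y hx hy
    simpa using I.add_mem hx hy

theorem mem_smul_top_of_repr_mem {A V : Type} [CommRing A] [AddCommGroup V] [Module A V]
    {ι : Type} [Fintype ι] (b : Module.Basis ι A V) (I : Ideal A) {v : V}
    (hv : ∀ i, b.repr v i ∈ I) : v ∈ I • (⊤ : Submodule A V) := by
  rw [← b.sum_repr v]
  exact Submodule.sum_mem _ fun i _ => Submodule.smul_mem_smul (hv i) Submodule.mem_top

/-! ### `MatCont` and `matRep` -/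

lemma matCont_iff {A : Type} [CommRing A] [IsLocalRing A] (r : GQ →* M2 A) :
    MatCont r ↔ GaloisActionIsAdicContinuous A ((matEnd A).comp r) := by
  constructor
  · intro hr n
    obtain ⟨L, hL, h⟩ := hr n
    refine ⟨L, hL, fun σ hσ v => ?_⟩
    rw [mem_smul_top_pi_iff]
    intro i
    have h1 : (((matEnd A).comp r) σ v - v) = (r σ - 1).mulVec v := by
      rw [Matrix.sub_mulVec, Matrix.one_mulVec]; rfl
    rw [h1]
    show ∑ j, (r σ - 1) i j * v j ∈ _
    exact Ideal.sum_mem _ fun j _ => Ideal.mul_mem_right _ _ (h σ hσ i j)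
  · intro hr n
    obtain ⟨L, hL, h⟩ := hr n
    refine ⟨L, hL, fun σ hσ i j => ?_⟩
    have h0 := h σ hσ (Pi.single j (1 : A))
    rw [mem_smul_top_pi_iff] at h0
    have h1 := h0 i
    have h2 : ((((matEnd A).comp r) σ (Pi.single j (1 : A)) - Pi.single j (1 : A) :
        Fin 2 → A)) i = r σ i j - (1 : M2 A) i j := by
      show ((r σ).mulVec (Pi.single j (1 : A))) i - (Pi.single j (1 : A) : Fin 2 → A) i = _
      rw [Matrix.mulVec_single_one, Matrix.one_apply]
      congr 1
      by_cases hij : i = j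
      · simp [hij]
      · simp [hij, Ne.symm hij]
    rw [h2] at h1
    exact h1

/-- The adic Galois representation attached to a continuous matrix representation. -/
def matRep {A : Type} [CommRing A] [IsLocalRing A] (r : GQ →* M2 A) (hr : MatCont r) :
    GaloisRepAdic A where
  V := Fin 2 → A
  finrank_eq := by simp
  ρ := (matEnd A).comp r
  isAdicContinuous := (matCont_iff r).1 hr

theorem matRep_ρ_apply {A : Type} [CommRing A] [IsLocalRing A] (r : GQ →* M2 A)
    (hr : MatCont r) (σ : GQ) (v : Fin 2 → A) :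
    (matRep r hr).ρ σ v = (r σ).mulVec v := rfl

theorem map_maximalIdeal_pow_le {A B : Type} [CommRing A] [IsLocalRing A] [CommRing B]
    [IsLocalRing B] (φ : A →+* B)
    (hφ : IsLocalHom φ) (n : ℕ) {a : A} (ha : a ∈ maximalIdeal A ^ n) :
    φ a ∈ maximalIdeal B ^ n := by
  have hmap : (maximalIdeal A ^ n).map φ ≤ maximalIdeal B ^ n := by
    rw [Ideal.map_pow]
    exact Ideal.pow_right_mono (Ideal.map_le_iff_le_comap.mpr fun a ha =>
      Ideal.mem_comap.mpr (haveI := hφ; map_nonunit φ a ha)) n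
  exact hmap (Ideal.mem_map_of_mem φ ha)

/-- Continuity is preserved by push-forward along local homs. -/
lemma MatCont.mapRep {A B : Type} [CommRing A] [IsLocalRing A] [CommRing B] [IsLocalRing B]
    (φ : A →+* B) [IsLocalHom φ] {r : GQ →* M2 A} (hr : MatCont r) : MatCont (mapRep φ r) := by
  intro n
  obtain ⟨L, hL, h⟩ := hr n
  refine ⟨L, hL, fun σ hσ i j => ?_⟩
  have h1 : Fermat.Agent.S53.mapRep φ r σ i j - (1 : M2 B) i j
      = φ (r σ i j - (1 : M2 A) i j) := by
    simp only [mapRep_apply, map_sub, Matrix.one_apply]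
    split_ifs <;> simp
  rw [h1]
  exact map_maximalIdeal_pow_le φ inferInstance n (h σ hσ i j)

theorem mem_ideal_of_mul_mul {A : Type} [CommRing A] {I : Ideal A} (X Y Z : M2 A)
    (hY : ∀ i j, Y i j ∈ I) (i j : Fin 2) :
    (X * Y * Z) i j ∈ I := by
  rw [Matrix.mul_apply]
  refine Ideal.sum_mem _ fun k _ => Ideal.mul_mem_right _ _ ?_
  rw [Matrix.mul_apply]
  exact Ideal.sum_mem _ fun l _ => Ideal.mul_mem_left _ _ (hY l k)

/-- Continuity is invariant under conjugation. -/
lemma MatCont.conj {A : Type} [CommRing A] [IsLocalRing A] {r r' : GQ →* M2 A}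
    (h : Conj r r') (hr : MatCont r) : MatCont r' := by
  obtain ⟨γ, hγ⟩ := h
  intro n
  obtain ⟨L, hL, h⟩ := hr n
  refine ⟨L, hL, fun σ hσ i j => ?_⟩
  have h1 : r' σ - 1 = (γ : M2 A) * (r σ - 1) * ((γ⁻¹ : (M2 A)ˣ) : M2 A) := by
    rw [hγ σ, mul_sub, sub_mul, mul_one, Units.mul_inv]
  have h2 : r' σ i j - (1 : M2 A) i j = (r' σ - 1) i j := rfl
  rw [h2, h1]
  exact mem_ideal_of_mul_mul _ _ _ (h σ hσ) i j

/-! ### Matrix form of an adic representation in a basis -/

section ToMat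
variable {A : Type} [CommRing A] [IsLocalRing A]

/-- The matrix form of `ρ` in the basis `b`. -/
def toMat (ρ : GaloisRepAdic A) (b : Module.Basis (Fin 2) A ρ.V) : GQ →* M2 A :=
  (LinearMap.toMatrixAlgEquiv b).toAlgHom.toMonoidHom.comp ρ.ρ

theorem toMat_apply (ρ : GaloisRepAdic A) (b : Module.Basis (Fin 2) A ρ.V) (σ : GQ)
    (i j : Fin 2) : toMat ρ b σ i j = b.repr (ρ.ρ σ (b j)) i :=
  LinearMap.toMatrixAlgEquiv_apply b (ρ.ρ σ) i j

theorem toMat_eq_toMatrix (ρ : GaloisRepAdic A) (b : Module.Basis (Fin 2) A ρ.V) (σ : GQ) :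
    toMat ρ b σ = LinearMap.toMatrix b b (ρ.ρ σ) := rfl

theorem matCont_toMat (ρ : GaloisRepAdic A) (b : Module.Basis (Fin 2) A ρ.V) :
    MatCont (toMat ρ b) := by
  intro n
  obtain ⟨L, hL, h⟩ := ρ.isAdicContinuous n
  refine ⟨L, hL, fun σ hσ i j => ?_⟩
  have h1 : toMat ρ b σ i j - (1 : M2 A) i j = b.repr (ρ.ρ σ (b j) - b j) i := by
    rw [toMat_apply, map_sub, Finsupp.sub_apply, Module.Basis.repr_self,
      Matrix.one_apply, Finsupp.single_apply]
    congr 1
    by_cases hij : i = j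
    · simp [hij]
    · simp [hij, Ne.symm hij]
  rw [h1]
  exact repr_mem_of_mem_smul_top b _ (h σ hσ (b j)) i

/-- Any `GaloisRepAdic` is equivalent to its matrix form. -/
def equivMatRepToMat (ρ : GaloisRepAdic A) (b : Module.Basis (Fin 2) A ρ.V) :
    GaloisRepAdic.Equiv ρ (matRep (toMat ρ b) (matCont_toMat ρ b)) where
  toLinearEquiv := b.equivFun
  map_apply σ x :=
    (LinearMap.toMatrix_mulVec_repr b b (ρ.ρ σ) x).symm

/-- every adic representation is equivalent to a `matRep`. -/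
lemma exists_matRep {A : Type} [CommRing A] [IsLocalRing A] (ρ : GaloisRepAdic A) :
    ∃ (r : GQ →* M2 A) (hr : MatCont r), ρ.IsEquiv (matRep r hr) := by
  let b : Module.Basis (Fin 2) A ρ.V := Module.finBasisOfFinrankEq _ _ ρ.finrank_eq
  exact ⟨toMat ρ b, matCont_toMat ρ b, ⟨equivMatRepToMat ρ b⟩⟩

theorem matRep_isEquiv_of_eq {r r' : GQ →* M2 A} (hr : MatCont r) (hr' : MatCont r')
    (h : ∀ σ, r σ = r' σ) : (matRep r hr).IsEquiv (matRep r' hr') := by
  have : r = r' := MonoidHom.ext h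
  subst this
  exact ⟨GaloisRepAdic.Equiv.refl _⟩

/-- The linear automorphism of `Fin 2 → A` given by an invertible matrix. -/
def unitToLinearEquiv (γ : (M2 A)ˣ) : (Fin 2 → A) ≃ₗ[A] (Fin 2 → A) :=
  LinearEquiv.ofLinearMap (Matrix.toLin' (γ : M2 A)) (Matrix.toLin' ((γ⁻¹ : (M2 A)ˣ) : M2 A))
    (by
      apply LinearMap.ext
      intro x
      simp only [LinearMap.comp_apply, Matrix.toLin'_apply, Matrix.mulVec_mulVec,
        Units.mul_inv, Matrix.one_mulVec, LinearMap.id_apply])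
    (by
      apply LinearMap.ext
      intro x
      simp only [LinearMap.comp_apply, Matrix.toLin'_apply, Matrix.mulVec_mulVec,
        Units.inv_mul, Matrix.one_mulVec, LinearMap.id_apply])

theorem unitToLinearEquiv_apply (γ : (M2 A)ˣ) (x : Fin 2 → A) :
    unitToLinearEquiv γ x = (γ : M2 A).mulVec x := rfl

/-- `Conj r r'` in intertwining form. -/
theorem conj_iff (r r' : GQ →* M2 A) :
    Conj r r' ↔ ∃ γ : (M2 A)ˣ, ∀ σ, (γ : M2 A) * r σ = r' σ * (γ : M2 A) := by
  constructor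
  · rintro ⟨γ, hγ⟩
    refine ⟨γ, fun σ => ?_⟩
    rw [hγ σ, mul_assoc, Units.inv_mul, mul_one]
  · rintro ⟨γ, hγ⟩
    refine ⟨γ, fun σ => ?_⟩
    rw [hγ σ, mul_assoc, Units.mul_inv, mul_one]

/-- equivalence of matrix representations is intertwining by an invertible matrix. -/
theorem matRep_isEquiv_iff' (r r' : GQ →* M2 A) (hr : MatCont r) (hr' : MatCont r') :
    (matRep r hr).IsEquiv (matRep r' hr') ↔
      ∃ γ : (M2 A)ˣ, ∀ σ, (γ : M2 A) * r σ = r' σ * (γ : M2 A) := by
  constructor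
  · rintro ⟨e⟩
    let f : (Fin 2 → A) ≃ₗ[A] (Fin 2 → A) := e.toLinearEquiv
    let γ : (M2 A)ˣ :=
      ⟨LinearMap.toMatrix' f.toLinearMap, LinearMap.toMatrix' f.symm.toLinearMap, by
        rw [← LinearMap.toMatrix'_comp]; simp, by
        rw [← LinearMap.toMatrix'_comp]; simp⟩
    refine ⟨γ, fun σ => ?_⟩
    have h1 : ∀ x : Fin 2 → A, f ((r σ).mulVec x) = (r' σ).mulVec (f x) := fun x =>
      e.map_apply σ x
    apply Matrix.toLin'.injective
    apply LinearMap.ext
    intro x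
    simp only [Matrix.toLin'_mul, LinearMap.comp_apply, Matrix.toLin'_apply, γ,
      Matrix.toLin'_toMatrix', LinearEquiv.coe_coe]
    exact h1 x
  · rintro ⟨γ, hγ⟩
    have key : ∀ (σ : GQ) (x : Fin 2 → A),
        (γ : M2 A).mulVec ((r σ).mulVec x) = (r' σ).mulVec ((γ : M2 A).mulVec x) := by
      intro σ x
      rw [Matrix.mulVec_mulVec, Matrix.mulVec_mulVec, hγ σ]
    exact ⟨{ toLinearEquiv := unitToLinearEquiv γ
             map_apply := fun σ x => key σ x }⟩

/-- (M0.c) equivalence of `matRep`s is conjugacy. -/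
lemma matRep_isEquiv_iff {A : Type} [CommRing A] [IsLocalRing A] (r r' : GQ →* M2 A)
    (hr : MatCont r) (hr' : MatCont r') :
    (matRep r hr).IsEquiv (matRep r' hr') ↔ Conj r r' := by
  rw [matRep_isEquiv_iff', conj_iff]

end ToMat

/-! ### Equivalences and base change -/

section BaseChange
variable {A : Type} [CommRing A] [IsLocalRing A]

theorem isEquiv_trans {ρ₁ ρ₂ ρ₃ : GaloisRepAdic A} (h₁ : ρ₁.IsEquiv ρ₂) (h₂ : ρ₂.IsEquiv ρ₃) :
    ρ₁.IsEquiv ρ₃ := by
  obtain ⟨e₁⟩ := h₁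
  obtain ⟨e₂⟩ := h₂
  exact ⟨e₁.trans e₂⟩

theorem isEquiv_symm {ρ₁ ρ₂ : GaloisRepAdic A} (h₁ : ρ₁.IsEquiv ρ₂) : ρ₂.IsEquiv ρ₁ := by
  obtain ⟨e₁⟩ := h₁
  exact ⟨e₁.symm⟩

theorem isEquiv_refl (ρ : GaloisRepAdic A) : ρ.IsEquiv ρ := ⟨GaloisRepAdic.Equiv.refl ρ⟩

theorem isEquiv_baseChangeAlong {B : Type} [CommRing B] [IsLocalRing B] (φ : A →+* B)
    (hφ : IsLocalHom φ) {ρ₁ ρ₂ : GaloisRepAdic A} (h : ρ₁.IsEquiv ρ₂) :
    (ρ₁.baseChangeAlong φ hφ).IsEquiv (ρ₂.baseChangeAlong φ hφ) := by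
  obtain ⟨e⟩ := h
  exact ⟨e.baseChangeAlong φ hφ⟩

theorem baseChangeAlong_isEquiv_matRep {B : Type} [CommRing B] [IsLocalRing B] (φ : A →+* B)
    (hφ : IsLocalHom φ) (ρ : GaloisRepAdic A) (b : Module.Basis (Fin 2) A ρ.V)
    (hc : MatCont (mapRep φ (toMat ρ b))) :
    (ρ.baseChangeAlong φ hφ).IsEquiv (matRep (mapRep φ (toMat ρ b)) hc) := by
  letI : Algebra A B := φ.toAlgebra
  let b' : Module.Basis (Fin 2) B (ρ.baseChangeAlong φ hφ).V := Algebra.TensorProduct.basis B b
  have h : ∀ σ, toMat (ρ.baseChangeAlong φ hφ) b' σ = mapRep φ (toMat ρ b) σ := by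
    intro σ
    exact LinearMap.toMatrix_baseChange B (ρ.ρ σ) b b
  exact isEquiv_trans ⟨equivMatRepToMat _ b'⟩ (matRep_isEquiv_of_eq _ _ h)

/-- The standard basis of `(matRep r hr).V`. -/
def matRepBasis (r : GQ →* M2 A) (hr : MatCont r) : Module.Basis (Fin 2) A (matRep r hr).V :=
  Pi.basisFun A (Fin 2)

theorem toMat_matRep (r : GQ →* M2 A) (hr : MatCont r) (σ : GQ) :
    toMat (matRep r hr) (matRepBasis r hr) σ = r σ := by
  show LinearMap.toMatrix (Pi.basisFun A (Fin 2)) (Pi.basisFun A (Fin 2))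
    (Matrix.toLin' (r σ)) = r σ
  rw [LinearMap.toMatrix_eq_toMatrix', LinearMap.toMatrix'_toLin']

/-- (M0.b) base change of `matRep` is `matRep` of the push-forward. -/
lemma matRep_baseChangeAlong {A B : Type} [CommRing A] [IsLocalRing A] [CommRing B]
    [IsLocalRing B] (φ : A →+* B) (hφ : IsLocalHom φ) (r : GQ →* M2 A) (hr : MatCont r)
    (hr' : MatCont (mapRep φ r)) :
    ((matRep r hr).baseChangeAlong φ hφ).IsEquiv (matRep (mapRep φ r) hr') := by
  haveI := hφ
  refine isEquiv_trans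
    (baseChangeAlong_isEquiv_matRep φ hφ (matRep r hr) (matRepBasis r hr)
      ((matCont_toMat _ _).mapRep φ)) ?_
  apply matRep_isEquiv_of_eq
  intro σ
  ext i j
  rw [mapRep_apply, mapRep_apply, toMat_matRep]

/-! ### Conjugation by an invertible matrix -/

/-- Conjugate of a matrix representation by an invertible matrix. -/
def conjMat (γ : (M2 A)ˣ) (r : GQ →* M2 A) : GQ →* M2 A where
  toFun σ := (γ : M2 A) * r σ * ((γ⁻¹ : (M2 A)ˣ) : M2 A)
  map_one' := by simp
  map_mul' σ τ := by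
    simp only [map_mul]
    have h : ((γ⁻¹ : (M2 A)ˣ) : M2 A) * (γ : M2 A) = 1 := Units.inv_mul γ
    calc (γ : M2 A) * (r σ * r τ) * ((γ⁻¹ : (M2 A)ˣ) : M2 A)
        = (γ : M2 A) * r σ * 1 * r τ * ((γ⁻¹ : (M2 A)ˣ) : M2 A) := by
          simp only [mul_one, mul_assoc]
      _ = _ := by rw [← h]; simp only [mul_assoc]

theorem conjMat_apply (γ : (M2 A)ˣ) (r : GQ →* M2 A) (σ : GQ) :
    conjMat γ r σ = (γ : M2 A) * r σ * ((γ⁻¹ : (M2 A)ˣ) : M2 A) := rfl

theorem conjMat_mul (γ : (M2 A)ˣ) (r : GQ →* M2 A) (σ : GQ) :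
    (γ : M2 A) * r σ = conjMat γ r σ * (γ : M2 A) := by
  rw [conjMat_apply, mul_assoc, Units.inv_mul, mul_one]

theorem conj_conjMat (γ : (M2 A)ˣ) (r : GQ →* M2 A) : Conj r (conjMat γ r) :=
  ⟨γ, fun _ => rfl⟩

theorem Conj.exists_eq_conjMat {r r' : GQ →* M2 A} (h : Conj r r') :
    ∃ γ : (M2 A)ˣ, r' = conjMat γ r := by
  obtain ⟨γ, hγ⟩ := h
  exact ⟨γ, MonoidHom.ext hγ⟩

theorem MatCont.conjMat (γ : (M2 A)ˣ) {r : GQ →* M2 A} (hr : MatCont r) :
    MatCont (conjMat γ r) :=
  hr.conj (conj_conjMat γ r)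

theorem matRep_conjMat_isEquiv (γ : (M2 A)ˣ) (r : GQ →* M2 A) (hr : MatCont r) :
    (matRep r hr).IsEquiv (matRep (conjMat γ r) (hr.conjMat γ)) :=
  (matRep_isEquiv_iff _ _ _ _).mpr (conj_conjMat γ r)

end BaseChange

/-! ### Residual representations -/

section Residual

/-- Two residual representations with the same matrices in some bases are equivalent. -/
theorem residual_isEquiv_of_toMatrix_eq {κ : Type} [Field κ] (ρ₁ ρ₂ : ResidualGaloisRep κ)
    (b₁ : Module.Basis (Fin 2) κ ρ₁.V) (b₂ : Module.Basis (Fin 2) κ ρ₂.V)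
    (h : ∀ σ, LinearMap.toMatrix b₁ b₁ (ρ₁.ρ σ) = LinearMap.toMatrix b₂ b₂ (ρ₂.ρ σ)) :
    ρ₁.IsEquiv ρ₂ := by
  refine ⟨{ toLinearEquiv := b₁.equiv b₂ (Equiv.refl _), map_apply := fun σ x => ?_ }⟩
  have key : ((b₁.equiv b₂ (Equiv.refl _)).toLinearMap ∘ₗ ρ₁.ρ σ) =
      (ρ₂.ρ σ ∘ₗ (b₁.equiv b₂ (Equiv.refl _)).toLinearMap) := by
    apply b₁.ext
    intro j
    simp only [LinearMap.comp_apply, LinearEquiv.coe_coe, Module.Basis.equiv_apply,
      Equiv.refl_apply]
    rw [← b₁.sum_repr (ρ₁.ρ σ (b₁ j)), ← b₂.sum_repr (ρ₂.ρ σ (b₂ j))]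
    simp only [map_sum, map_smul, Module.Basis.equiv_apply, Equiv.refl_apply]
    refine Finset.sum_congr rfl fun i _ => ?_
    have := congrFun (congrFun (h σ) i) j
    rw [LinearMap.toMatrix_apply, LinearMap.toMatrix_apply] at this
    rw [this]
  exact congrArg (fun f => f x) key

variable {𝒪 : Type} [CommRing 𝒪] [IsLocalRing 𝒪]
variable (ρbar : ResidualGaloisRep (ResidueField 𝒪))
variable {A : Type} [CommRing A] [IsLocalRing A] [Algebra 𝒪 A] [IsLocalHom (algebraMap 𝒪 A)]

/-- `IsExact` entrywise. -/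
theorem isExact_iff_residue (r : GQ →* M2 A) :
    IsExact ρbar r ↔
      ∀ σ i j, residue A (r σ i j) = ResidueField.map (algebraMap 𝒪 A) (rhobarM ρbar σ i j) := by
  constructor
  · intro h σ i j
    have := congrArg (fun f : GQ →* M2 (ResidueField A) => f σ i j) h
    exact this
  · intro h
    apply MonoidHom.ext
    intro σ
    ext i j
    exact h σ i j

/-- The basis of `(ρbar.baseChangeAlong ι).V` induced by `rhobarBasis`. -/
def rhobarBasisBC {κ : Type} [Field κ] (ι : ResidueField 𝒪 →+* κ) :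
    Module.Basis (Fin 2) κ (ρbar.baseChangeAlong ι).V :=
  letI : Algebra (ResidueField 𝒪) κ := ι.toAlgebra
  Algebra.TensorProduct.basis κ (rhobarBasis ρbar)

theorem toMatrix_rhobarBasisBC {κ : Type} [Field κ] (ι : ResidueField 𝒪 →+* κ) (σ : GQ) :
    LinearMap.toMatrix (rhobarBasisBC ρbar ι) (rhobarBasisBC ρbar ι)
      ((ρbar.baseChangeAlong ι).ρ σ) = (rhobarM ρbar σ).map ι := by
  letI : Algebra (ResidueField 𝒪) κ := ι.toAlgebra
  exact LinearMap.toMatrix_baseChange κ (ρbar.ρ σ) (rhobarBasis ρbar) (rhobarBasis ρbar)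

/-- The basis of `ρ.residual.V` induced by a basis of `ρ.V`. -/
def residualBasis {A : Type} [CommRing A] [IsLocalRing A]
    (ρ : GaloisRepAdic A) (b : Module.Basis (Fin 2) A ρ.V) :
    Module.Basis (Fin 2) (ResidueField A) ρ.residual.V :=
  Algebra.TensorProduct.basis (ResidueField A) b

theorem residualBasis_apply {A : Type} [CommRing A] [IsLocalRing A]
    (ρ : GaloisRepAdic A) (b : Module.Basis (Fin 2) A ρ.V) (i : Fin 2) :
    residualBasis ρ b i = (1 : ResidueField A) ⊗ₜ[A] b i :=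
  Algebra.TensorProduct.basis_apply b i

theorem toMatrix_residual {A : Type} [CommRing A] [IsLocalRing A]
    (ρ : GaloisRepAdic A) (b : Module.Basis (Fin 2) A ρ.V) (σ : GQ) :
    LinearMap.toMatrix (residualBasis ρ b) (residualBasis ρ b) (ρ.residual.ρ σ) =
      (toMat ρ b σ).map (residue A) :=
  LinearMap.toMatrix_baseChange (ResidueField A) (ρ.ρ σ) b b

/-- Lifting a basis of the residual representation to a basis of `ρ.V`. -/
theorem exists_basis_lift {A : Type} [CommRing A] [IsLocalRing A] (ρ : GaloisRepAdic A)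
    (b' : Module.Basis (Fin 2) (ResidueField A) ρ.residual.V) :
    ∃ b : Module.Basis (Fin 2) A ρ.V, residualBasis ρ b = b' := by
  have hsurj : Function.Surjective (TensorProduct.mk A (ResidueField A) ρ.V 1) :=
    TensorProduct.mk_surjective A ρ.V (ResidueField A) IsLocalRing.residue_surjective
  choose v hv using fun i => hsurj (b' i)
  have hspan : Submodule.span A (Set.range v) = ⊤ :=
    IsLocalRing.span_eq_top_of_tmul_eq_basis (R := A) v b' (fun i => hv i)
  let b : Module.Basis (Fin 2) A ρ.V :=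
    basisOfTopLeSpanOfCardEqFinrank v hspan.ge (by simp [ρ.finrank_eq])
  refine ⟨b, ?_⟩
  apply Module.Basis.eq_of_apply_eq
  intro i
  rw [residualBasis_apply]
  simp only [b, coe_basisOfTopLeSpanOfCardEqFinrank]
  exact hv i

end Residual

section residual

variable {𝒪 : Type} [CommRing 𝒪] [IsLocalRing 𝒪]
  (ρbar : ResidualGaloisRep (ResidueField 𝒪))

/-- (M0.a) a representation with residual representation `ρbar` is equivalent to the `matRep`
of an EXACT lift of `ρbar`. -/
lemma exists_exact_matRep {A : Type} [CommRing A] [IsLocalRing A] [Algebra 𝒪 A]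
    [IsLocalHom (algebraMap 𝒪 A)] (ρ : GaloisRepAdic A)
    (hres : ρ.residual.IsEquiv (ρbar.baseChangeAlong (ResidueField.map (algebraMap 𝒪 A)))) :
    ∃ (r : GQ →* M2 A) (hr : MatCont r), IsExact ρbar r ∧ ρ.IsEquiv (matRep r hr) := by
  obtain ⟨e⟩ := hres
  let b₂ := rhobarBasisBC ρbar (ResidueField.map (algebraMap 𝒪 A))
  let b' : Module.Basis (Fin 2) (ResidueField A) ρ.residual.V := b₂.map e.toLinearEquiv.symm
  obtain ⟨b, hb⟩ := exists_basis_lift ρ b'
  refine ⟨toMat ρ b, matCont_toMat ρ b, ?_, ⟨equivMatRepToMat ρ b⟩⟩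
  rw [isExact_iff_residue]
  intro σ i j
  have h1 := toMatrix_residual ρ b σ
  rw [hb] at h1
  have h2 : LinearMap.toMatrix b' b' (ρ.residual.ρ σ) =
      LinearMap.toMatrix b₂ b₂
        ((ρbar.baseChangeAlong (ResidueField.map (algebraMap 𝒪 A))).ρ σ) := by
    ext i j
    rw [LinearMap.toMatrix_apply, LinearMap.toMatrix_apply]
    simp only [b', Module.Basis.map_apply, Module.Basis.map_repr, LinearEquiv.trans_apply,
      LinearEquiv.symm_symm]
    rw [e.map_apply, LinearEquiv.apply_symm_apply]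
  rw [h2, toMatrix_rhobarBasisBC] at h1
  have h3 := congrFun (congrFun h1 i) j
  rw [Matrix.map_apply, Matrix.map_apply] at h3
  exact h3.symm

/-- (M0.a, converse) the `matRep` of an exact lift has residual representation `ρbar`. -/
lemma matRep_residual_isEquiv {A : Type} [CommRing A] [IsLocalRing A] [Algebra 𝒪 A]
    [IsLocalHom (algebraMap 𝒪 A)] (r : GQ →* M2 A) (hr : MatCont r) (hex : IsExact ρbar r) :
    (matRep r hr).residual.IsEquiv
      (ρbar.baseChangeAlong (ResidueField.map (algebraMap 𝒪 A))) := by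
  refine residual_isEquiv_of_toMatrix_eq _ _
    (residualBasis _ (matRepBasis r hr))
    (rhobarBasisBC ρbar _) fun σ => ?_
  rw [toMatrix_rhobarBasisBC, toMatrix_residual]
  ext i j
  rw [Matrix.map_apply, Matrix.map_apply, toMat_matRep]
  exact (isExact_iff_residue ρbar r).1 hex σ i j

/-- The residual condition is invariant under equivalence. -/
lemma residual_isEquiv_of_isEquiv {A : Type} [CommRing A] [IsLocalRing A]
    {ρ ρ' : GaloisRepAdic A} (h : ρ.IsEquiv ρ') {k' : ResidualGaloisRep (ResidueField A)}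
    (hres : ρ.residual.IsEquiv k') : ρ'.residual.IsEquiv k' := by
  obtain ⟨e⟩ := h
  obtain ⟨f⟩ := hres
  refine ⟨ResidualGaloisRep.Equiv.trans (ResidualGaloisRep.Equiv.symm ?_) f⟩
  exact
    { toLinearEquiv := e.toLinearEquiv.baseChange A (ResidueField A) ρ.V ρ'.V
      map_apply := fun σ x => by
        show e.toLinearEquiv.baseChange A (ResidueField A) ρ.V ρ'.V
            ((ρ.ρ σ).baseChange (ResidueField A) x) =
          (ρ'.ρ σ).baseChange (ResidueField A)
            (e.toLinearEquiv.baseChange A (ResidueField A) ρ.V ρ'.V x)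
        induction x using TensorProduct.induction_on with
        | zero => simp only [map_zero]
        | tmul b v =>
          rw [LinearMap.baseChange_tmul, LinearEquiv.baseChange_tmul,
            LinearEquiv.baseChange_tmul, LinearMap.baseChange_tmul, e.map_apply]
        | add x y hx hy => simp only [map_add, hx, hy] }

end residual

section Exact

variable {𝒪 : Type} [CommRing 𝒪] [IsLocalRing 𝒪]
variable (ρbar : ResidualGaloisRep (ResidueField 𝒪))
variable {A : Type} [CommRing A] [IsLocalRing A] [Algebra 𝒪 A] [IsLocalHom (algebraMap 𝒪 A)]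

/-- Exactness is preserved by local `𝒪`-algebra homomorphisms. -/
theorem IsExact.mapRep {B : Type} [CommRing B] [IsLocalRing B] [Algebra 𝒪 B]
    [IsLocalHom (algebraMap 𝒪 B)] (φ : A →ₐ[𝒪] B) (hφ : IsLocalHom (φ : A →+* B))
    {r : GQ →* M2 A} (hex : IsExact ρbar r) :
    IsExact ρbar (mapRep (φ : A →+* B) r) := by
  rw [isExact_iff_residue] at hex ⊢
  intro σ i j
  haveI := hφ
  rw [mapRep_apply]
  have h1 : residue B ((φ : A →+* B) (r σ i j)) =
      ResidueField.map (φ : A →+* B) (residue A (r σ i j)) := rfl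
  rw [h1, hex σ i j]
  have h2 : (ResidueField.map (φ : A →+* B)).comp (ResidueField.map (algebraMap 𝒪 A)) =
      ResidueField.map (algebraMap 𝒪 B) := by
    rw [← ResidueField.map_comp]
    congr 1
    exact φ.comp_algebraMap
  exact congrArg (fun f => f (rhobarM ρbar σ i j)) h2

theorem residue_mul_mul_of_sub_one_mem {A : Type} [CommRing A] [IsLocalRing A] (γ δ X : M2 A)
    (hγ : ∀ i j, (γ - 1) i j ∈ maximalIdeal A) (hδ : ∀ i j, (δ - 1) i j ∈ maximalIdeal A)
    (i j : Fin 2) : residue A ((γ * X * δ) i j) = residue A (X i j) := by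
  have h : γ * X * δ - X = (γ - 1) * X * δ + 1 * X * (δ - 1) := by
    simp only [sub_mul, mul_sub, one_mul, mul_one]; abel
  rw [← sub_eq_zero, ← map_sub, residue_eq_zero_iff, ← Matrix.sub_apply, h, Matrix.add_apply]
  refine Ideal.add_mem _ ?_ ?_
  · have := mem_ideal_of_mul_mul (I := maximalIdeal A) (1 : M2 A) ((γ - 1) * X) δ (fun k l => by
      rw [Matrix.mul_apply]
      exact Ideal.sum_mem _ fun m _ => Ideal.mul_mem_right _ _ (hγ k m)) i j
    simpa [mul_assoc] using this
  · rw [mul_assoc]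
    rw [Matrix.mul_apply]
    refine Ideal.sum_mem _ fun k _ => Ideal.mul_mem_left _ _ ?_
    rw [Matrix.mul_apply]
    exact Ideal.sum_mem _ fun l _ => Ideal.mul_mem_left _ _ (hδ l j)

theorem inv_sub_one_mem {A : Type} [CommRing A] [IsLocalRing A] (γ : (M2 A)ˣ)
    (hγ : ∀ i j, ((γ : M2 A) - 1) i j ∈ maximalIdeal A)
    (i j : Fin 2) : (((γ⁻¹ : (M2 A)ˣ) : M2 A) - 1) i j ∈ maximalIdeal A := by
  have h : ((γ⁻¹ : (M2 A)ˣ) : M2 A) - 1 =
      (-1 : M2 A) * ((γ : M2 A) - 1) * ((γ⁻¹ : (M2 A)ˣ) : M2 A) := by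
    simp only [sub_mul, mul_sub, neg_mul, one_mul, mul_one, Units.mul_inv]; abel
  rw [h]
  exact mem_ideal_of_mul_mul _ _ _ hγ i j

/-- A conjugate of an exact lift by `γ ≡ 1 mod 𝔪` is an exact lift. -/
theorem IsExact.conjMat (γ : (M2 A)ˣ) (hγ : ∀ i j, ((γ : M2 A) - 1) i j ∈ maximalIdeal A)
    {r : GQ →* M2 A} (hex : IsExact ρbar r) : IsExact ρbar (conjMat γ r) := by
  rw [isExact_iff_residue] at hex ⊢
  intro σ i j
  rw [conjMat_apply, residue_mul_mul_of_sub_one_mem _ _ _ hγ (inv_sub_one_mem γ hγ)]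
  exact hex σ i j

end Exact

section cond

variable {𝒪 : Type} [CommRing 𝒪] [IsLocalRing 𝒪]
  {𝒟 : ∀ ⦃A : Type⦄ [CommRing A] [IsLocalRing A] [Algebra 𝒪 A], GaloisRepAdic A → Prop}

/-- (M0.d) a deformation condition is invariant under equivalence over complete noetherian
local rings (in particular over Artinian test algebras, where it is an axiom). -/
lemma cond_of_isEquiv (h𝒟 : GaloisRep.IsDeformationCondition 𝒪 𝒟)
    {A : Type} [CommRing A] [IsLocalRing A] [IsNoetherianRing A]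
    [IsAdicComplete (maximalIdeal A) A] [Algebra 𝒪 A] (hloc : IsLocalHom (algebraMap 𝒪 A))
    (hsurj : Function.Surjective (residue A ∘ algebraMap 𝒪 A))
    {ρ ρ' : GaloisRepAdic A} (h : ρ.IsEquiv ρ') (hρ : 𝒟 ρ) : 𝒟 ρ' := by
  rw [h𝒟.iff_forall_surjective hloc hsurj] at hρ ⊢
  intro B _ _ _ hB q hq hqs
  exact h𝒟.of_isEquiv hB (isEquiv_baseChangeAlong _ hq h) (hρ hB q hq hqs)

end cond

end Fermat.Agent.S53
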