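import Fermat.Agent.S53.DLift

/-!
# S53 / Core K2 — Schlessinger's step: the minimal ideal to which a deformation lifts

`R` is a complete noetherian local `𝒪`-algebra with residue field `k` (in the application
`R = 𝒪⟦X₁,…,X_d⟧`), `J` an open ideal and `r` a `𝒟`-lift over `R ⧸ J`.
Among the ideals `K` with `m * J ≤ K ≤ J` such that `r` lifts (EXACTLY, as a matrix-valued hom)
to a `𝒟`-lift over `R ⧸ K` there is a smallest one.

MATH.  The set `𝒮` of such `K` is finite (`quot_finite_ideals_ge`, since `m^(n+1) ≤ m * J`),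
nonempty (`J ∈ 𝒮`), and closed under `⊓`:  given `K₁ K₂ ∈ 𝒮` choose `K₂'` MAXIMAL among ideals
`K` with `K₂ ≤ K ≤ J`, `K₁ ⊓ K = K₁ ⊓ K₂`.  Then `K₂' ∈ 𝒮` (push the lift forward along
`R ⧸ K₂ → R ⧸ K₂'`) and `K₁ ⊔ K₂' = J` (else pick `x ∈ J \ (K₁ ⊔ K₂')`; `K₂' ⊔ span {x}`
contradicts maximality because `m * x ⊆ m * J ⊆ K₂'`).  Hence
`R ⧸ (K₁ ⊓ K₂') = R ⧸ K₁ ×_{R ⧸ J} R ⧸ K₂'` and `IsDLift.glue_exists` applies.
-/

set_option autoImplicit false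
set_option linter.unusedSectionVars false

noncomputable section

namespace Fermat.Agent.S53

open IsLocalRing GaloisRep

variable {𝒪 : Type} [CommRing 𝒪] [IsDomain 𝒪] [IsDiscreteValuationRing 𝒪]
  [IsAdicComplete (maximalIdeal 𝒪) 𝒪] [Finite (ResidueField 𝒪)]
  (𝒟 : ∀ ⦃A : Type⦄ [CommRing A] [IsLocalRing A] [Algebra 𝒪 A], GaloisRepAdic A → Prop)

/-- `r` is a `𝒟`-lift over the quotient `R ⧸ K` by a proper ideal. -/
def IsDLiftQ {R : Type} [CommRing R] [IsLocalRing R] [Algebra 𝒪 R] (K : Ideal R)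
    (r : GQ →* M2 (R ⧸ K)) : Prop :=
  ∃ hK : K ≠ ⊤, haveI := quot_isLocalRing K hK; IsDLift 𝒟 r

variable {𝒟}

lemma IsDLiftQ.ne_top {R : Type} [CommRing R] [IsLocalRing R] [Algebra 𝒪 R] {K : Ideal R}
    {r : GQ →* M2 (R ⧸ K)} (h : IsDLiftQ 𝒟 K r) : K ≠ ⊤ := h.1

lemma IsDLiftQ.isDLift {R : Type} [CommRing R] [IsLocalRing R] [Algebra 𝒪 R] {K : Ideal R}
    {r : GQ →* M2 (R ⧸ K)} (h : IsDLiftQ 𝒟 K r) :
    haveI := quot_isLocalRing K h.ne_top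
    IsDLift 𝒟 r := h.2

/-! ### Pure ring theory: quotients by an intersection as a fibre product -/

section QuotInf

variable {R : Type} [CommRing R]

/-- `R ⧸ (K₁ ⊓ K₂) → R ⧸ K₁ × R ⧸ K₂` is injective. -/
lemma step_quot_inf_injective (K₁ K₂ : Ideal R) :
    Function.Injective (fun x : R ⧸ (K₁ ⊓ K₂) =>
      (Ideal.Quotient.factor (inf_le_left : K₁ ⊓ K₂ ≤ K₁) x,
        Ideal.Quotient.factor (inf_le_right : K₁ ⊓ K₂ ≤ K₂) x)) := by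
  intro x y hxy
  obtain ⟨a, rfl⟩ := Ideal.Quotient.mk_surjective x
  obtain ⟨b, rfl⟩ := Ideal.Quotient.mk_surjective y
  simp only [Ideal.Quotient.factor_mk, Prod.mk.injEq] at hxy
  rw [Ideal.Quotient.eq] at hxy ⊢
  rw [Ideal.Quotient.eq] at hxy
  exact ⟨hxy.1, hxy.2⟩

/-- `R ⧸ (K₁ ⊓ K₂) → R ⧸ K₁ ×_{R ⧸ J} R ⧸ K₂` is surjective when `K₁ ⊔ K₂ = J`. -/
lemma step_quot_inf_surjective {K₁ K₂ J : Ideal R} (h₁ : K₁ ≤ J) (h₂ : K₂ ≤ J)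
    (hsup : J ≤ K₁ ⊔ K₂) (a : R ⧸ K₁) (b : R ⧸ K₂)
    (hab : Ideal.Quotient.factor h₁ a = Ideal.Quotient.factor h₂ b) :
    ∃ x : R ⧸ (K₁ ⊓ K₂), Ideal.Quotient.factor (inf_le_left : K₁ ⊓ K₂ ≤ K₁) x = a ∧
      Ideal.Quotient.factor (inf_le_right : K₁ ⊓ K₂ ≤ K₂) x = b := by
  obtain ⟨a', rfl⟩ := Ideal.Quotient.mk_surjective a
  obtain ⟨b', rfl⟩ := Ideal.Quotient.mk_surjective b
  simp only [Ideal.Quotient.factor_mk] at hab
  rw [Ideal.Quotient.eq] at hab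
  obtain ⟨k₁, hk₁, k₂, hk₂, hk⟩ := Submodule.mem_sup.mp (hsup hab)
  refine ⟨Ideal.Quotient.mk _ (a' - k₁), ?_, ?_⟩
  · rw [Ideal.Quotient.factor_mk, Ideal.Quotient.eq]
    have : a' - k₁ - a' = -k₁ := by ring
    rw [this]
    exact K₁.neg_mem hk₁
  · rw [Ideal.Quotient.factor_mk, Ideal.Quotient.eq]
    have : a' - k₁ - b' = k₂ := by
      have : a' - b' = k₁ + k₂ := hk.symm
      linear_combination this
    rw [this]
    exact hk₂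

end QuotInf

/-! ### The set of ideals to which `r` lifts -/

section StepAux

variable {R : Type} [CommRing R] [IsLocalRing R] [IsNoetherianRing R]
  [IsAdicComplete (maximalIdeal R) R] [Algebra 𝒪 R] [IsLocalHom (algebraMap 𝒪 R)]

variable (𝒟) in
/-- `r` lifts to a `𝒟`-lift over `R ⧸ K`, where `m * J ≤ K ≤ J`. -/
def StepLiftsTo (J : Ideal R) (r : GQ →* M2 (R ⧸ J)) (K : Ideal R) : Prop :=
  maximalIdeal R * J ≤ K ∧ ∃ (hK : K ≤ J) (rK : GQ →* M2 (R ⧸ K)),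
    IsDLiftQ 𝒟 K rK ∧ mapRep (Ideal.Quotient.factor hK) rK = r

lemma step_pow_le {J K : Ideal R} {n : ℕ} (hn : maximalIdeal R ^ n ≤ J)
    (hK : maximalIdeal R * J ≤ K) : maximalIdeal R ^ (n + 1) ≤ K := by
  rw [pow_succ']
  exact (Ideal.mul_mono_right hn).trans hK

lemma StepLiftsTo.self {J : Ideal R} {r : GQ →* M2 (R ⧸ J)} (hr : IsDLiftQ 𝒟 J r) :
    StepLiftsTo 𝒟 J r J := by
  refine ⟨Ideal.mul_le_right, le_rfl, r, hr, ?_⟩
  rw [Ideal.Quotient.factor_eq, mapRep_id]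

lemma StepLiftsTo.mono (h𝒟 : IsDeformationCondition 𝒪 𝒟)
    (hR : Function.Surjective (residue R ∘ algebraMap 𝒪 R))
    {J : Ideal R} (hJ : J ≠ ⊤) {n : ℕ} (hn : maximalIdeal R ^ n ≤ J)
    {r : GQ →* M2 (R ⧸ J)} {K K' : Ideal R} (h : StepLiftsTo 𝒟 J r K)
    (hKK' : K ≤ K') (hK'J : K' ≤ J) : StepLiftsTo 𝒟 J r K' := by
  obtain ⟨hmJ, hKJ, rK, hrK, hcompat⟩ := h
  have hKtop : K ≠ ⊤ := hrK.ne_top
  have hK'top : K' ≠ ⊤ := fun h => hJ (top_le_iff.mp (h ▸ hK'J))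
  haveI := quot_isLocalRing K hKtop
  haveI := quot_isLocalRing K' hK'top
  have hpow : maximalIdeal R ^ (n + 1) ≤ K := step_pow_le hn hmJ
  have hTK := quot_isTest hR K hKtop (n + 1) hpow
  have hTK' := quot_isTest hR K' hK'top (n + 1) (hpow.trans hKK')
  refine ⟨hmJ.trans hKK', hK'J, mapRep (Ideal.Quotient.factor hKK') rK, ⟨hK'top, ?_⟩, ?_⟩
  · exact IsDLift.map h𝒟 hTK hTK' (Ideal.Quotient.factorₐ 𝒪 hKK') hrK.isDLift
  · rw [mapRep_mapRep, Ideal.Quotient.factor_comp]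
    exact hcompat

/-- The key: the set of ideals to which `r` lifts is closed under intersection, provided
the two ideals span `J`. -/
lemma StepLiftsTo.inf_of_sup (h𝒟 : IsDeformationCondition 𝒪 𝒟)
    (hR : Function.Surjective (residue R ∘ algebraMap 𝒪 R))
    {J : Ideal R} (hJ : J ≠ ⊤) {n : ℕ} (hn : maximalIdeal R ^ n ≤ J)
    {r : GQ →* M2 (R ⧸ J)} {K₁ K₂ : Ideal R} (h₁ : StepLiftsTo 𝒟 J r K₁)
    (h₂ : StepLiftsTo 𝒟 J r K₂) (hsup : J ≤ K₁ ⊔ K₂) : StepLiftsTo 𝒟 J r (K₁ ⊓ K₂) := by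
  obtain ⟨hmJ₁, hK₁J, r₁, hr₁, hc₁⟩ := h₁
  obtain ⟨hmJ₂, hK₂J, r₂, hr₂, hc₂⟩ := h₂
  have hK₁top : K₁ ≠ ⊤ := hr₁.ne_top
  have hK₂top : K₂ ≠ ⊤ := hr₂.ne_top
  have hPtop : K₁ ⊓ K₂ ≠ ⊤ := fun h => hK₁top (top_le_iff.mp (h ▸ inf_le_left))
  haveI := quot_isLocalRing K₁ hK₁top
  haveI := quot_isLocalRing K₂ hK₂top
  haveI := quot_isLocalRing J hJ
  haveI := quot_isLocalRing (K₁ ⊓ K₂) hPtop
  have hmP : maximalIdeal R * J ≤ K₁ ⊓ K₂ := le_inf hmJ₁ hmJ₂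
  have hT₁ := quot_isTest hR K₁ hK₁top (n + 1) (step_pow_le hn hmJ₁)
  have hT₂ := quot_isTest hR K₂ hK₂top (n + 1) (step_pow_le hn hmJ₂)
  have hTJ := quot_isTest hR J hJ n hn
  have hTP := quot_isTest hR (K₁ ⊓ K₂) hPtop (n + 1) (step_pow_le hn hmP)
  obtain ⟨r', hr', e₁, -⟩ := IsDLift.glue_exists h𝒟 hT₁ hT₂ hTJ hTP
    (Ideal.Quotient.factorₐ 𝒪 hK₁J) (Ideal.Quotient.factorₐ 𝒪 hK₂J)
    (Ideal.Quotient.factorₐ 𝒪 (inf_le_left : K₁ ⊓ K₂ ≤ K₁))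
    (Ideal.Quotient.factorₐ 𝒪 (inf_le_right : K₁ ⊓ K₂ ≤ K₂))
    (by
      apply AlgHom.ext
      intro x
      obtain ⟨a, rfl⟩ := Ideal.Quotient.mk_surjective x
      rfl)
    (step_quot_inf_injective K₁ K₂)
    (fun a b hab => step_quot_inf_surjective hK₁J hK₂J hsup a b hab)
    hr₁.isDLift hr₂.isDLift
    (by
      show mapRep (Ideal.Quotient.factor hK₁J) r₁ = mapRep (Ideal.Quotient.factor hK₂J) r₂
      rw [hc₁, hc₂])
  refine ⟨hmP, inf_le_left.trans hK₁J, r', ⟨hPtop, hr'⟩, ?_⟩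
  have e₁' : mapRep (Ideal.Quotient.factor (inf_le_left : K₁ ⊓ K₂ ≤ K₁)) r' = r₁ := e₁
  rw [← hc₁, ← e₁', mapRep_mapRep, Ideal.Quotient.factor_comp]

/-- The set of ideals to which `r` lifts is closed under intersection. -/
lemma StepLiftsTo.inf (h𝒟 : IsDeformationCondition 𝒪 𝒟)
    (hR : Function.Surjective (residue R ∘ algebraMap 𝒪 R))
    {J : Ideal R} (hJ : J ≠ ⊤) {n : ℕ} (hn : maximalIdeal R ^ n ≤ J)
    {r : GQ →* M2 (R ⧸ J)} {K₁ K₂ : Ideal R} (h₁ : StepLiftsTo 𝒟 J r K₁)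
    (h₂ : StepLiftsTo 𝒟 J r K₂) : StepLiftsTo 𝒟 J r (K₁ ⊓ K₂) := by
  have hK₁J : K₁ ≤ J := h₁.2.1
  have hK₂J : K₂ ≤ J := h₂.2.1
  have hmJ₂ : maximalIdeal R * J ≤ K₂ := h₂.1
  -- choose `K₂'` maximal with `K₂ ≤ K₂' ≤ J` and `K₁ ⊓ K₂' = K₁ ⊓ K₂`
  let T : Set (Ideal R) := {K | K₂ ≤ K ∧ K ≤ J ∧ K₁ ⊓ K = K₁ ⊓ K₂}
  have hTne : T.Nonempty := ⟨K₂, le_rfl, hK₂J, rfl⟩
  obtain ⟨K₂', hK₂'T, hmax⟩ :=
    (set_has_maximal_iff_noetherian (R := R) (M := R)).mpr inferInstance T hTne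
  obtain ⟨hK₂K₂', hK₂'J, hinf⟩ := hK₂'T
  have h₂' : StepLiftsTo 𝒟 J r K₂' := h₂.mono h𝒟 hR hJ hn hK₂K₂' hK₂'J
  have hsup : J ≤ K₁ ⊔ K₂' := by
    intro x hxJ
    by_contra hx
    have hxK₂' : x ∉ K₂' := fun h => hx (Ideal.mem_sup_right h)
    let K : Ideal R := K₂' ⊔ Ideal.span {x}
    have hK₂'K : K₂' ≤ K := le_sup_left
    have hxK : x ∈ K := Ideal.mem_sup_right (Ideal.subset_span rfl)
    have hKJ : K ≤ J := sup_le hK₂'J ((Ideal.span_singleton_le_iff_mem J).mpr hxJ)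
    have hKT : K ∈ T := by
      refine ⟨hK₂K₂'.trans hK₂'K, hKJ, le_antisymm ?_ (inf_le_inf_left K₁ (hK₂K₂'.trans hK₂'K))⟩
      rw [← hinf]
      intro y hy
      obtain ⟨hy₁, hyK⟩ := Ideal.mem_inf.mp hy
      obtain ⟨k, hk, z, hz, hkz⟩ := Submodule.mem_sup.mp hyK
      obtain ⟨a, rfl⟩ := Ideal.mem_span_singleton'.mp hz
      by_cases ha : IsUnit a
      · exfalso
        apply hx
        obtain ⟨u, rfl⟩ := ha
        have hxe : x = (↑u⁻¹ : R) * y - (↑u⁻¹ : R) * k := by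
          rw [← hkz]
          have : (↑u⁻¹ : R) * (↑u : R) = 1 := Units.inv_mul u
          linear_combination (-x) * this
        rw [hxe]
        exact Ideal.sub_mem _ (Ideal.mem_sup_left (Ideal.mul_mem_left K₁ _ hy₁))
          (Ideal.mem_sup_right (Ideal.mul_mem_left K₂' _ hk))
      · have ham : a ∈ maximalIdeal R := (mem_maximalIdeal a).mpr ha
        have hax : a * x ∈ K₂' := hK₂K₂' (hmJ₂ (Ideal.mul_mem_mul ham hxJ))
        have hyK₂' : y ∈ K₂' := by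
          rw [← hkz]
          exact Ideal.add_mem K₂' hk hax
        exact Ideal.mem_inf.mpr ⟨hy₁, hyK₂'⟩
    exact hmax K hKT (lt_of_le_of_ne hK₂'K (fun h => hxK₂' (h ▸ hxK)))
  have := h₁.inf_of_sup h𝒟 hR hJ hn h₂' hsup
  rwa [hinf] at this

end StepAux

/-- Schlessinger's step. -/
theorem exists_min_lift (h𝒟 : IsDeformationCondition 𝒪 𝒟)
    {R : Type} [CommRing R] [IsLocalRing R] [IsNoetherianRing R]
    [IsAdicComplete (maximalIdeal R) R] [Algebra 𝒪 R] [IsLocalHom (algebraMap 𝒪 R)]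
    (hR : Function.Surjective (residue R ∘ algebraMap 𝒪 R))
    (J : Ideal R) (n : ℕ) (hn : maximalIdeal R ^ n ≤ J)
    (r : GQ →* M2 (R ⧸ J)) (hr : IsDLiftQ 𝒟 J r) :
    ∃ (J' : Ideal R) (hJ' : J' ≤ J) (r' : GQ →* M2 (R ⧸ J')),
      maximalIdeal R * J ≤ J' ∧ IsDLiftQ 𝒟 J' r' ∧
      mapRep (Ideal.Quotient.factor hJ') r' = r ∧
      ∀ (K : Ideal R) (hK : K ≤ J) (rK : GQ →* M2 (R ⧸ K)), maximalIdeal R * J ≤ K →
        IsDLiftQ 𝒟 K rK → mapRep (Ideal.Quotient.factor hK) rK = r → J' ≤ K := by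
  have hJ : J ≠ ⊤ := hr.ne_top
  -- the set of ideals to which `r` lifts is finite
  have hfin : {K : Ideal R | StepLiftsTo 𝒟 J r K}.Finite := by
    refine (quot_finite_ideals_ge (𝒪 := 𝒪) hR (maximalIdeal R ^ (n + 1)) (n + 1) le_rfl).subset ?_
    intro K hK
    exact step_pow_le hn hK.1
  have hne : hfin.toFinset.Nonempty := ⟨J, hfin.mem_toFinset.mpr (StepLiftsTo.self hr)⟩
  have hmem : StepLiftsTo 𝒟 J r (hfin.toFinset.inf' hne id) := by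
    refine Finset.inf'_mem {K : Ideal R | StepLiftsTo 𝒟 J r K} ?_ hfin.toFinset hne id ?_
    · intro K₁ h₁ K₂ h₂
      exact StepLiftsTo.inf h𝒟 hR hJ hn h₁ h₂
    · intro K hK
      exact hfin.mem_toFinset.mp hK
  obtain ⟨hmJ, hJ'J, r', hr', hc⟩ := hmem
  refine ⟨hfin.toFinset.inf' hne id, hJ'J, r', hmJ, hr', hc, ?_⟩
  intro K hK rK hmK hrK hcK
  exact Finset.inf'_le id (hfin.mem_toFinset.mpr ⟨hmK, hK, rK, hrK, hcK⟩)

end Fermat.Agent.S53
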