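import Fermat.Agent.S53.Step

/-!
# S53 / Core K2' — the minimal ideal of Schlessinger's step kills liftable maps

Setting of `Step.lean`: `(J, r)` a `𝒟`-lift over `R ⧸ J`, `J'` an ideal having the MINIMALITY
property of `exists_min_lift` (`hmin`).  Let `A` be a test algebra with socle element `t`,
`rA` a `𝒟`-lift over `A`, and `w : R →ₐ[𝒪] A` such that `w` maps `J` into `(t)` and the induced map
`ū : R ⧸ J → A ⧸ (t)` satisfies `ū_* r = (rA mod t)`.  Then `w` kills `J'`.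

MATH.  If `w J = 0` this is clear (`J' ≤ J`).  Otherwise `w J = (t)` (as `(t) ≅ k` is simple),
`K := J ⊓ ker w` satisfies `m * J ≤ K ≤ J`, and `R ⧸ K → (R ⧸ J) ×_{A ⧸ (t)} A` is bijective;
glue `r` and `rA` (`IsDLift.glue_exists`) to a `𝒟`-lift over `R ⧸ K` lifting `r`.
By minimality `J' ≤ K ≤ ker w`.
-/

set_option autoImplicit false
set_option linter.unusedSectionVars false

noncomputable section

namespace Fermat.Agent.S53

open IsLocalRing GaloisRep

variable {𝒪 : Type} [CommRing 𝒪] [IsDomain 𝒪] [IsDiscreteValuationRing 𝒪]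
  [IsAdicComplete (maximalIdeal 𝒪) 𝒪] [Finite (ResidueField 𝒪)]
  {𝒟 : ∀ ⦃A : Type⦄ [CommRing A] [IsLocalRing A] [Algebra 𝒪 A], GaloisRepAdic A → Prop}

/-- In a test algebra with socle element `t`, a multiple `c * t ≠ 0` has `c` a unit. -/
lemma stepLift_isUnit_of_mul_socle_ne_zero {A : Type} [CommRing A] [IsLocalRing A]
    {t : A} (hsoc : ∀ x ∈ maximalIdeal A, x * t = 0) {c : A} (hc : c * t ≠ 0) : IsUnit c := by
  by_contra hcu
  exact hc (hsoc c ((mem_maximalIdeal c).mpr hcu))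

theorem lift_kills_next (h𝒟 : IsDeformationCondition 𝒪 𝒟)
    {R : Type} [CommRing R] [IsLocalRing R] [IsNoetherianRing R]
    [IsAdicComplete (maximalIdeal R) R] [Algebra 𝒪 R] [IsLocalHom (algebraMap 𝒪 R)]
    (hR : Function.Surjective (residue R ∘ algebraMap 𝒪 R))
    (J : Ideal R) (n : ℕ) (hn : maximalIdeal R ^ n ≤ J)
    (r : GQ →* M2 (R ⧸ J)) (hr : IsDLiftQ 𝒟 J r) (J' : Ideal R) (hJ' : J' ≤ J)
    (hmin : ∀ (K : Ideal R) (hK : K ≤ J) (rK : GQ →* M2 (R ⧸ K)), maximalIdeal R * J ≤ K →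
        IsDLiftQ 𝒟 K rK → mapRep (Ideal.Quotient.factor hK) rK = r → J' ≤ K)
    {A : Type} [CommRing A] [IsLocalRing A] [Algebra 𝒪 A] (hA : IsArtinianTestAlgebra 𝒪 A)
    (t : A) (ht0 : t ≠ 0) (htm : t ∈ maximalIdeal A) (hsoc : ∀ x ∈ maximalIdeal A, x * t = 0)
    (rA : GQ →* M2 A) (hrA : IsDLift 𝒟 rA)
    (w : R →ₐ[𝒪] A) (hw : ∀ x ∈ J, (Ideal.Quotient.mk (Ideal.span {t})) (w x) = 0)
    (hcompat : mapRep (Ideal.Quotient.lift J
        ((Ideal.Quotient.mk (Ideal.span {t})).comp (w : R →+* A)) hw) r =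
      mapRep (Ideal.Quotient.mk (Ideal.span {t})) rA) :
    ∀ x ∈ J', w x = 0 := by
  by_cases hwJ : ∀ x ∈ J, w x = 0
  · exact fun x hx => hwJ x (hJ' hx)
  push_neg at hwJ
  obtain ⟨j₀, hj₀J, hj₀⟩ := hwJ
  have hJtop : J ≠ ⊤ := hr.ne_top
  -- `w` is a local hom
  have hwloc : IsLocalHom (w : R →+* A) := test_isLocalHom hA.isLocalHom hA.residue_surjective w
  -- `w j ∈ (t)` for `j ∈ J`
  have hwt : ∀ x ∈ J, ∃ c : A, w x = c * t := by
    intro x hx
    have := hw x hx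
    rw [Ideal.Quotient.eq_zero_iff_mem, Ideal.mem_span_singleton'] at this
    obtain ⟨c, hc⟩ := this
    exact ⟨c, hc.symm⟩
  obtain ⟨c₀, hc₀⟩ := hwt j₀ hj₀J
  have hc₀u : IsUnit c₀ := stepLift_isUnit_of_mul_socle_ne_zero hsoc (hc₀ ▸ hj₀)
  -- the ideal `K`
  let K : Ideal R := J ⊓ RingHom.ker (w : R →+* A)
  have hKJ : K ≤ J := inf_le_left
  have hKw : ∀ x ∈ K, w x = 0 := fun x hx => (Ideal.mem_inf.mp hx).2
  have hmK : maximalIdeal R * J ≤ K := by
    refine le_inf Ideal.mul_le_right ?_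
    rw [Ideal.mul_le]
    intro a ha x hx
    rw [RingHom.mem_ker]
    obtain ⟨c, hc⟩ := hwt x hx
    have hwa : w a ∈ maximalIdeal A := by
      rw [mem_maximalIdeal, mem_nonunits_iff]
      intro hu
      have := hwloc.map_nonunit a hu
      exact ((mem_maximalIdeal a).mp ha) this
    show w (a * x) = 0
    rw [map_mul, hc, mul_left_comm, hsoc _ hwa, mul_zero]
  have hKtop : K ≠ ⊤ := fun h => hJtop (top_le_iff.mp (h ▸ hKJ))
  have htop : Ideal.span {t} ≠ (⊤ : Ideal A) := by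
    intro h
    have : (1 : A) ∈ Ideal.span {t} := h ▸ Submodule.mem_top
    have h1 : (1 : A) ∈ maximalIdeal A :=
      (Ideal.span_singleton_le_iff_mem (maximalIdeal A)).mpr htm this
    exact (Ideal.ne_top_iff_one _).mp (maximalIdeal.isMaximal A).ne_top h1
  haveI := quot_isLocalRing K hKtop
  haveI := quot_isLocalRing J hJtop
  haveI := quot_isLocalRing (Ideal.span {t}) htop
  have hTK := quot_isTest hR K hKtop (n + 1) (step_pow_le hn hmK)
  have hTJ := quot_isTest hR J hJtop n hn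
  have hTt := test_quotient hA (Ideal.span {t}) htop
  -- the four maps
  let f : (R ⧸ J) →ₐ[𝒪] (A ⧸ Ideal.span {t}) :=
    Ideal.Quotient.liftₐ J ((Ideal.Quotient.mkₐ 𝒪 (Ideal.span {t})).comp w) hw
  let g : A →ₐ[𝒪] (A ⧸ Ideal.span {t}) := Ideal.Quotient.mkₐ 𝒪 (Ideal.span {t})
  let pA : (R ⧸ K) →ₐ[𝒪] (R ⧸ J) := Ideal.Quotient.factorₐ 𝒪 hKJ
  let pB : (R ⧸ K) →ₐ[𝒪] A := Ideal.Quotient.liftₐ K w hKw
  have hcomm : f.comp pA = g.comp pB := by
    apply AlgHom.ext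
    intro x
    obtain ⟨a, rfl⟩ := Ideal.Quotient.mk_surjective x
    rfl
  have hinj : Function.Injective (fun x => (pA x, pB x)) := by
    intro x y hxy
    obtain ⟨a, rfl⟩ := Ideal.Quotient.mk_surjective x
    obtain ⟨b, rfl⟩ := Ideal.Quotient.mk_surjective y
    simp only [Prod.mk.injEq] at hxy
    obtain ⟨h1, h2⟩ := hxy
    have h1' : Ideal.Quotient.mk J a = Ideal.Quotient.mk J b := h1
    have h2' : w a = w b := h2
    rw [Ideal.Quotient.eq] at h1' ⊢
    refine Ideal.mem_inf.mpr ⟨h1', ?_⟩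
    rw [RingHom.mem_ker]
    show w (a - b) = 0
    rw [map_sub, h2', sub_self]
  have hsurj : ∀ (a : R ⧸ J) (b : A), f a = g b → ∃ x, pA x = a ∧ pB x = b := by
    intro a b hab
    obtain ⟨x, rfl⟩ := Ideal.Quotient.mk_surjective a
    have hab' : Ideal.Quotient.mk (Ideal.span {t}) (w x) = Ideal.Quotient.mk (Ideal.span {t}) b :=
      hab
    rw [Ideal.Quotient.eq, Ideal.mem_span_singleton'] at hab'
    obtain ⟨c, hc⟩ := hab'
    -- `b = w x - c * t`; find `j ∈ J` with `w j = - c * t`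
    obtain ⟨u, rfl⟩ := hc₀u
    obtain ⟨o, ho⟩ := test_exists_add hA (-(c * (↑u⁻¹ : A)))
    have hj : w (o • j₀) = -(c * t) := by
      rw [map_smul, hc₀, Algebra.smul_def]
      have h0 := hsoc _ ho
      have hu : (↑u⁻¹ : A) * (↑u : A) = 1 := Units.inv_mul u
      linear_combination (-(↑u : A)) * h0 - c * t * hu
    refine ⟨Ideal.Quotient.mk K (x + o • j₀), ?_, ?_⟩
    · show Ideal.Quotient.mk J (x + o • j₀) = Ideal.Quotient.mk J x
      rw [Ideal.Quotient.eq]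
      rw [add_sub_cancel_left]
      exact Submodule.smul_of_tower_mem J o hj₀J
    · show w (x + o • j₀) = b
      rw [map_add, hj]
      linear_combination (-1 : A) * hc
  have hAB : mapRep (f : (R ⧸ J) →+* (A ⧸ Ideal.span {t})) r =
      mapRep (g : A →+* (A ⧸ Ideal.span {t})) rA := hcompat
  obtain ⟨r', hr', e₁, -⟩ := IsDLift.glue_exists h𝒟 hTJ hA hTt hTK f g pA pB hcomm hinj hsurj
    hr.isDLift hrA hAB
  have hJ'K : J' ≤ K := hmin K hKJ r' hmK ⟨hKtop, hr'⟩ e₁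
  exact fun x hx => hKw x (hJ'K hx)

end Fermat.Agent.S53
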