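import Fermat.Agent.S53.DLift

/-!
# S53 / Core K1 — tangent vectors
-/

set_option autoImplicit false
set_option linter.unusedSectionVars false

noncomputable section

namespace Fermat.Agent.S53

open IsLocalRing GaloisRep TrivSqZeroExt

variable {𝒪 : Type} [CommRing 𝒪] [IsDomain 𝒪] [IsDiscreteValuationRing 𝒪]
  [IsAdicComplete (maximalIdeal 𝒪) 𝒪] [Finite (ResidueField 𝒪)]
  (ρbar : ResidualGaloisRep (ResidueField 𝒪))
  (𝒟 : ∀ ⦃A : Type⦄ [CommRing A] [IsLocalRing A] [Algebra 𝒪 A], GaloisRepAdic A → Prop)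

/-- the (set-theoretic) tangent lift attached to `b`. -/
def tanFun (b : GQ → M2 (ResidueField 𝒪)) (g : GQ) : M2 (DualNumber (ResidueField 𝒪)) :=
  (rhobarM ρbar g).map inl + (b g).map inr

/-- `b` is a `𝒟`-tangent vector. -/
def IsTan (b : GQ → M2 (ResidueField 𝒪)) : Prop :=
  ∃ r : GQ →* M2 (DualNumber (ResidueField 𝒪)), (∀ g, r g = tanFun ρbar b g) ∧ IsDLift 𝒟 r

/-- the (set-theoretic) lift over `Eps n` attached to a family `c`. -/
def epsFun {n : ℕ} (c : Fin n → GQ → M2 (ResidueField 𝒪)) (g : GQ) : M2 (Eps 𝒪 n) :=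
  (rhobarM ρbar g).map inl + (Matrix.of fun i j => (inr (fun l => c l g i j) : Eps 𝒪 n))

/-- the linear functional `v ↦ ∑ a_l v_l`. -/
def linFun {k : Type} [Field k] {n : ℕ} (a : Fin n → k) : (Fin n → k) →ₗ[k] k where
  toFun v := ∑ l, a l * v l
  map_add' v w := by simp [mul_add, Finset.sum_add_distrib]
  map_smul' c v := by simp [Finset.mul_sum, mul_left_comm]

@[simp] lemma linFun_apply {k : Type} [Field k] {n : ℕ} (a : Fin n → k) (v : Fin n → k) :
    linFun a v = ∑ l, a l * v l := rfl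

/-- `Eps n → k[ε]` induced by a linear functional -/
def epsTo {n : ℕ} (a : Fin n → ResidueField 𝒪) : Eps 𝒪 n →ₐ[𝒪] DualNumber (ResidueField 𝒪) :=
  (TrivSqZeroExt.map (linFun a)).restrictScalars 𝒪

@[simp] lemma epsTo_fst {n : ℕ} (a : Fin n → ResidueField 𝒪) (x : Eps 𝒪 n) :
    (epsTo a x).fst = x.fst := TrivSqZeroExt.fst_map _ _

@[simp] lemma epsTo_snd {n : ℕ} (a : Fin n → ResidueField 𝒪) (x : Eps 𝒪 n) :
    (epsTo a x).snd = ∑ l, a l * x.snd l := TrivSqZeroExt.snd_map _ _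

end Fermat.Agent.S53

namespace Fermat.Agent.S53

open IsLocalRing GaloisRep TrivSqZeroExt

variable {𝒪 : Type} [CommRing 𝒪] [IsDomain 𝒪] [IsDiscreteValuationRing 𝒪]
  [IsAdicComplete (maximalIdeal 𝒪) 𝒪] [Finite (ResidueField 𝒪)]
  {ρbar : ResidualGaloisRep (ResidueField 𝒪)}
  {𝒟 : ∀ ⦃A : Type⦄ [CommRing A] [IsLocalRing A] [Algebra 𝒪 A], GaloisRepAdic A → Prop}

lemma matCont_rhobarM : MatCont (rhobarM ρbar) := by
  intro n
  obtain ⟨L, hL, h⟩ := ρbar.factorsThroughFiniteLevel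
  refine ⟨L, hL, fun σ hσ i j => ?_⟩
  have : rhobarM ρbar σ = 1 := by
    rw [rhobarM_apply, h σ hσ]
    exact LinearMap.toMatrix_one _
  rw [this, sub_self]
  exact Ideal.zero_mem _

lemma ofResidual_isEquiv_matRep :
    (GaloisRepAdic.ofResidualGaloisRep ρbar).IsEquiv (matRep (rhobarM ρbar) matCont_rhobarM) := by
  refine ⟨{ toLinearEquiv := (rhobarBasis ρbar).equivFun, map_apply := ?_ }⟩
  intro σ x
  show (rhobarBasis ρbar).equivFun (ρbar.ρ σ x) =
    (rhobarM ρbar σ).mulVec ((rhobarBasis ρbar).equivFun x)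
  rw [rhobarM_apply]
  exact (LinearMap.toMatrix_mulVec_repr (rhobarBasis ρbar) (rhobarBasis ρbar) (ρbar.ρ σ) x).symm

lemma isDLift_rhobarM (h𝒟 : IsDeformationCondition 𝒪 𝒟)
    (hbar : 𝒟 (GaloisRepAdic.ofResidualGaloisRep ρbar)) : IsDLift 𝒟 (rhobarM ρbar) :=
  ⟨matCont_rhobarM, h𝒟.of_isEquiv test_residueField ofResidual_isEquiv_matRep hbar⟩

variable (𝒪) in
/-- restriction to the first `n` coordinates -/
def epsInit (n : ℕ) : Eps 𝒪 (n + 1) →ₐ[𝒪] Eps 𝒪 n :=
  (TrivSqZeroExt.map (LinearMap.funLeft (ResidueField 𝒪) (ResidueField 𝒪)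
    (Fin.castSucc : Fin n → Fin (n + 1)))).restrictScalars 𝒪

variable (𝒪) in
/-- the last coordinate -/
def epsLast (n : ℕ) : Eps 𝒪 (n + 1) →ₐ[𝒪] DualNumber (ResidueField 𝒪) :=
  (TrivSqZeroExt.map (LinearMap.proj (R := ResidueField 𝒪)
    (φ := fun _ : Fin (n + 1) => ResidueField 𝒪) (Fin.last n))).restrictScalars 𝒪

lemma epsInit_apply (n : ℕ) (x : Eps 𝒪 (n + 1)) :
    epsInit 𝒪 n x = inl x.fst + inr (fun l => x.snd l.castSucc) := by
  apply TrivSqZeroExt.ext
  · simp [epsInit]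
  · simp [epsInit]; rfl

lemma epsLast_apply (n : ℕ) (x : Eps 𝒪 (n + 1)) :
    epsLast 𝒪 n x = inl x.fst + inr (x.snd (Fin.last n)) := by
  apply TrivSqZeroExt.ext
  · simp [epsLast]
  · simp [epsLast]

theorem epsRep_exists (h𝒟 : IsDeformationCondition 𝒪 𝒟)
    (hbar : 𝒟 (GaloisRepAdic.ofResidualGaloisRep ρbar)) :
    ∀ (n : ℕ) (c : Fin n → GQ → M2 (ResidueField 𝒪)), (∀ l, IsTan ρbar 𝒟 (c l)) →
      ∃ r : GQ →* M2 (Eps 𝒪 n), (∀ g, r g = epsFun ρbar c g) ∧ IsDLift 𝒟 r := by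
  intro n
  induction n with
  | zero =>
    intro c _
    refine ⟨mapRep ((TrivSqZeroExt.inlAlgHom 𝒪 (ResidueField 𝒪) (Fin 0 → ResidueField 𝒪) :
      ResidueField 𝒪 →ₐ[𝒪] Eps 𝒪 0) : ResidueField 𝒪 →+* Eps 𝒪 0) (rhobarM ρbar), ?_, ?_⟩
    · intro g
      refine Matrix.ext fun i j => ?_
      simp only [mapRep_apply, epsFun, Matrix.add_apply, Matrix.map_apply, Matrix.of_apply]
      have : (fun l : Fin 0 => c l g i j) = 0 := by
        funext l; exact l.elim0
      rw [this, inr_zero, add_zero]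
      rfl
    · exact (isDLift_rhobarM h𝒟 hbar).map h𝒟 test_residueField (eps_isTest 0) _
  | succ n ih =>
    intro c hc
    obtain ⟨rA, hrA, hDA⟩ := ih (fun l => c l.castSucc) (fun l => hc _)
    obtain ⟨rB, hrB, hDB⟩ := hc (Fin.last n)
    have hinj : Function.Injective
        (fun x : Eps 𝒪 (n + 1) => (epsInit 𝒪 n x, epsLast 𝒪 n x)) := by
      intro x y hxy
      simp only [Prod.mk.injEq, epsInit_apply, epsLast_apply] at hxy
      obtain ⟨h1, h2⟩ := hxy
      have f1 := congrArg TrivSqZeroExt.fst h1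
      have s1 := congrArg TrivSqZeroExt.snd h1
      have s2 := congrArg TrivSqZeroExt.snd h2
      simp at f1 s1 s2
      apply TrivSqZeroExt.ext f1
      funext l
      refine Fin.lastCases ?_ (fun l' => ?_) l
      · exact s2
      · exact congrFun s1 l'
    have hA : ∀ g, (epsFun ρbar c g).map (epsInit 𝒪 n : Eps 𝒪 (n + 1) →+* Eps 𝒪 n) = rA g := by
      intro g
      rw [hrA]
      refine Matrix.ext fun i j => ?_
      simp only [Matrix.map_apply, epsFun, Matrix.add_apply, Matrix.of_apply]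
      show epsInit 𝒪 n _ = _
      rw [epsInit_apply]
      simp
    have hB : ∀ g, (epsFun ρbar c g).map
        (epsLast 𝒪 n : Eps 𝒪 (n + 1) →+* DualNumber (ResidueField 𝒪)) = rB g := by
      intro g
      rw [hrB]
      refine Matrix.ext fun i j => ?_
      simp only [Matrix.map_apply, epsFun, tanFun, Matrix.add_apply, Matrix.of_apply]
      show epsLast 𝒪 n _ = _
      rw [epsLast_apply]
      simp
    obtain ⟨r, hr⟩ := monoidHom_of_jointly_injective
      (epsInit 𝒪 n : Eps 𝒪 (n + 1) →+* Eps 𝒪 n)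
      (epsLast 𝒪 n : Eps 𝒪 (n + 1) →+* DualNumber (ResidueField 𝒪)) hinj
      (epsFun ρbar c) rA rB hA hB
    refine ⟨r, hr, ?_⟩
    have e1 : mapRep (epsInit 𝒪 n : Eps 𝒪 (n + 1) →+* Eps 𝒪 n) r = rA := by
      refine MonoidHom.ext fun g => Matrix.ext fun i j => ?_
      have := congrFun (congrFun (hA g) i) j
      rw [← hr] at this
      exact this
    have e2 : mapRep (epsLast 𝒪 n : Eps 𝒪 (n + 1) →+* DualNumber (ResidueField 𝒪)) r = rB := by
      refine MonoidHom.ext fun g => Matrix.ext fun i j => ?_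
      have := congrFun (congrFun (hB g) i) j
      rw [← hr] at this
      exact this
    have hcont : MatCont r :=
      matCont_of_jointly_injective (eps_isTest n) dual_isTest (eps_isTest (n + 1))
        (epsInit 𝒪 n : Eps 𝒪 (n + 1) →+* Eps 𝒪 n)
        (epsLast 𝒪 n : Eps 𝒪 (n + 1) →+* DualNumber (ResidueField 𝒪)) hinj
        (by rw [e1]; exact hDA.matCont) (by rw [e2]; exact hDB.matCont)
    refine IsDLift.glue h𝒟 (eps_isTest n) dual_isTest test_residueField (eps_isTest (n + 1))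
      (TrivSqZeroExt.fstHom 𝒪 (ResidueField 𝒪) (Fin n → ResidueField 𝒪))
      (TrivSqZeroExt.fstHom 𝒪 (ResidueField 𝒪) (ResidueField 𝒪))
      (epsInit 𝒪 n) (epsLast 𝒪 n) ?_ hinj ?_ hcont (by rw [e1]; exact hDA) (by rw [e2]; exact hDB)
    · refine AlgHom.ext fun x => ?_
      show (epsInit 𝒪 n x).fst = (epsLast 𝒪 n x).fst
      rw [epsInit_apply, epsLast_apply]
      simp
    · intro a b hab
      refine ⟨inl a.fst + inr (Fin.snoc (α := fun _ => ResidueField 𝒪) a.snd b.snd), ?_, ?_⟩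
      · rw [epsInit_apply]
        apply TrivSqZeroExt.ext
        · simp
        · simp
      · rw [epsLast_apply]
        have hab' : a.fst = b.fst := hab
        apply TrivSqZeroExt.ext
        · simp [hab']
        · simp

end Fermat.Agent.S53
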