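import Fermat.Agent.S53.Tangent
import Fermat.Agent.S53.Schur

/-!
# S53 / Core K1 (continued) — the tangent space is a finite-dimensional vector space
-/

set_option autoImplicit false
set_option linter.unusedSectionVars false

noncomputable section

namespace Fermat.Agent.S53

open IsLocalRing GaloisRep TrivSqZeroExt

variable {𝒪 : Type} [CommRing 𝒪] [IsDomain 𝒪] [IsDiscreteValuationRing 𝒪]
  [IsAdicComplete (maximalIdeal 𝒪) 𝒪] [Finite (ResidueField 𝒪)]
  {ρbar : ResidualGaloisRep (ResidueField 𝒪)}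
  {𝒟 : ∀ ⦃A : Type⦄ [CommRing A] [IsLocalRing A] [Algebra 𝒪 A], GaloisRepAdic A → Prop}

/-- linear combination of a family of functions `GQ → M2 k`. -/
def tanSum {n : ℕ} (c : Fin n → GQ → M2 (ResidueField 𝒪)) (a : Fin n → ResidueField 𝒪) :
    GQ → M2 (ResidueField 𝒪) := fun g => ∑ l, a l • c l g

lemma tanSum_apply {n : ℕ} (c : Fin n → GQ → M2 (ResidueField 𝒪)) (a : Fin n → ResidueField 𝒪)
    (g : GQ) (i j : Fin 2) : tanSum c a g i j = ∑ l, a l * c l g i j := by
  simp [tanSum, Matrix.sum_apply]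

lemma mapRep_epsTo {n : ℕ} (c : Fin n → GQ → M2 (ResidueField 𝒪)) (a : Fin n → ResidueField 𝒪)
    (r : GQ →* M2 (Eps 𝒪 n)) (hr : ∀ g, r g = epsFun ρbar c g) (g : GQ) :
    mapRep ((epsTo a : Eps 𝒪 n →ₐ[𝒪] DualNumber (ResidueField 𝒪)) :
      Eps 𝒪 n →+* DualNumber (ResidueField 𝒪)) r g = tanFun ρbar (tanSum c a) g := by
  refine Matrix.ext fun i j => ?_
  rw [mapRep_apply, hr]
  simp only [epsFun, tanFun, Matrix.add_apply, Matrix.map_apply, Matrix.of_apply]
  apply TrivSqZeroExt.ext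
  · show (epsTo a _).fst = _
    rw [epsTo_fst]
    simp
  · show (epsTo a _).snd = _
    rw [epsTo_snd]
    simp [tanSum_apply]

/-- linear combinations of tangent vectors are tangent vectors. -/
theorem isTan_tanSum (h𝒟 : IsDeformationCondition 𝒪 𝒟)
    (hbar : 𝒟 (GaloisRepAdic.ofResidualGaloisRep ρbar))
    {n : ℕ} (c : Fin n → GQ → M2 (ResidueField 𝒪)) (hc : ∀ l, IsTan ρbar 𝒟 (c l))
    (a : Fin n → ResidueField 𝒪) : IsTan ρbar 𝒟 (tanSum c a) := by
  obtain ⟨r, hr, hD⟩ := epsRep_exists h𝒟 hbar n c hc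
  exact ⟨_, mapRep_epsTo c a r hr, hD.map h𝒟 (eps_isTest n) dual_isTest (epsTo a)⟩

variable (ρbar 𝒟) in
/-- the tangent space as a `k`-submodule. -/
def tanSpace (h𝒟 : IsDeformationCondition 𝒪 𝒟)
    (hbar : 𝒟 (GaloisRepAdic.ofResidualGaloisRep ρbar)) :
    Submodule (ResidueField 𝒪) (GQ → M2 (ResidueField 𝒪)) where
  carrier := {b | IsTan ρbar 𝒟 b}
  zero_mem' := by
    have := isTan_tanSum h𝒟 hbar (n := 0) (fun l => l.elim0) (fun l => l.elim0) (fun l => l.elim0)
    have e : tanSum (fun l : Fin 0 => l.elim0) (fun l : Fin 0 => l.elim0) =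
        (0 : GQ → M2 (ResidueField 𝒪)) := by
      funext g
      simp [tanSum]
    rw [e] at this
    exact this
  add_mem' := by
    intro b b' hb hb'
    have := isTan_tanSum h𝒟 hbar (n := 2) ![b, b']
      (by intro l; fin_cases l <;> simp <;> assumption) ![1, 1]
    have e : tanSum ![b, b'] ![1, 1] = b + b' := by
      funext g
      simp [tanSum, Fin.sum_univ_two]
    rw [e] at this
    exact this
  smul_mem' := by
    intro a b hb
    have := isTan_tanSum h𝒟 hbar (n := 1) ![b]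
      (by intro l; fin_cases l; simpa using hb) ![a]
    have e : tanSum ![b] ![a] = a • b := by
      funext g
      simp [tanSum]
    rw [e] at this
    exact this

lemma mem_tanSpace (h𝒟 : IsDeformationCondition 𝒪 𝒟)
    (hbar : 𝒟 (GaloisRepAdic.ofResidualGaloisRep ρbar)) (b : GQ → M2 (ResidueField 𝒪)) :
    b ∈ tanSpace ρbar 𝒟 h𝒟 hbar ↔ IsTan ρbar 𝒟 b := Iff.rfl

variable (ρbar) in
/-- coboundaries -/
def cob : M2 (ResidueField 𝒪) →ₗ[ResidueField 𝒪] (GQ → M2 (ResidueField 𝒪)) where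
  toFun X := fun g => X * rhobarM ρbar g - rhobarM ρbar g * X
  map_add' X Y := by
    funext g
    simp only [Pi.add_apply, add_mul, mul_add]
    abel
  map_smul' a X := by
    funext g
    simp only [Pi.smul_apply, RingHom.id_apply, smul_sub, Matrix.smul_mul, Matrix.mul_smul]

lemma cob_apply (X : M2 (ResidueField 𝒪)) (g : GQ) :
    cob ρbar X g = X * rhobarM ρbar g - rhobarM ρbar g * X := rfl

end Fermat.Agent.S53
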