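import Fermat.Agent.S53.Tangent2
import Fermat.Agent.S53.Exact

/-!
# S53 / Core K1 (end) — a basis of the tangent space modulo coboundaries

INPUT: `TangentFinite` (finiteness of the set of equivalence classes of `𝒟`-deformations over
`k[ε]`), Schur's lemma, the `MatRep` dictionary.

MATH.  `T := tanSpace` is a `k`-subspace of `GQ → M2 k`, `B := range cob ≤ T`
(`isTan_cob`: conjugate the constant lift `ρM.map inl` by `1 + ε X`).
The map `T → (TangentFinite quotient)`, `b ↦ [matRep (ρM + ε b)]` has fibres contained in cosets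
of `B` (if `ρM + ε b'` is conjugate to `ρM + ε b` by `γ = γ₀ + ε γ₁`, then `γ₀` commutes with
`ρM`, hence is a scalar `a ≠ 0` by `schur_residual`, and then `b' - b = cob (a⁻¹ γ₁)`).
Hence `T ⧸ B` is finite, hence finite-dimensional; lift a basis.
-/

set_option autoImplicit false
set_option linter.unusedSectionVars false

noncomputable section

namespace Fermat.Agent.S53

open IsLocalRing GaloisRep TrivSqZeroExt

section dualmat

variable {k : Type} [Field k]

lemma map_inr_mul_map_inr (X Y : M2 k) :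
    (X.map inr : M2 (DualNumber k)) * Y.map inr = 0 := by
  refine Matrix.ext fun i j => ?_
  simp [Matrix.mul_apply]

lemma map_inr_mul_map_inl (X Y : M2 k) :
    (X.map inr : M2 (DualNumber k)) * Y.map inl = (X * Y).map inr := by
  refine Matrix.ext fun i j => ?_
  simp only [Matrix.mul_apply, Matrix.map_apply, Fin.sum_univ_two]
  apply TrivSqZeroExt.ext <;> simp

lemma map_inl_mul_map_inr (X Y : M2 k) :
    (X.map inl : M2 (DualNumber k)) * Y.map inr = (X * Y).map inr := by
  refine Matrix.ext fun i j => ?_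
  simp only [Matrix.mul_apply, Matrix.map_apply, Fin.sum_univ_two]
  apply TrivSqZeroExt.ext
  · simp
  · simp
    ring

lemma map_inl_mul_map_inl (X Y : M2 k) :
    (X.map inl : M2 (DualNumber k)) * Y.map inl = (X * Y).map inl := by
  refine Matrix.ext fun i j => ?_
  simp only [Matrix.mul_apply, Matrix.map_apply, Fin.sum_univ_two]
  apply TrivSqZeroExt.ext <;> simp

lemma map_fst_mul (M N : M2 (DualNumber k)) :
    (M * N).map fst = M.map fst * N.map fst := by
  refine Matrix.ext fun i j => ?_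
  simp only [Matrix.mul_apply, Matrix.map_apply, Fin.sum_univ_two]
  simp

lemma map_snd_mul (M N : M2 (DualNumber k)) :
    (M * N).map snd = M.map fst * N.map snd + M.map snd * N.map fst := by
  refine Matrix.ext fun i j => ?_
  simp only [Matrix.mul_apply, Matrix.map_apply, Matrix.add_apply, Fin.sum_univ_two]
  simp
  ring

end dualmat

variable {𝒪 : Type} [CommRing 𝒪] [IsDomain 𝒪] [IsDiscreteValuationRing 𝒪]
  [IsAdicComplete (maximalIdeal 𝒪) 𝒪] [Finite (ResidueField 𝒪)]
  {ρbar : ResidualGaloisRep (ResidueField 𝒪)}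
  {𝒟 : ∀ ⦃A : Type⦄ [CommRing A] [IsLocalRing A] [Algebra 𝒪 A], GaloisRepAdic A → Prop}

lemma tanFun_map_fst (b : GQ → M2 (ResidueField 𝒪)) (g : GQ) :
    (tanFun ρbar b g).map fst = rhobarM ρbar g := by
  refine Matrix.ext fun i j => ?_
  simp [tanFun]

lemma tanFun_map_snd (b : GQ → M2 (ResidueField 𝒪)) (g : GQ) :
    (tanFun ρbar b g).map snd = b g := by
  refine Matrix.ext fun i j => ?_
  simp [tanFun]

/-- the unit `1 + ε X`. -/
def epsUnit {k : Type} [Field k] (X : M2 k) : (M2 (DualNumber k))ˣ where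
  val := 1 + X.map inr
  inv := 1 - X.map inr
  val_inv := by
    rw [add_mul, mul_sub, mul_sub, mul_one, mul_one, one_mul, map_inr_mul_map_inr]
    abel
  inv_val := by
    rw [sub_mul, mul_add, mul_add, mul_one, mul_one, one_mul, map_inr_mul_map_inr]
    abel

/-- coboundaries are tangent vectors. -/
theorem isTan_cob (h𝒟 : IsDeformationCondition 𝒪 𝒟)
    (hbar : 𝒟 (GaloisRepAdic.ofResidualGaloisRep ρbar)) (X : M2 (ResidueField 𝒪)) :
    IsTan ρbar 𝒟 (cob ρbar X) := by
  have h0 : IsDLift 𝒟 (mapRep ((TrivSqZeroExt.inlAlgHom 𝒪 (ResidueField 𝒪) (ResidueField 𝒪) :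
      ResidueField 𝒪 →ₐ[𝒪] DualNumber (ResidueField 𝒪)) :
      ResidueField 𝒪 →+* DualNumber (ResidueField 𝒪)) (rhobarM ρbar)) :=
    (isDLift_rhobarM h𝒟 hbar).map h𝒟 test_residueField dual_isTest _
  refine ⟨conjRep (epsUnit X) _, ?_, h0.conj h𝒟 dual_isTest (conj_conjRep (epsUnit X) _)⟩
  intro g
  rw [conjRep_apply]
  have e1 : mapRep ((TrivSqZeroExt.inlAlgHom 𝒪 (ResidueField 𝒪) (ResidueField 𝒪) :
      ResidueField 𝒪 →ₐ[𝒪] DualNumber (ResidueField 𝒪)) :
      ResidueField 𝒪 →+* DualNumber (ResidueField 𝒪)) (rhobarM ρbar) g =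
      (rhobarM ρbar g).map inl := rfl
  rw [e1]
  show (1 + X.map inr) * (rhobarM ρbar g).map inl * (1 - X.map inr) = _
  rw [add_mul, one_mul, mul_sub, mul_one, add_mul, map_inr_mul_map_inl, map_inl_mul_map_inr,
    map_inr_mul_map_inr, tanFun, cob_apply]
  refine Matrix.ext fun i j => ?_
  simp only [Matrix.add_apply, Matrix.sub_apply, Matrix.map_apply, Matrix.zero_apply]
  apply TrivSqZeroExt.ext <;> simp

instance dual_isLocalHom : IsLocalHom (algebraMap 𝒪 (DualNumber (ResidueField 𝒪))) :=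
  (dual_isTest (𝒪 := 𝒪)).isLocalHom

instance eps_isLocalHom (n : ℕ) : IsLocalHom (algebraMap 𝒪 (Eps 𝒪 n)) :=
  (eps_isTest (𝒪 := 𝒪) n).isLocalHom

lemma finite_of_quotient_map {α β : Type*} {S : Setoid α} (hfin : Finite (Quotient S))
    (S' : Setoid β) (f : β → α) (h : ∀ x y, S.r (f x) (f y) → S'.r x y) :
    Finite (Quotient S') := by
  refine Finite.of_injective (fun x : Quotient S' => (Quotient.mk S (f x.out))) ?_
  intro x y hxy
  have h1 : S.r (f x.out) (f y.out) := Quotient.exact hxy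
  have h2 := h _ _ h1
  rw [← Quotient.out_eq x, ← Quotient.out_eq y]
  exact Quotient.sound h2

/-- lifts of the form `ρM + ε b` are exact. -/
lemma isExact_of_tanFun {b : GQ → M2 (ResidueField 𝒪)}
    {r : GQ →* M2 (DualNumber (ResidueField 𝒪))} (hr : ∀ g, r g = tanFun ρbar b g) :
    IsExact ρbar r := by
  rw [isExact_iff]
  intro g i j o ho
  rw [dual_mem_maximalIdeal, hr]
  simp only [tanFun, Matrix.add_apply, Matrix.map_apply, fst_sub, fst_add, fst_inl, fst_inr,
    add_zero]
  rw [← ho, sub_eq_zero]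
  rfl

lemma residueMap_dual_eq :
    ResidueField.map (algebraMap 𝒪 (DualNumber (ResidueField 𝒪))) =
      (residue (DualNumber (ResidueField 𝒪))).comp
        (algebraMap (ResidueField 𝒪) (DualNumber (ResidueField 𝒪))) := by
  refine RingHom.ext fun x => ?_
  obtain ⟨o, rfl⟩ := Ideal.Quotient.mk_surjective x
  rfl

lemma sub_mem_range_cob_of_conj (habs : ρbar.IsAbsolutelyIrreducible)
    {b b' : GQ → M2 (ResidueField 𝒪)} {r r' : GQ →* M2 (DualNumber (ResidueField 𝒪))}
    (hr : ∀ g, r g = tanFun ρbar b g) (hr' : ∀ g, r' g = tanFun ρbar b' g) (h : Conj r r') :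
    b' - b ∈ LinearMap.range (cob ρbar) := by
  obtain ⟨γ, hγ⟩ := h
  have h1 : ∀ g, r' g * (γ : M2 (DualNumber (ResidueField 𝒪))) = γ * r g := fun g => by
    rw [hγ g, mul_assoc, Units.inv_mul, mul_one]
  have hf : ∀ g, rhobarM ρbar g * (γ : M2 (DualNumber (ResidueField 𝒪))).map fst =
      (γ : M2 (DualNumber (ResidueField 𝒪))).map fst * rhobarM ρbar g := by
    intro g
    have := congrArg (fun M : M2 (DualNumber (ResidueField 𝒪)) => M.map fst) (h1 g)
    simp only [map_fst_mul, hr, hr', tanFun_map_fst] at this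
    exact this
  have hs : ∀ g, rhobarM ρbar g * (γ : M2 (DualNumber (ResidueField 𝒪))).map snd +
      b' g * (γ : M2 (DualNumber (ResidueField 𝒪))).map fst =
      (γ : M2 (DualNumber (ResidueField 𝒪))).map fst * b g +
      (γ : M2 (DualNumber (ResidueField 𝒪))).map snd * rhobarM ρbar g := by
    intro g
    have := congrArg (fun M : M2 (DualNumber (ResidueField 𝒪)) => M.map snd) (h1 g)
    simp only [map_snd_mul, hr, hr', tanFun_map_fst, tanFun_map_snd] at this
    exact this
  obtain ⟨a, ha⟩ := schur_residual ρbar habs _ (fun g => (hf g).symm)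
  have hinv : (γ : M2 (DualNumber (ResidueField 𝒪))).map fst *
      (((γ⁻¹ : (M2 (DualNumber (ResidueField 𝒪)))ˣ) :
        M2 (DualNumber (ResidueField 𝒪)))).map fst = 1 := by
    rw [← map_fst_mul, Units.mul_inv]
    refine Matrix.ext fun i j => ?_
    by_cases hij : i = j
    · subst hij; simp
    · simp [Matrix.one_apply_ne hij]
  have ha0 : a ≠ 0 := by
    rintro rfl
    rw [ha] at hinv
    have := congrFun (congrFun hinv 0) 0
    simp at this
  refine ⟨a⁻¹ • (γ : M2 (DualNumber (ResidueField 𝒪))).map snd, ?_⟩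
  funext g
  rw [cob_apply]
  have hs' := hs g
  rw [ha, Matrix.scalar_apply, ← Matrix.smul_eq_mul_diagonal, ← Matrix.smul_eq_diagonal_mul]
    at hs'
  have e : (γ : M2 (DualNumber (ResidueField 𝒪))).map snd * rhobarM ρbar g -
      rhobarM ρbar g * (γ : M2 (DualNumber (ResidueField 𝒪))).map snd = a • (b' g - b g) := by
    rw [smul_sub, sub_eq_sub_iff_add_eq_add, add_comm, ← hs', add_comm]
  rw [Matrix.smul_mul, Matrix.mul_smul, ← smul_sub, e, smul_smul, inv_mul_cancel₀ ha0, one_smul]
  rfl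

/-- the tangent space modulo coboundaries is finite. -/
theorem tangent_finite (habs : ρbar.IsAbsolutelyIrreducible)
    (h𝒟 : IsDeformationCondition 𝒪 𝒟)
    (hbar : 𝒟 (GaloisRepAdic.ofResidualGaloisRep ρbar))
    (hfin : TangentFinite 𝒪 ρbar 𝒟) :
    Finite ((tanSpace ρbar 𝒟 h𝒟 hbar) ⧸
      ((LinearMap.range (cob ρbar)).comap (tanSpace ρbar 𝒟 h𝒟 hbar).subtype)) := by
  have hex : ∀ b : tanSpace ρbar 𝒟 h𝒟 hbar,
      ∃ r : GQ →* M2 (DualNumber (ResidueField 𝒪)),
        (∀ g, r g = tanFun ρbar b.1 g) ∧ IsDLift 𝒟 r := fun b => b.2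
  choose r hr hD using hex
  unfold TangentFinite at hfin
  refine finite_of_quotient_map hfin
    (Submodule.quotientRel ((LinearMap.range (cob ρbar)).comap
      (tanSpace ρbar 𝒟 h𝒟 hbar).subtype))
    (fun b => ⟨matRep (r b) (hD b).matCont, ?_, ?_⟩) ?_
  · have h := (hD b).2
    rw [dual_algebra_eq]
    exact h
  · have h := matRep_residual_isEquiv ρbar (r b) (hD b).matCont (isExact_of_tanFun (hr b))
    rw [residueMap_dual_eq] at h
    exact h
  · intro b b' hbb'
    have hc : Conj (r b) (r b') :=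
      (matRep_isEquiv_iff (r b) (r b') (hD b).matCont (hD b').matCont).1 hbb'
    have := sub_mem_range_cob_of_conj habs (hr b) (hr b') hc
    rw [Submodule.quotientRel_def, Submodule.mem_comap]
    have h2 : (tanSpace ρbar 𝒟 h𝒟 hbar).subtype (b - b') = -(b'.1 - b.1) := by
      simp
    rw [h2]
    exact Submodule.neg_mem _ this

/-- a basis of the tangent space modulo coboundaries. -/
theorem exists_tangent_basis (habs : ρbar.IsAbsolutelyIrreducible)
    (h𝒟 : IsDeformationCondition 𝒪 𝒟)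
    (hbar : 𝒟 (GaloisRepAdic.ofResidualGaloisRep ρbar))
    (hfin : TangentFinite 𝒪 ρbar 𝒟) :
    ∃ (d : ℕ) (c : Fin d → GQ → M2 (ResidueField 𝒪)), (∀ l, IsTan ρbar 𝒟 (c l)) ∧
      (∀ b, IsTan ρbar 𝒟 b →
        ∃ (a : Fin d → ResidueField 𝒪) (X : M2 (ResidueField 𝒪)), b = tanSum c a + cob ρbar X) ∧
      (∀ (a : Fin d → ResidueField 𝒪) (X : M2 (ResidueField 𝒪)),
        tanSum c a = cob ρbar X → a = 0) := by
  set T := tanSpace ρbar 𝒟 h𝒟 hbar with hT
  set B := (LinearMap.range (cob ρbar)).comap T.subtype with hB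
  haveI : Finite (T ⧸ B) := tangent_finite habs h𝒟 hbar hfin
  haveI : Module.Finite (ResidueField 𝒪) (T ⧸ B) := Module.Finite.of_finite
  set d := Module.finrank (ResidueField 𝒪) (T ⧸ B) with hd
  let e : Module.Basis (Fin d) (ResidueField 𝒪) (T ⧸ B) := Module.finBasis (ResidueField 𝒪) (T ⧸ B)
  have hlift : ∀ l, ∃ t : T, B.mkQ t = e l := fun l => B.mkQ_surjective (e l)
  choose c hc using hlift
  have hsum : ∀ a : Fin d → ResidueField 𝒪,
      tanSum (fun l => (c l).1) a = ((∑ l, a l • c l : T) : GQ → M2 (ResidueField 𝒪)) := by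
    intro a
    funext g
    simp only [tanSum]
    rw [Submodule.coe_sum, Finset.sum_apply]
    rfl
  have hmk : ∀ a : Fin d → ResidueField 𝒪, B.mkQ (∑ l, a l • c l) = ∑ l, a l • e l := by
    intro a
    rw [map_sum]
    refine Finset.sum_congr rfl fun l _ => ?_
    rw [map_smul, hc]
  refine ⟨d, fun l => (c l).1, fun l => (c l).2, ?_, ?_⟩
  · intro b hb
    let bT : T := ⟨b, hb⟩
    let a : Fin d → ResidueField 𝒪 := fun l => e.repr (B.mkQ bT) l
    have h1 : B.mkQ (bT - ∑ l, a l • c l) = 0 := by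
      rw [map_sub, hmk, sub_eq_zero]
      exact (e.sum_repr (B.mkQ bT)).symm
    have h2 : bT - ∑ l, a l • c l ∈ B := by
      rwa [Submodule.mkQ_apply, Submodule.Quotient.mk_eq_zero] at h1
    rw [hB, Submodule.mem_comap] at h2
    obtain ⟨X, hX⟩ := h2
    refine ⟨a, X, ?_⟩
    rw [hsum a, hX]
    simp [bT]
  · intro a X h
    have h1 : (∑ l, a l • c l : T) ∈ B := by
      rw [hB, Submodule.mem_comap]
      refine ⟨X, ?_⟩
      rw [← h, hsum a]
      rfl
    have h2 : ∑ l, a l • e l = 0 := by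
      rw [← hmk, Submodule.mkQ_apply, Submodule.Quotient.mk_eq_zero]
      exact h1
    have h3 := Fintype.linearIndependent_iff.1 e.linearIndependent a h2
    funext l
    exact h3 l

end Fermat.Agent.S53
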