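import Fermat.Agent.S53.StepLift
import Fermat.Agent.S53.LimitRep
import Fermat.Agent.S53.Tangent3

/-!
# S53 / Core K3 — Schlessinger's tower and its limit
-/

set_option autoImplicit false
set_option linter.unusedSectionVars false

noncomputable section

namespace Fermat.Agent.S53

open IsLocalRing GaloisRep

variable {𝒪 : Type} [CommRing 𝒪] [IsDomain 𝒪] [IsDiscreteValuationRing 𝒪]
  [IsAdicComplete (maximalIdeal 𝒪) 𝒪] [Finite (ResidueField 𝒪)]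
  {𝒟 : ∀ ⦃A : Type⦄ [CommRing A] [IsLocalRing A] [Algebra 𝒪 A], GaloisRepAdic A → Prop}

section tower

variable {R : Type} [CommRing R] [IsLocalRing R] [IsNoetherianRing R]
  [IsAdicComplete (maximalIdeal R) R] [Algebra 𝒪 R] [IsLocalHom (algebraMap 𝒪 R)]

variable (𝒟 R) in
/-- a stage of the tower: an open ideal and a `𝒟`-lift over the quotient. -/
structure Stage where
  J : Ideal R
  n : ℕ
  hn : maximalIdeal R ^ n ≤ J
  r : GQ →* M2 (R ⧸ J)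
  hr : IsDLiftQ 𝒟 J r

lemma Stage.ne_top (s : Stage 𝒟 R) : s.J ≠ ⊤ := s.hr.ne_top

instance Stage.isLocalRing (s : Stage 𝒟 R) : IsLocalRing (R ⧸ s.J) :=
  quot_isLocalRing _ s.ne_top

lemma Stage.isDLift (s : Stage 𝒟 R) : IsDLift 𝒟 s.r := s.hr.isDLift

lemma Stage.isTest (hR : Function.Surjective (residue R ∘ algebraMap 𝒪 R)) (s : Stage 𝒟 R) :
    IsArtinianTestAlgebra 𝒪 (R ⧸ s.J) :=
  quot_isTest hR s.J s.ne_top s.n s.hn

/-- `s'` is obtained from `s` by Schlessinger's step. -/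
def Stage.IsNext (s s' : Stage 𝒟 R) : Prop :=
  ∃ h : s'.J ≤ s.J, maximalIdeal R * s.J ≤ s'.J ∧
    mapRep (Ideal.Quotient.factor h) s'.r = s.r ∧
    ∀ (K : Ideal R) (hK : K ≤ s.J) (rK : GQ →* M2 (R ⧸ K)), maximalIdeal R * s.J ≤ K →
      IsDLiftQ 𝒟 K rK → mapRep (Ideal.Quotient.factor hK) rK = s.r → s'.J ≤ K

lemma Stage.exists_isNext (h𝒟 : IsDeformationCondition 𝒪 𝒟)
    (hR : Function.Surjective (residue R ∘ algebraMap 𝒪 R)) (s : Stage 𝒟 R) :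
    ∃ s' : Stage 𝒟 R, s.IsNext s' := by
  obtain ⟨J', hJ', r', hm, hr', hc, hmin⟩ := exists_min_lift h𝒟 hR s.J s.n s.hn s.r s.hr
  refine ⟨⟨J', s.n + 1, ?_, r', hr'⟩, hJ', hm, hc, hmin⟩
  rw [pow_succ']
  exact le_trans (Ideal.mul_mono_right s.hn) hm

open Classical in
/-- the next stage. -/
def Stage.next (s : Stage 𝒟 R) : Stage 𝒟 R :=
  if h : ∃ s' : Stage 𝒟 R, s.IsNext s' then h.choose else s

lemma Stage.isNext_next (h𝒟 : IsDeformationCondition 𝒪 𝒟)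
    (hR : Function.Surjective (residue R ∘ algebraMap 𝒪 R)) (s : Stage 𝒟 R) :
    s.IsNext s.next := by
  have h := s.exists_isNext h𝒟 hR
  rw [Stage.next, dif_pos h]
  exact h.choose_spec

/-- the tower. -/
def tower (s0 : Stage 𝒟 R) : ℕ → Stage 𝒟 R
  | 0 => s0
  | q + 1 => (tower s0 q).next

lemma tower_isNext (h𝒟 : IsDeformationCondition 𝒪 𝒟)
    (hR : Function.Surjective (residue R ∘ algebraMap 𝒪 R)) (s0 : Stage 𝒟 R) (q : ℕ) :
    (tower s0 q).IsNext (tower s0 (q + 1)) :=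
  (tower s0 q).isNext_next h𝒟 hR

lemma tower_antitone (h𝒟 : IsDeformationCondition 𝒪 𝒟)
    (hR : Function.Surjective (residue R ∘ algebraMap 𝒪 R)) (s0 : Stage 𝒟 R) :
    Antitone (fun q => (tower s0 q).J) :=
  antitone_nat_of_succ_le fun q => (tower_isNext h𝒟 hR s0 q).1

lemma tower_compat (h𝒟 : IsDeformationCondition 𝒪 𝒟)
    (hR : Function.Surjective (residue R ∘ algebraMap 𝒪 R)) (s0 : Stage 𝒟 R) (q : ℕ) :
    mapRep (Ideal.Quotient.factor (tower_antitone h𝒟 hR s0 (Nat.le_succ q)))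
      (tower s0 (q + 1)).r = (tower s0 q).r :=
  (tower_isNext h𝒟 hR s0 q).2.2.1

/-- the limit ideal. -/
def Jinf (s0 : Stage 𝒟 R) : Ideal R := ⨅ q, (tower s0 q).J

lemma Jinf_le (s0 : Stage 𝒟 R) (q : ℕ) : Jinf s0 ≤ (tower s0 q).J := iInf_le _ q

lemma Jinf_ne_top (s0 : Stage 𝒟 R) : Jinf s0 ≠ ⊤ := fun h =>
  s0.ne_top (top_le_iff.1 (h ▸ Jinf_le s0 0))

instance Jinf_isLocalRing (s0 : Stage 𝒟 R) : IsLocalRing (R ⧸ Jinf s0) :=
  quot_isLocalRing _ (Jinf_ne_top s0)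

instance Jinf_isAdicComplete (s0 : Stage 𝒟 R) :
    IsAdicComplete (maximalIdeal (R ⧸ Jinf s0)) (R ⧸ Jinf s0) :=
  quot_isAdicComplete _ (Jinf_ne_top s0)

instance Jinf_isLocalHom (s0 : Stage 𝒟 R) : IsLocalHom (algebraMap 𝒪 (R ⧸ Jinf s0)) :=
  quot_isLocalHom _ (Jinf_ne_top s0)

lemma Jinf_residue_surjective (hR : Function.Surjective (residue R ∘ algebraMap 𝒪 R))
    (s0 : Stage 𝒟 R) :
    Function.Surjective (residue (R ⧸ Jinf s0) ∘ algebraMap 𝒪 (R ⧸ Jinf s0)) :=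
  quot_residue_surjective hR _ (Jinf_ne_top s0)

lemma exists_rLim (h𝒟 : IsDeformationCondition 𝒪 𝒟)
    (hR : Function.Surjective (residue R ∘ algebraMap 𝒪 R)) (s0 : Stage 𝒟 R) :
    ∃ r' : GQ →* M2 (R ⧸ Jinf s0),
      ∀ q, mapRep (Ideal.Quotient.factor (Jinf_le s0 q)) r' = (tower s0 q).r :=
  exists_limit_rep (fun q => (tower s0 q).J) (tower_antitone h𝒟 hR s0)
    (fun q => (tower s0 q).r) (tower_compat h𝒟 hR s0)

/-- the limit representation. -/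
def rLim (h𝒟 : IsDeformationCondition 𝒪 𝒟)
    (hR : Function.Surjective (residue R ∘ algebraMap 𝒪 R)) (s0 : Stage 𝒟 R) :
    GQ →* M2 (R ⧸ Jinf s0) := (exists_rLim h𝒟 hR s0).choose

lemma rLim_spec (h𝒟 : IsDeformationCondition 𝒪 𝒟)
    (hR : Function.Surjective (residue R ∘ algebraMap 𝒪 R)) (s0 : Stage 𝒟 R) (q : ℕ) :
    mapRep (Ideal.Quotient.factor (Jinf_le s0 q)) (rLim h𝒟 hR s0) = (tower s0 q).r :=
  (exists_rLim h𝒟 hR s0).choose_spec q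

/-- every `𝒪`-algebra hom from the limit ring to a test algebra factors through a stage. -/
lemma exists_stage_le_ker (h𝒟 : IsDeformationCondition 𝒪 𝒟)
    (hR : Function.Surjective (residue R ∘ algebraMap 𝒪 R)) (s0 : Stage 𝒟 R)
    {A : Type} [CommRing A] [IsLocalRing A] [Algebra 𝒪 A] (hA : IsArtinianTestAlgebra 𝒪 A)
    (u : R ⧸ Jinf s0 →ₐ[𝒪] A) :
    ∃ q, ∀ x ∈ (tower s0 q).J, u (Ideal.Quotient.mk _ x) = 0 := by
  obtain ⟨n, hn⟩ := test_exists_pow_eq_bot hA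
  set v : R →ₐ[𝒪] A := u.comp (Ideal.Quotient.mkₐ 𝒪 (Jinf s0)) with hv
  have hvloc : IsLocalHom (v : R →+* A) := test_isLocalHom hA.isLocalHom hA.residue_surjective v
  have h1 : maximalIdeal R ≤ (maximalIdeal A).comap (v : R →+* A) := by
    intro x hx
    rw [Ideal.mem_comap, mem_maximalIdeal, mem_nonunits_iff]
    intro hu
    exact hx (hvloc.map_nonunit _ hu)
  have h2 : maximalIdeal R ^ n ≤ RingHom.ker (v : R →+* A) := by
    have : (maximalIdeal R ^ n).map (v : R →+* A) ≤ maximalIdeal A ^ n := by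
      rw [Ideal.map_pow]
      exact Ideal.pow_right_mono (Ideal.map_le_iff_le_comap.2 h1) n
    intro x hx
    have hx' := this (Ideal.mem_map_of_mem _ hx)
    rw [hn] at hx'
    exact hx'
  have h3 : Jinf s0 ≤ RingHom.ker (v : R →+* A) := by
    intro x hx
    rw [RingHom.mem_ker]
    show u (Ideal.Quotient.mk _ x) = 0
    rw [Ideal.Quotient.eq_zero_iff_mem.2 hx, map_zero]
  obtain ⟨q, hq⟩ := chevalley (fun q => (tower s0 q).J) (tower_antitone h𝒟 hR s0) n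
  refine ⟨q, fun x hx => ?_⟩
  have := (sup_le h3 h2) (hq hx)
  exact this

/-- (hD) every push-forward of the limit representation to a test algebra is a `𝒟`-lift. -/
theorem rLim_isDLift_map (h𝒟 : IsDeformationCondition 𝒪 𝒟)
    (hR : Function.Surjective (residue R ∘ algebraMap 𝒪 R)) (s0 : Stage 𝒟 R)
    {A : Type} [CommRing A] [IsLocalRing A] [Algebra 𝒪 A] (hA : IsArtinianTestAlgebra 𝒪 A)
    (u : R ⧸ Jinf s0 →ₐ[𝒪] A) :
    IsDLift 𝒟 (mapRep (u : R ⧸ Jinf s0 →+* A) (rLim h𝒟 hR s0)) := by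
  obtain ⟨q, hq⟩ := exists_stage_le_ker h𝒟 hR s0 hA u
  set v : R →ₐ[𝒪] A := u.comp (Ideal.Quotient.mkₐ 𝒪 (Jinf s0)) with hv
  let ubar : R ⧸ (tower s0 q).J →ₐ[𝒪] A := Ideal.Quotient.liftₐ (tower s0 q).J v hq
  have hfac : (u : R ⧸ Jinf s0 →+* A) =
      (ubar : R ⧸ (tower s0 q).J →+* A).comp (Ideal.Quotient.factor (Jinf_le s0 q)) := by
    refine Ideal.Quotient.ringHom_ext ?_
    refine RingHom.ext fun x => ?_
    rfl
  rw [hfac, ← mapRep_mapRep, rLim_spec]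
  exact (tower s0 q).isDLift.map h𝒟 ((tower s0 q).isTest hR) hA ubar

/-- the limit representation is continuous. -/
theorem rLim_matCont (h𝒟 : IsDeformationCondition 𝒪 𝒟)
    (hR : Function.Surjective (residue R ∘ algebraMap 𝒪 R)) (s0 : Stage 𝒟 R) :
    MatCont (rLim h𝒟 hR s0) := by
  intro n
  obtain ⟨q, hq⟩ := chevalley (fun q => (tower s0 q).J) (tower_antitone h𝒟 hR s0) n
  obtain ⟨L, hL, hσ⟩ := (matCont_test_iff ((tower s0 q).isTest hR) _).1 (tower s0 q).isDLift.matCont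
  refine ⟨L, hL, fun σ hs i j => ?_⟩
  obtain ⟨x, hx⟩ := Ideal.Quotient.mk_surjective (rLim h𝒟 hR s0 σ i j - (1 : M2 (R ⧸ Jinf s0)) i j)
  rw [← hx]
  have h1 : Ideal.Quotient.mk (tower s0 q).J x = 0 := by
    have e1 : Ideal.Quotient.mk (tower s0 q).J x =
        Ideal.Quotient.factor (Jinf_le s0 q) (Ideal.Quotient.mk (Jinf s0) x) := by
      rw [Ideal.Quotient.factor_mk]
    rw [e1, hx, map_sub]
    have e2 := congrFun (congrFun (congrArg (fun r => r σ) (rLim_spec h𝒟 hR s0 q)) i) j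
    simp only [mapRep_apply] at e2
    rw [e2, hσ σ hs]
    by_cases hij : i = j
    · subst hij; simp
    · simp [Matrix.one_apply_ne hij]
  have h2 : x ∈ (⨅ q, (tower s0 q).J) ⊔ maximalIdeal R ^ n :=
    hq (Ideal.Quotient.eq_zero_iff_mem.1 h1)
  obtain ⟨a, ha, b, hb, hab⟩ := Submodule.mem_sup.1 h2
  rw [← hab, map_add, Ideal.Quotient.eq_zero_iff_mem.2 (show a ∈ Jinf s0 from ha), zero_add,
    quot_maximalIdeal _ (Jinf_ne_top s0), ← Ideal.map_pow]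
  exact Ideal.mem_map_of_mem _ hb

/-- the limit representation satisfies the deformation condition. -/
theorem rLim_cond (h𝒟 : IsDeformationCondition 𝒪 𝒟)
    (hR : Function.Surjective (residue R ∘ algebraMap 𝒪 R)) (s0 : Stage 𝒟 R) :
    𝒟 (matRep (rLim h𝒟 hR s0) (rLim_matCont h𝒟 hR s0)) := by
  rw [h𝒟.iff_forall_surjective (Jinf_isLocalHom s0) (Jinf_residue_surjective hR s0)]
  intro B _ _ _ hB q hq _
  obtain ⟨hc, hD⟩ := rLim_isDLift_map h𝒟 hR s0 hB q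
  obtain ⟨e⟩ := matRep_baseChangeAlong (q : R ⧸ Jinf s0 →+* B) hq (rLim h𝒟 hR s0)
    (rLim_matCont h𝒟 hR s0) hc
  exact h𝒟.of_isEquiv hB ⟨e.symm⟩ hD

/-- (hL) lifting homs along small extensions. -/
theorem rLim_lift (h𝒟 : IsDeformationCondition 𝒪 𝒟)
    (hR : Function.Surjective (residue R ∘ algebraMap 𝒪 R)) (s0 : Stage 𝒟 R)
    {A : Type} [CommRing A] [IsLocalRing A] [Algebra 𝒪 A] (hA : IsArtinianTestAlgebra 𝒪 A)
    (t : A) (ht0 : t ≠ 0) (htm : t ∈ maximalIdeal A) (hsoc : ∀ x ∈ maximalIdeal A, x * t = 0)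
    (r' : GQ →* M2 A) (hr' : IsDLift 𝒟 r')
    (u : R ⧸ Jinf s0 →ₐ[𝒪] A ⧸ Ideal.span {t})
    (hu : mapRep (u : R ⧸ Jinf s0 →+* A ⧸ Ideal.span {t}) (rLim h𝒟 hR s0) =
      mapRep (Ideal.Quotient.mk (Ideal.span {t})) r')
    (w₀ : R →ₐ[𝒪] A)
    (hw₀ : ∀ x, Ideal.Quotient.mk (Ideal.span {t}) (w₀ x) = u (Ideal.Quotient.mk _ x)) :
    ∃ w : R ⧸ Jinf s0 →ₐ[𝒪] A, (Ideal.Quotient.mkₐ 𝒪 (Ideal.span {t})).comp w = u := by
  have htop : Ideal.span {t} ≠ ⊤ := by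
    intro h
    have : (1 : A) ∈ maximalIdeal A := by
      have h1 : (1 : A) ∈ Ideal.span {t} := h ▸ Submodule.mem_top
      exact (Ideal.span_singleton_le_iff_mem (I := maximalIdeal A)).2 htm h1
    exact (maximalIdeal.isMaximal A).ne_top ((Ideal.eq_top_iff_one _).2 this)
  haveI := quot_isLocalRing (Ideal.span {t}) htop
  have hA0 : IsArtinianTestAlgebra 𝒪 (A ⧸ Ideal.span {t}) := test_quotient hA _ htop
  obtain ⟨q, hq⟩ := exists_stage_le_ker h𝒟 hR s0 hA0 u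
  have hw : ∀ x ∈ (tower s0 q).J, (Ideal.Quotient.mk (Ideal.span {t})) (w₀ x) = 0 := by
    intro x hx
    rw [hw₀, hq x hx]
  have hnext := tower_isNext h𝒟 hR s0 q
  obtain ⟨hle, hm, hc, hmin⟩ := hnext
  have hcompat : mapRep (Ideal.Quotient.lift (tower s0 q).J
        ((Ideal.Quotient.mk (Ideal.span {t})).comp (w₀ : R →+* A)) hw) (tower s0 q).r =
      mapRep (Ideal.Quotient.mk (Ideal.span {t})) r' := by
    rw [← hu, ← rLim_spec h𝒟 hR s0 q, mapRep_mapRep]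
    congr 1
    refine Ideal.Quotient.ringHom_ext ?_
    refine RingHom.ext fun x => ?_
    exact hw₀ x
  have hkill := lift_kills_next h𝒟 hR (tower s0 q).J (tower s0 q).n (tower s0 q).hn
    (tower s0 q).r (tower s0 q).hr (tower s0 (q + 1)).J hle hmin hA t ht0 htm hsoc r' hr' w₀ hw
    hcompat
  refine ⟨Ideal.Quotient.liftₐ (Jinf s0) w₀ (fun x hx => hkill x (Jinf_le s0 (q + 1) hx)), ?_⟩
  refine AlgHom.ext fun y => ?_
  obtain ⟨x, rfl⟩ := Ideal.Quotient.mk_surjective y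
  exact hw₀ x

end tower

section stage0

open TrivSqZeroExt

variable {ρbar : ResidualGaloisRep (ResidueField 𝒪)}

lemma exists_pi2 (d : ℕ) : ∃ π : PS 𝒪 d →ₐ[𝒪] Eps 𝒪 d,
    ∀ i, π (MvPowerSeries.X i) = inr (Pi.single i 1) :=
  ps_exists_lift (eps_isTest d) _ (fun i => (eps_mem_maximalIdeal d _).2 (fst_inr _ _))

variable (𝒪) in
/-- the projection `𝒪⟦X₁,…,X_d⟧ → k ⊕ k^d`. -/
def pi2 (d : ℕ) : PS 𝒪 d →ₐ[𝒪] Eps 𝒪 d := (exists_pi2 d).choose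

lemma pi2_X (d : ℕ) (i : Fin d) : pi2 𝒪 d (MvPowerSeries.X i) = inr (Pi.single i 1) :=
  (exists_pi2 d).choose_spec i

lemma eps_algebraMap (d : ℕ) (o : 𝒪) : algebraMap 𝒪 (Eps 𝒪 d) o = inl (residue 𝒪 o) := rfl

lemma pi2_surjective (d : ℕ) : Function.Surjective (pi2 𝒪 d) := by
  intro x
  obtain ⟨o, ho⟩ := Ideal.Quotient.mk_surjective x.fst
  have hv : ∀ i, ∃ oi : 𝒪, residue 𝒪 oi = x.snd i := fun i => Ideal.Quotient.mk_surjective _
  choose ov hov using hv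
  refine ⟨algebraMap 𝒪 (PS 𝒪 d) o + ∑ i, algebraMap 𝒪 (PS 𝒪 d) (ov i) * MvPowerSeries.X i, ?_⟩
  rw [map_add, map_sum, AlgHom.commutes, eps_algebraMap]
  have : ∀ i, pi2 𝒪 d (algebraMap 𝒪 (PS 𝒪 d) (ov i) * MvPowerSeries.X i) =
      inr (Pi.single i (x.snd i)) := by
    intro i
    rw [map_mul, AlgHom.commutes, eps_algebraMap, pi2_X, hov, inl_mul_inr]
    congr 1
    funext l
    by_cases hl : l = i
    · subst hl; simp
    · simp [Pi.single_eq_of_ne hl]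
  simp only [this]
  apply TrivSqZeroExt.ext
  · simp only [fst_add, fst_inl, fst_sum, fst_inr, Finset.sum_const_zero, add_zero]
    exact ho
  · simp only [snd_add, snd_inl, snd_sum, snd_inr, zero_add]
    funext l
    rw [Finset.sum_apply]
    simp [Pi.single_apply]

variable (𝒪) in
/-- the kernel of `pi2`. -/
def J2 (d : ℕ) : Ideal (PS 𝒪 d) := RingHom.ker (pi2 𝒪 d)

lemma J2_ne_top (d : ℕ) : J2 𝒪 d ≠ ⊤ := by
  intro h
  have h1 : (1 : PS 𝒪 d) ∈ J2 𝒪 d := h ▸ Submodule.mem_top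
  rw [J2, RingHom.mem_ker, map_one] at h1
  have := congrArg TrivSqZeroExt.fst h1
  simp at this

lemma eps_maximalIdeal_mul (d : ℕ) (x y : Eps 𝒪 d) (hx : x ∈ maximalIdeal (Eps 𝒪 d))
    (hy : y ∈ maximalIdeal (Eps 𝒪 d)) : x * y = 0 := by
  rw [eps_mem_maximalIdeal] at hx hy
  apply TrivSqZeroExt.ext
  · simp [hx]
  · simp [hx, hy]

lemma pow_two_le_J2 (d : ℕ) : maximalIdeal (PS 𝒪 d) ^ 2 ≤ J2 𝒪 d := by
  have hloc : IsLocalHom ((pi2 𝒪 d : PS 𝒪 d →ₐ[𝒪] Eps 𝒪 d) : PS 𝒪 d →+* Eps 𝒪 d) :=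
    test_isLocalHom (eps_isTest d).isLocalHom (eps_isTest d).residue_surjective _
  have hmem : ∀ x ∈ maximalIdeal (PS 𝒪 d), pi2 𝒪 d x ∈ maximalIdeal (Eps 𝒪 d) := by
    intro x hx
    rw [mem_maximalIdeal, mem_nonunits_iff]
    intro hu
    exact hx (hloc.map_nonunit _ hu)
  rw [pow_two, Ideal.mul_le]
  intro x hx y hy
  rw [J2, RingHom.mem_ker, map_mul]
  exact eps_maximalIdeal_mul d _ _ (hmem x hx) (hmem y hy)

variable (𝒪) in
/-- the isomorphism `P ⧸ J2 ≃ k ⊕ k^d`. -/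
def e2 (d : ℕ) : (PS 𝒪 d ⧸ J2 𝒪 d) ≃ₐ[𝒪] Eps 𝒪 d :=
  Ideal.quotientKerAlgEquivOfSurjective (pi2_surjective d)

lemma e2_mk (d : ℕ) (x : PS 𝒪 d) : e2 𝒪 d (Ideal.Quotient.mk _ x) = pi2 𝒪 d x := rfl

lemma J2_isTest (d : ℕ) :
    haveI := quot_isLocalRing (J2 𝒪 d) (J2_ne_top d)
    IsArtinianTestAlgebra 𝒪 (PS 𝒪 d ⧸ J2 𝒪 d) :=
  quot_isTest (ps_residue_surjective d) (J2 𝒪 d) (J2_ne_top d) 2 (pow_two_le_J2 d)

/-- the initial stage. -/
def stage0 (h𝒟 : IsDeformationCondition 𝒪 𝒟) {d : ℕ} (rE : GQ →* M2 (Eps 𝒪 d))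
    (hrE : IsDLift 𝒟 rE) : Stage 𝒟 (PS 𝒪 d) where
  J := J2 𝒪 d
  n := 2
  hn := pow_two_le_J2 d
  r := mapRep (((e2 𝒪 d).symm : Eps 𝒪 d →ₐ[𝒪] PS 𝒪 d ⧸ J2 𝒪 d) :
    Eps 𝒪 d →+* PS 𝒪 d ⧸ J2 𝒪 d) rE
  hr := ⟨J2_ne_top d, by
    haveI := quot_isLocalRing (J2 𝒪 d) (J2_ne_top d)
    exact hrE.map h𝒟 (eps_isTest d) (J2_isTest d) _⟩

variable (h𝒟 : IsDeformationCondition 𝒪 𝒟) {d : ℕ} (rE : GQ →* M2 (Eps 𝒪 d))
  (hrE : IsDLift 𝒟 rE)

/-- the projection from the limit ring to `k ⊕ k^d`. -/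
def pi2bar : (PS 𝒪 d ⧸ Jinf (stage0 h𝒟 rE hrE)) →ₐ[𝒪] Eps 𝒪 d :=
  Ideal.Quotient.liftₐ (Jinf (stage0 h𝒟 rE hrE)) (pi2 𝒪 d)
    (fun x hx => Jinf_le (stage0 h𝒟 rE hrE) 0 hx)

lemma pi2bar_mk (x : PS 𝒪 d) :
    pi2bar h𝒟 rE hrE (Ideal.Quotient.mk _ x) = pi2 𝒪 d x := rfl

lemma mapRep_pi2bar :
    mapRep ((pi2bar h𝒟 rE hrE : (PS 𝒪 d ⧸ Jinf (stage0 h𝒟 rE hrE)) →ₐ[𝒪] Eps 𝒪 d) :
      (PS 𝒪 d ⧸ Jinf (stage0 h𝒟 rE hrE)) →+* Eps 𝒪 d)
      (rLim h𝒟 (ps_residue_surjective d) (stage0 h𝒟 rE hrE)) = rE := by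
  refine MonoidHom.ext fun g => Matrix.ext fun i j => ?_
  rw [mapRep_apply]
  obtain ⟨x, hx⟩ := Ideal.Quotient.mk_surjective
    (rLim h𝒟 (ps_residue_surjective d) (stage0 h𝒟 rE hrE) g i j)
  have h0 := congrFun (congrFun (congrArg (fun r => r g)
    (rLim_spec h𝒟 (ps_residue_surjective d) (stage0 h𝒟 rE hrE) 0)) i) j
  simp only [mapRep_apply] at h0
  rw [← hx] at h0 ⊢
  have h1 : (Ideal.Quotient.mk (J2 𝒪 d)) x = (e2 𝒪 d).symm (rE g i j) := h0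
  have h2 := congrArg (e2 𝒪 d) h1
  rw [AlgEquiv.apply_symm_apply, e2_mk] at h2
  exact h2

lemma isExact_of_epsFun {c : Fin d → GQ → M2 (ResidueField 𝒪)}
    (hE : ∀ g, rE g = epsFun ρbar c g) : IsExact ρbar rE := by
  rw [isExact_iff]
  intro g i j o ho
  rw [eps_mem_maximalIdeal, hE]
  simp only [epsFun, Matrix.add_apply, Matrix.map_apply, Matrix.of_apply, fst_sub, fst_add,
    fst_inl, fst_inr, add_zero]
  rw [← ho, sub_eq_zero]
  rfl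

theorem rLim_isExact {c : Fin d → GQ → M2 (ResidueField 𝒪)}
    (hE : ∀ g, rE g = epsFun ρbar c g) :
    IsExact ρbar (rLim h𝒟 (ps_residue_surjective d) (stage0 h𝒟 rE hrE)) := by
  refine IsExact.of_map (pi2bar h𝒟 rE hrE) ?_
  rw [mapRep_pi2bar]
  exact isExact_of_epsFun rE hE

theorem rLim_T1 {c : Fin d → GQ → M2 (ResidueField 𝒪)}
    (hE : ∀ g, rE g = epsFun ρbar c g)
    (hspan : ∀ b, IsTan ρbar 𝒟 b →
        ∃ (a : Fin d → ResidueField 𝒪) (X : M2 (ResidueField 𝒪)), b = tanSum c a + cob ρbar X)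
    (b : GQ → M2 (ResidueField 𝒪)) (hb : IsTan ρbar 𝒟 b) :
    ∃ (ψ : (PS 𝒪 d ⧸ Jinf (stage0 h𝒟 rE hrE)) →ₐ[𝒪] DualNumber (ResidueField 𝒪))
      (X : M2 (ResidueField 𝒪)),
      ∀ g, mapRep (ψ : (PS 𝒪 d ⧸ Jinf (stage0 h𝒟 rE hrE)) →+* DualNumber (ResidueField 𝒪))
        (rLim h𝒟 (ps_residue_surjective d) (stage0 h𝒟 rE hrE)) g =
          tanFun ρbar (b - cob ρbar X) g := by
  obtain ⟨a, X, hab⟩ := hspan b hb
  refine ⟨(epsTo a).comp (pi2bar h𝒟 rE hrE), X, fun g => ?_⟩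
  have e : b - cob ρbar X = tanSum c a := by rw [hab]; abel
  rw [e, ← mapRep_epsTo c a rE hE g]
  show mapRep ((epsTo a : Eps 𝒪 d →ₐ[𝒪] DualNumber (ResidueField 𝒪)) :
      Eps 𝒪 d →+* DualNumber (ResidueField 𝒪))
    (mapRep ((pi2bar h𝒟 rE hrE : (PS 𝒪 d ⧸ Jinf (stage0 h𝒟 rE hrE)) →ₐ[𝒪] Eps 𝒪 d) :
      (PS 𝒪 d ⧸ Jinf (stage0 h𝒟 rE hrE)) →+* Eps 𝒪 d)
      (rLim h𝒟 (ps_residue_surjective d) (stage0 h𝒟 rE hrE))) g = _
  rw [mapRep_pi2bar]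

theorem rLim_T2 {c : Fin d → GQ → M2 (ResidueField 𝒪)}
    (hE : ∀ g, rE g = epsFun ρbar c g)
    (hindep : ∀ (a : Fin d → ResidueField 𝒪) (X : M2 (ResidueField 𝒪)),
        tanSum c a = cob ρbar X → a = 0)
    (ψ : (PS 𝒪 d ⧸ Jinf (stage0 h𝒟 rE hrE)) →ₐ[𝒪] DualNumber (ResidueField 𝒪))
    (Y : M2 (ResidueField 𝒪))
    (hψ : ∀ g, mapRep (ψ : (PS 𝒪 d ⧸ Jinf (stage0 h𝒟 rE hrE)) →+* DualNumber (ResidueField 𝒪))
        (rLim h𝒟 (ps_residue_surjective d) (stage0 h𝒟 rE hrE)) g =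
          tanFun ρbar (cob ρbar Y) g) :
    ∀ x, (ψ x).snd = 0 := by
  set a : Fin d → ResidueField 𝒪 :=
    fun i => (ψ (Ideal.Quotient.mk _ (MvPowerSeries.X i))).snd with ha
  set v : PS 𝒪 d →ₐ[𝒪] DualNumber (ResidueField 𝒪) :=
    ψ.comp (Ideal.Quotient.mkₐ 𝒪 (Jinf (stage0 h𝒟 rE hrE))) with hv
  have hvloc : IsLocalHom (v : PS 𝒪 d →+* DualNumber (ResidueField 𝒪)) :=
    test_isLocalHom (dual_isTest (𝒪 := 𝒪)).isLocalHom (dual_isTest (𝒪 := 𝒪)).residue_surjective v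
  have hveq : v = (epsTo a).comp (pi2 𝒪 d) := by
    refine ps_algHom_ext dual_isTest _ _ fun i => ?_
    have h1 : v (MvPowerSeries.X i) ∈ maximalIdeal (DualNumber (ResidueField 𝒪)) := by
      rw [mem_maximalIdeal, mem_nonunits_iff]
      intro hu
      exact (ps_X_mem d i) (hvloc.map_nonunit _ hu)
    rw [dual_mem_maximalIdeal] at h1
    apply TrivSqZeroExt.ext
    · rw [h1]
      show _ = (epsTo a (pi2 𝒪 d (MvPowerSeries.X i))).fst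
      rw [epsTo_fst, pi2_X, fst_inr]
    · show a i = (epsTo a (pi2 𝒪 d (MvPowerSeries.X i))).snd
      rw [epsTo_snd, pi2_X, snd_inr]
      simp [Pi.single_apply]
  have hψeq : ∀ y, ψ y = epsTo a (pi2bar h𝒟 rE hrE y) := by
    intro y
    obtain ⟨x, rfl⟩ := Ideal.Quotient.mk_surjective y
    have := congrArg (fun f : PS 𝒪 d →ₐ[𝒪] DualNumber (ResidueField 𝒪) => f x) hveq
    exact this
  have h2 : ∀ g, tanFun ρbar (tanSum c a) g = tanFun ρbar (cob ρbar Y) g := by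
    intro g
    rw [← hψ g, ← mapRep_epsTo c a rE hE g]
    have key := mapRep_pi2bar h𝒟 rE hrE
    conv_lhs => rw [← key]
    refine Matrix.ext fun i j => ?_
    simp only [mapRep_apply]
    exact (hψeq _).symm
  have h3 : tanSum c a = cob ρbar Y := by
    funext g
    rw [← tanFun_map_snd (ρbar := ρbar) (tanSum c a) g, h2 g, tanFun_map_snd]
  have h4 := hindep a Y h3
  intro y
  rw [hψeq y, epsTo_snd, h4]
  simp

end stage0

end Fermat.Agent.S53
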